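/-
Hecke operators on lattices of parabolic homomorphisms, from their action on cusp forms:
vanishing, and injectivity of `T_ℓ - (ℓ + 1)` by the maximum principle.
-/
import Fermat.Agent.GalRep.Glue
import Fermat.Agent.Period.EichlerShimura

set_option autoImplicit false

noncomputable section

namespace Fermat.Agent.NewVec

open UpperHalfPlane CongruenceSubgroup Filter Topology
open Fermat.Agent.GalRep
open ModularForm (heckeDiagMatrix heckeMatrix coe_heckeDiagMatrix_smul coe_heckeMatrix_smul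
  slash_heckeDiagMatrix_apply slash_heckeMatrix_apply)
open scoped MatrixGroups ModularForm Modular

variable {N ℓ : ℕ}

/-! ## Decomposition of homomorphisms over a basis of their values -/

theorem exists_decomp [NeZero N] {A : Type} [AddCommGroup A] [IsAddTorsionFree A]
    (χ : ParHom N A) :
    ∃ (ι : Type) (_ : Fintype ι) (φ : ι → ParHom N ℤ) (e : ι → A),
      χ = ∑ i, parMap (zmultiplesHom A (e i)) (φ i) ∧
      ∀ c : ι → ℤ, ∑ i, c i • e i = 0 → c = 0 := by
  obtain ⟨s, hs⟩ := exists_generators N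
  let W : Submodule ℤ A := Submodule.span ℤ
    ((fun g => (χ : Additive (Gamma0 N) →+ A) (Additive.ofMul g)) '' (s : Set (Gamma0 N)))
  have hW : ∀ x, (χ : Additive (Gamma0 N) →+ A) x ∈ W := by
    intro x
    obtain ⟨γ, rfl⟩ := Additive.ofMul.surjective x
    have hγ : γ ∈ Subgroup.closure (s : Set (Gamma0 N)) := hs ▸ Subgroup.mem_top γ
    induction hγ using Subgroup.closure_induction with
    | mem g hg => exact Submodule.subset_span ⟨g, hg, rfl⟩
    | one => rw [ofMul_one, map_zero]; exact W.zero_mem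
    | mul a b _ _ ha hb => rw [ofMul_mul, map_add]; exact W.add_mem ha hb
    | inv a _ ha => rw [ofMul_inv, map_neg]; exact W.neg_mem ha
  haveI : Module.Finite ℤ W := Module.Finite.span_of_finite ℤ ((s.finite_toSet).image _)
  haveI : IsAddTorsionFree W :=
    ⟨fun n hn a b h => Subtype.ext (nsmul_right_injective hn (congrArg Subtype.val h))⟩
  haveI : Module.Free ℤ W := Module.free_of_finite_type_torsion_free'
  let b := Module.Free.chooseBasis ℤ W
  let χW : Additive (Gamma0 N) →+ W :=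
    AddMonoidHom.mk' (fun x => ⟨(χ : Additive (Gamma0 N) →+ A) x, hW x⟩)
      (fun x y => Subtype.ext (map_add _ x y))
  let φ : Module.Free.ChooseBasisIndex ℤ W → ParHom N ℤ := fun i =>
    ⟨(b.coord i).toAddMonoidHom.comp χW, fun γ hγ => by
      show b.coord i (χW (Additive.ofMul γ)) = 0
      rw [show χW (Additive.ofMul γ) = 0 from Subtype.ext (χ.2 γ hγ), map_zero]⟩
  refine ⟨_, inferInstance, φ, fun i => ((b i : W) : A), ?_, fun c hc => ?_⟩
  · refine Subtype.ext (AddMonoidHom.ext fun x => ?_)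
    rw [AddSubmonoidClass.coe_finsetSum, AddMonoidHom.finsetSum_apply]
    simp only [parMap_apply, φ, AddMonoidHom.comp_apply, zmultiplesHom_apply,
      LinearMap.toAddMonoidHom_coe, Module.Basis.coord_apply]
    have := congrArg Subtype.val (b.sum_repr (χW x))
    rw [AddSubmonoidClass.coe_finsetSum] at this
    exact this.symm
  · have h : ∑ i, c i • b i = 0 := Subtype.ext (by
      rw [AddSubmonoidClass.coe_finsetSum]; exact hc)
    exact funext fun i => Fintype.linearIndependent_iff.mp b.linearIndependent c h i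

/-- A polynomial killing integral homomorphisms kills all homomorphisms. -/
theorem heckePoly_eq_zero [NeZero N] {A : Type} [AddCommGroup A] [IsAddTorsionFree A]
    {P : HeckePoly N} (h : heckePolyHom N ℤ P = 0) : heckePolyHom N A P = 0 := by
  refine LinearMap.ext fun χ => ?_
  obtain ⟨ι, _, φ, e, rfl, -⟩ := exists_decomp χ
  rw [map_sum, LinearMap.zero_apply]
  exact Finset.sum_eq_zero fun i _ => by
    rw [heckePolyHom_natural, h, LinearMap.zero_apply, map_zero]

/-- Injectivity on integral homomorphisms gives injectivity on all homomorphisms. -/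
theorem eq_zero_of_heckePoly [NeZero N] {A : Type} [AddCommGroup A] [IsAddTorsionFree A]
    {P : HeckePoly N} (h : ∀ φ : ParHom N ℤ, heckePolyHom N ℤ P φ = 0 → φ = 0) {χ : ParHom N A}
    (hχ : heckePolyHom N A P χ = 0) : χ = 0 := by
  obtain ⟨ι, _, φ, e, rfl, hind⟩ := exists_decomp χ
  rw [map_sum] at hχ
  simp only [heckePolyHom_natural] at hχ
  have h0 : ∀ i, heckePolyHom N ℤ P (φ i) = 0 := fun i => by
    refine Subtype.ext (AddMonoidHom.ext fun x => ?_)
    have := DFunLike.congr_fun (congrArg Subtype.val hχ) x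
    rw [AddSubmonoidClass.coe_finsetSum, AddMonoidHom.finsetSum_apply] at this
    simp only [parMap_apply, zmultiplesHom_apply, ZeroMemClass.coe_zero,
      AddMonoidHom.zero_apply] at this
    exact congrFun (hind _ this) i
  exact Finset.sum_eq_zero fun i _ => by rw [h _ (h0 i), map_zero]

/-! ## Conjugation by `diag(-1, 1)` -/

theorem transferHom_charInvolution (hg : GoodIndex N ℓ) {A : Type} [AddCommGroup A]
    (χ : Additive (Gamma0 N) →+ A) :
    transferHom hg (ModularCurve.Period.charInvolution N ℤ A χ) =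
      ModularCurve.Period.charInvolution N ℤ A (transferHom hg χ) := by
  classical
  haveI : NeZero ℓ := ⟨hg.prime.ne_zero⟩
  let π : Option (Fin ℓ) → Option (Fin ℓ) :=
    Option.map fun b => ⟨(ℓ - (b : ℕ)) % ℓ, Nat.mod_lt _ hg.prime.pos⟩
  have hTmem : ∀ k : ℤ, ModularGroup.T ^ k ∈ Gamma0 N := fun k => by
    rw [Gamma0_mem, ModularGroup.coe_T_zpow]
    simp
  have key : ∀ i, ∃ t : Gamma0 N,
      ModularCurve.Period.jConjMat (heckeRep ℓ i) = gMat t * heckeRep ℓ (π i) := by
    intro i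
    cases i with
    | none => exact ⟨1, by rw [gMat_one, one_mul]; ext x y; fin_cases x <;> fin_cases y <;>
                simp [heckeRep, π, ModularCurve.Period.jConjMat]⟩
    | some b =>
      obtain ⟨k, hk⟩ : ∃ k : ℤ, -(b : ℤ) = (((ℓ - (b : ℕ)) % ℓ : ℕ) : ℤ) + k * ℓ := by
        rcases Nat.eq_zero_or_pos (b : ℕ) with h0 | h0
        · exact ⟨0, by simp [h0, Nat.mod_self]⟩
        · exact ⟨-1, by
            rw [Nat.mod_eq_of_lt (by omega), Nat.cast_sub b.isLt.le]
            ring⟩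
      refine ⟨⟨ModularGroup.T ^ k, hTmem k⟩, ?_⟩
      rw [show gMat (⟨ModularGroup.T ^ k, hTmem k⟩ : Gamma0 N) = !![1, k; 0, 1] from
        ModularGroup.coe_T_zpow k]
      ext x y
      fin_cases x <;> fin_cases y <;>
        simp only [heckeRep, π, ModularCurve.Period.jConjMat, Matrix.mul_apply, Fin.sum_univ_two,
          Option.map_some, Matrix.cons_val', Matrix.cons_val_zero, Matrix.cons_val_one,
          Matrix.cons_val_fin_one, Matrix.of_apply, Fin.mk_one, Fin.zero_eta, Fin.isValue]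
      all_goals first | linarith | ring
  choose t ht using key
  have hπ : Function.Bijective π := by
    refine (Finite.injective_iff_bijective).mp fun i j hij => ?_
    have h1 := congrArg ModularCurve.Period.jConjMat (ht i)
    have h2 := congrArg ModularCurve.Period.jConjMat (ht j)
    rw [ModularCurve.Period.jConjMat_jConjMat, ModularCurve.Period.jConjMat_mul] at h1 h2
    rw [hij] at h1
    have hJ : ∀ s : Gamma0 N, ModularCurve.Period.jConjMat (gMat s) =
        gMat (ModularCurve.Period.jConjGamma0 N s) := fun s => rfl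
    rw [hJ] at h1 h2
    have e : gMat (ModularCurve.Period.jConjGamma0 N (t i))⁻¹ * heckeRep ℓ i =
        gMat (ModularCurve.Period.jConjGamma0 N (t j))⁻¹ * heckeRep ℓ j := by
      rw [h1, h2, ← mul_assoc, ← mul_assoc, ← gMat_mul, ← gMat_mul, inv_mul_cancel, inv_mul_cancel]
    refine heckeRep_unique hg.prime ?_ e
    rw [gMat_det]
    exact_mod_cast hg.prime.not_dvd_one
  set πe := Equiv.ofBijective π hπ
  refine AddMonoidHom.ext fun x => ?_
  obtain ⟨γ, rfl⟩ := Additive.ofMul.surjective x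
  rw [transferHom_apply, ModularCurve.Period.charInvolution_apply, toMul_ofMul, transferHom_apply]
  have hco : ∀ i, trCoef hg (ModularCurve.Period.jConjGamma0 N γ) (π i) =
      (t i)⁻¹ * ModularCurve.Period.jConjGamma0 N (trCoef hg γ i) * t (trIdx hg γ i) := fun i => by
    refine (tr_unique hg (j := π (trIdx hg γ i)) ?_).2
    have h1 := congrArg ModularCurve.Period.jConjMat (trSpec hg γ i)
    rw [ModularCurve.Period.jConjMat_mul, ModularCurve.Period.jConjMat_mul, ht, ht] at h1
    have h2 : gMat (t i)⁻¹ * _ = gMat (t i)⁻¹ * _ := congrArg (fun X => gMat (t i)⁻¹ * X) h1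
    rw [← mul_assoc, ← mul_assoc (gMat (t i)⁻¹), ← gMat_mul, inv_mul_cancel, gMat_one, one_mul] at h2
    rw [gMat_mul, gMat_mul]
    simp only [← mul_assoc] at h2 ⊢
    exact h2
  conv_rhs => rw [← Equiv.sum_comp πe]
  simp only [πe, Equiv.ofBijective_apply, hco, ofMul_mul, ofMul_inv, map_add, map_neg,
    Finset.sum_add_distrib, Finset.sum_neg_distrib]
  rw [show ∑ i, χ (Additive.ofMul (t (trIdx hg γ i))) = ∑ i, χ (Additive.ofMul (t i)) from
    Equiv.sum_comp (trPerm hg γ) fun i => χ (Additive.ofMul (t i))]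
  simp only [ModularCurve.Period.charInvolution_apply, toMul_ofMul]
  abel

/-- The involution on parabolic homomorphisms. -/
def jPar (χ : ParHom N ℂ) : ParHom N ℂ :=
  ⟨ModularCurve.Period.charInvolution N ℤ ℂ (χ : Additive (Gamma0 N) →+ ℂ),
    ModularCurve.Period.charInvolution_mem_parabolicHoms N ℤ ℂ χ.2⟩

theorem heckePolyHom_jPar [NeZero N] (P : HeckePoly N) (χ : ParHom N ℂ) :
    heckePolyHom N ℂ P (jPar χ) = jPar (heckePolyHom N ℂ P χ) := by
  induction P using MvPolynomial.induction_on generalizing χ with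
  | C a => simp [jPar]
  | add P Q hP hQ =>
    rw [map_add, LinearMap.add_apply, LinearMap.add_apply, hP, hQ]
    exact Subtype.ext rfl
  | mul_X P i hP =>
    rw [map_mul, heckePolyHom_X, Module.End.mul_apply, Module.End.mul_apply, ← hP]
    congr 1
    exact Subtype.ext (transferHom_charInvolution (goodIndex i) _)

theorem exists_periods [NeZero N] (χ : ParHom N ℂ) :
    ∃ u v : CuspForm (Gamma0 N) 2, χ = periodParHom N u + jPar (periodParHom N v) := by
  have h : (χ : Additive (Gamma0 N) →+ ℂ) ∈ ModularCurve.Period.parabolicHoms ℂ (Gamma0 N) ℂ := χ.2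
  rw [← Period.range_periodHomPair] at h
  obtain ⟨⟨f, g⟩, hfg⟩ := h
  obtain ⟨pml, hpml, hdef⟩ := ModularCurve.periodHomPair_def N (Period.existsPeriodMapLinear N)
  rw [hdef, LinearMap.coprod_apply] at hfg
  refine ⟨f + g, f - g, Subtype.ext ?_⟩
  show (χ : Additive (Gamma0 N) →+ ℂ) = ModularCurve.periodMap N (f + g) +
    ModularCurve.Period.charInvolution N ℤ ℂ (ModularCurve.periodMap N (f - g))
  rw [← hpml, ← hpml, map_add, map_sub, ← hfg]
  refine AddMonoidHom.ext fun x => ?_
  simp only [LinearMap.comp_apply, LinearMap.add_apply, LinearMap.sub_apply, LinearMap.id_apply,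
    AddMonoidHom.add_apply, AddMonoidHom.sub_apply, ModularCurve.Period.charInvolution_apply]
  ring

/-- A polynomial killing cusp forms kills all parabolic homomorphisms. -/
theorem heckePoly_eq_zero_of_forms [NeZero N] {A : Type} [AddCommGroup A] [IsAddTorsionFree A]
    {P : HeckePoly N} (h : evForms N P = 0) : heckePolyHom N A P = 0 := by
  refine heckePoly_eq_zero ?_
  have hC : heckePolyHom N ℂ P = 0 := LinearMap.ext fun χ => by
    obtain ⟨u, v, rfl⟩ := exists_periods χ
    have h0 : ∀ f, heckePolyHom N ℂ P (periodParHom N f) = 0 := fun f => by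
      rw [periodPar_heckePoly, h, Subalgebra.coe_zero, LinearMap.zero_apply, map_zero]
    rw [map_add, heckePolyHom_jPar, h0, h0, zero_add, LinearMap.zero_apply]
    exact Subtype.ext (map_zero _)
  refine LinearMap.ext fun φ => Subtype.ext (AddMonoidHom.ext fun x => ?_)
  have h1 := heckePolyHom_natural (Int.castAddHom ℂ) P φ
  rw [hC, LinearMap.zero_apply] at h1
  have h2 := DFunLike.congr_fun (congrArg Subtype.val h1.symm) x
  simpa using h2

/-! ## The maximum principle -/

/-- `‖f‖ y`. -/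
def hNorm (f : ℍ → ℂ) (τ : ℍ) : ℝ := ‖f τ‖ * τ.im

theorem hNorm_petersson (f : ℍ → ℂ) (τ : ℍ) : ‖petersson 2 f f τ‖ = hNorm f τ ^ 2 := by
  simp [petersson, hNorm, abs_of_pos τ.im_pos]
  ring

theorem hNorm_slash_repGL (hℓ : ℓ ≠ 0) (f : ℍ → ℂ) (i : Option (Fin ℓ)) (τ : ℍ) :
    ‖(f ∣[(2 : ℤ)] repGL ℓ i) τ‖ * τ.im = hNorm f (repGL ℓ i • τ) := by
  have hℓ' : (0 : ℝ) < ℓ := Nat.cast_pos.mpr (Nat.pos_of_ne_zero hℓ)
  rw [hNorm]
  cases i with
  | none =>
    have him : (heckeDiagMatrix ℓ • τ).im = ℓ * τ.im := by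
      rw [← UpperHalfPlane.coe_im, coe_heckeDiagMatrix_smul hℓ]; simp
    rw [repGL, slash_heckeDiagMatrix_apply 2 hℓ, him, norm_mul]
    norm_num
    ring
  | some c =>
    have him : (heckeMatrix ℓ (c : ℕ) • τ).im = (ℓ : ℝ)⁻¹ * τ.im := by
      rw [← UpperHalfPlane.coe_im, coe_heckeMatrix_smul hℓ,
        show (ℓ : ℂ) = ((ℓ : ℝ) : ℂ) from rfl, Complex.div_ofReal_im]
      simp [mul_comm, div_eq_mul_inv]
    rw [repGL, slash_heckeMatrix_apply 2 hℓ, him, norm_mul, norm_inv, Complex.norm_natCast]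
    ring

variable [NeZero N]

theorem heckeT_eq_sum (hg : GoodIndex N ℓ) (f : CuspForm (Gamma0 N) 2) (τ : ℍ) :
    CuspForm.heckeTLin 2 hg.prime hg.not_dvd f τ = ∑ i, (⇑f ∣[(2 : ℤ)] repGL ℓ i) τ := by
  rw [CuspForm.heckeTLin_apply_apply, ModularForm.heckeT_eq_heckeU_add, Pi.add_apply,
    ModularForm.heckeU_def, Fintype.sum_option, Finset.sum_apply,
    ← Fin.sum_univ_eq_sum_range, add_comm]
  rfl

theorem hNorm_smul (f : CuspForm (Gamma0 N) 2) {γ : SL(2, ℤ)} (hγ : γ ∈ Gamma0 N) (τ : ℍ) :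
    hNorm f (γ • τ) = hNorm f τ := by
  have h1 := UpperHalfPlane.petersson_slash_SL 2 ⇑f ⇑f γ τ
  have h2 : ⇑f ∣[(2 : ℤ)] γ = ⇑f :=
    SlashInvariantFormClass.slash_action_eq f (γ : GL (Fin 2) ℝ) ⟨γ, hγ, rfl⟩
  rw [h2] at h1
  have h3 := congrArg norm h1
  rw [hNorm_petersson, hNorm_petersson] at h3
  exact ((pow_left_inj₀ (mul_nonneg (norm_nonneg _) τ.im_pos.le)
    (mul_nonneg (norm_nonneg _) (γ • τ).im_pos.le) two_ne_zero).mp h3).symm

open ConjAct Pointwise in
theorem hNorm_tendsto (f : CuspForm (Gamma0 N) 2) (g : SL(2, ℤ)) :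
    Tendsto (fun τ => hNorm f (g • τ)) atImInfty (𝓝 0) := by
  haveI : ((toConjAct (g : GL (Fin 2) ℝ)⁻¹) •
      ((Gamma0 N : Subgroup SL(2, ℤ)) : Subgroup (GL (Fin 2) ℝ))).IsArithmetic := by
    simpa [(show Rat.castHom ℝ = algebraMap ℚ ℝ by rfl), map_inv, Subgroup.map_map]
      using! Subgroup.IsArithmetic.conj _ (Matrix.SpecialLinearGroup.mapGL ℚ g)⁻¹
  have h := (CuspFormClass.zero_at_infty (CuspForm.translate f g)).petersson_isZeroAtImInfty_left 2 _
    (CuspForm.translate f g)
  rw [IsZeroAtImInfty, ZeroAtFilter, tendsto_zero_iff_norm_tendsto_zero] at h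
  have h2 : Tendsto (fun τ => hNorm f (g • τ) ^ 2) atImInfty (𝓝 0) := h.congr fun τ => by
    rw [← hNorm_petersson, ← UpperHalfPlane.petersson_slash_SL]
    rfl
  have h3 := h2.sqrt
  rw [Real.sqrt_zero] at h3
  exact h3.congr fun τ => Real.sqrt_sq (mul_nonneg (norm_nonneg _) (g • τ).im_pos.le)

/-- `‖f‖ y` attains its maximum. -/
theorem exists_max_hNorm (f : CuspForm (Gamma0 N) 2) : ∃ τ₀, ∀ τ, hNorm f τ ≤ hNorm f τ₀ := by
  classical
  by_cases h0 : ∀ τ, hNorm f τ = 0
  · exact ⟨I, fun τ => by rw [h0, h0]⟩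
  push Not at h0
  obtain ⟨z₁, hz₁⟩ := h0
  have hnn : ∀ τ, 0 ≤ hNorm f τ := fun τ => mul_nonneg (norm_nonneg _) τ.im_pos.le
  have hpos : 0 < hNorm f z₁ := lt_of_le_of_ne (hnn _) (Ne.symm hz₁)
  haveI : Fintype (SL(2, ℤ) ⧸ Gamma0 N) := Fintype.ofFinite _
  let δ : SL(2, ℤ) ⧸ Gamma0 N → SL(2, ℤ) := fun q => q.out⁻¹
  have hev : ∀ q, ∃ Y : ℝ, ∀ w : ℍ, Y ≤ w.im → hNorm f (δ q • w) < hNorm f z₁ := fun q =>
    (atImInfty_mem _).mp ((hNorm_tendsto f (δ q)).eventually_lt_const hpos)
  choose Y hY using hev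
  obtain ⟨Y₀, hY₀⟩ := (Finset.univ.image Y).bddAbove
  have hred : ∀ z : ℍ, hNorm f z₁ ≤ hNorm f z → ∃ x ∈ ⋃ q, (fun w => δ q • w) ''
      ModularGroup.truncatedFundamentalDomain Y₀, hNorm f z = hNorm f x := by
    intro z hz
    obtain ⟨g, hg⟩ := ModularGroup.exists_smul_mem_fd z
    obtain ⟨γ, hγ⟩ := QuotientGroup.mk_out_eq_mul (Gamma0 N) g
    have e : δ (g : SL(2, ℤ) ⧸ Gamma0 N) • g • z = (((γ⁻¹ : Gamma0 N)) : SL(2, ℤ)) • z := by
      simp only [δ, hγ, ← mul_smul, Subgroup.coe_inv]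
      congr 1
      group
    have e2 : hNorm f (δ (g : SL(2, ℤ) ⧸ Gamma0 N) • g • z) = hNorm f z := by
      rw [e, hNorm_smul f (γ⁻¹).2]
    refine ⟨_, Set.mem_iUnion.mpr ⟨_, g • z, ⟨hg, ?_⟩, rfl⟩, e2.symm⟩
    by_contra hlt
    have := hY (g : SL(2, ℤ) ⧸ Gamma0 N) (g • z) ((hY₀ (by simp)).trans (le_of_lt (not_le.mp hlt)))
    rw [e2] at this
    exact not_lt_of_ge hz this
  have hK : IsCompact (⋃ q, (fun w => δ q • w) ''
      ModularGroup.truncatedFundamentalDomain Y₀) := isCompact_iUnion fun q =>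
    (ModularGroup.isCompact_truncatedFundamentalDomain Y₀).image
      (mdifferentiable_smul (g := (δ q : GL (Fin 2) ℝ)) (by simp)).continuous
  obtain ⟨x₁, hx₁, hx₁'⟩ := hred z₁ le_rfl
  have hcont : Continuous (hNorm f) :=
    (CuspFormClass.holo f).continuous.norm.mul UpperHalfPlane.continuous_im
  obtain ⟨x₀, -, hx₀⟩ := hK.exists_isMaxOn ⟨x₁, hx₁⟩ hcont.continuousOn
  refine ⟨x₀, fun z => ?_⟩
  rcases le_total (hNorm f z₁) (hNorm f z) with h | h
  · obtain ⟨x, hx, hxe⟩ := hred z h
    exact hxe.le.trans (hx₀ hx)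
  · exact h.trans (hx₁'.le.trans (hx₀ hx₁))

/-- A cusp form is not an eigenform of `T_ℓ` with eigenvalue `ℓ + 1`. -/
theorem eq_zero_of_heckeT (hg : GoodIndex N ℓ) {f : CuspForm (Gamma0 N) 2}
    (h : CuspForm.heckeTLin 2 hg.prime hg.not_dvd f = (ℓ + 1 : ℕ) • f) : f = 0 := by
  classical
  have hℓ := hg.prime.ne_zero
  have hnn : ∀ τ, 0 ≤ hNorm f τ := fun τ => mul_nonneg (norm_nonneg _) τ.im_pos.le
  obtain ⟨τ₀, hτ₀⟩ := exists_max_hNorm f
  have hstep : ∀ τ, hNorm f τ = hNorm f τ₀ → hNorm f (repGL ℓ none • τ) = hNorm f τ₀ := by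
    intro τ hτ
    refine le_antisymm (hτ₀ _) ?_
    by_contra hlt
    push Not at hlt
    have h1 : ((ℓ + 1 : ℕ) : ℝ) * hNorm f τ ≤ ∑ i, hNorm f (repGL ℓ i • τ) := by
      rw [Finset.sum_congr rfl fun i _ => (hNorm_slash_repGL hℓ _ i τ).symm, ← Finset.sum_mul,
        hNorm, ← mul_assoc]
      refine mul_le_mul_of_nonneg_right ?_ τ.im_pos.le
      refine le_of_eq_of_le ?_ (norm_sum_le _ _)
      rw [← heckeT_eq_sum hg, h]
      simp [nsmul_eq_mul]
      left
      exact_mod_cast (Complex.norm_natCast (ℓ + 1)).symm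
    have h2 : ∑ i, hNorm f (repGL ℓ i • τ) < ∑ _i : Option (Fin ℓ), hNorm f τ₀ :=
      Finset.sum_lt_sum (fun i _ => hτ₀ _) ⟨none, Finset.mem_univ _, hlt⟩
    rw [Finset.sum_const, Finset.card_univ, Fintype.card_option, Fintype.card_fin, nsmul_eq_mul] at h2
    rw [hτ] at h1
    linarith
  let seq : ℕ → ℍ := fun r => (fun τ => repGL ℓ none • τ)^[r] τ₀
  have hseq : ∀ r, hNorm f (seq r) = hNorm f τ₀ := fun r => by
    induction r with
    | zero => rfl
    | succ r ih => rw [show seq (r + 1) = repGL ℓ none • seq r from Function.iterate_succ_apply' _ _ _]; exact hstep _ ih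
  have him : ∀ r, (seq r).im = (ℓ : ℝ) ^ r * τ₀.im := fun r => by
    induction r with
    | zero => simp [seq]
    | succ r ih =>
      rw [show seq (r + 1) = repGL ℓ none • seq r from Function.iterate_succ_apply' _ _ _,
        ← UpperHalfPlane.coe_im, repGL, coe_heckeDiagMatrix_smul hℓ]
      simp [ih, pow_succ]
      ring
  have hlim : Tendsto seq atTop atImInfty := by
    refine tendsto_comap_iff.mpr ?_
    show Tendsto (fun r => (seq r).im) atTop atTop
    simp only [him]
    exact (tendsto_pow_atTop_atTop_of_one_lt (by exact_mod_cast hg.prime.one_lt)).atTop_mul_const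
      τ₀.im_pos
  have h0 := (hNorm_tendsto f 1).comp hlim
  simp only [Function.comp_def, one_smul, hseq] at h0
  have hzero : hNorm f τ₀ = 0 := tendsto_nhds_unique tendsto_const_nhds h0
  refine DFunLike.ext _ _ fun τ => ?_
  have := le_antisymm ((hτ₀ τ).trans hzero.le) (hnn τ)
  simpa [hNorm, τ.im_ne_zero] using this

/-- `T_ℓ - (ℓ + 1)` is injective on parabolic homomorphisms. -/
theorem eq_zero_of_hecke_fixed {A : Type} [AddCommGroup A] [IsAddTorsionFree A] (l : GoodPrime N)
    {χ : ParHom N A} (h : heckeHomAt l χ = ((l : ℕ) + 1) • χ) : χ = 0 := by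
  set P : HeckePoly N := MvPolynomial.X l - (((l : ℕ) + 1 : ℕ) : HeckePoly N)
  have hP : ∀ (B : Type) [AddCommGroup B] (ψ : ParHom N B),
      heckePolyHom N B P ψ = heckeHomAt l ψ - ((l : ℕ) + 1) • ψ := fun B _ ψ => by
    simp only [P, map_sub, heckePolyHom_X, map_natCast, LinearMap.sub_apply]
    rw [Module.End.natCast_apply]
  refine eq_zero_of_heckePoly (P := P) (fun φ hφ => ?_) (by rw [hP, h, sub_self])
  have hψ : heckePolyHom N ℂ P (parMap (Int.castAddHom ℂ) φ) = 0 := by
    rw [heckePolyHom_natural, hφ, map_zero]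
  obtain ⟨u, v, huv⟩ := exists_periods (parMap (Int.castAddHom ℂ) φ)
  rw [huv, map_add, heckePolyHom_jPar, periodPar_heckePoly, periodPar_heckePoly] at hψ
  set u' := (evForms N P : Module.End ℂ (CuspForm (Gamma0 N) 2)) u
  set v' := (evForms N P : Module.End ℂ (CuspForm (Gamma0 N) 2)) v
  have hker : u' = 0 ∧ v' = 0 := by
    obtain ⟨pml, hpml, hdef⟩ :=
      ModularCurve.periodHomPair_def N (Period.existsPeriodMapLinear N)
    have hz : ModularCurve.periodHomPair N ((1 / 2 : ℂ) • (u' + v'), (1 / 2 : ℂ) • (u' - v')) = 0 := by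
      rw [hdef, LinearMap.coprod_apply]
      refine AddMonoidHom.ext fun x => ?_
      have e := DFunLike.congr_fun (congrArg Subtype.val hψ) x
      simp only [periodParHom, jPar, periodPar, AddMonoidHom.mk'_apply, Submodule.coe_add,
        AddMonoidHom.add_apply, ZeroMemClass.coe_zero, AddMonoidHom.zero_apply,
        ModularCurve.Period.charInvolution_apply] at e
      rw [← hpml, ← hpml] at e
      simp only [map_smul, map_add, map_sub, LinearMap.comp_apply, LinearMap.add_apply,
        LinearMap.sub_apply, LinearMap.id_apply, LinearMap.smul_apply, AddMonoidHom.add_apply,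
        AddMonoidHom.sub_apply, AddMonoidHom.smul_apply,
        ModularCurve.Period.charInvolution_apply, smul_eq_mul, AddMonoidHom.zero_apply]
      linear_combination e
    have h0 := (LinearMap.ker_eq_bot.mp (LinearMap.ker_eq_bot.mpr
      (Period.periodHomPair_injective (N := N)))) (hz.trans (map_zero _).symm)
    rw [Prod.mk_eq_zero, smul_eq_zero, smul_eq_zero] at h0
    have e1 := h0.1.resolve_left (by norm_num)
    have e2 := h0.2.resolve_left (by norm_num)
    rw [sub_eq_zero] at e2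
    rw [← e2, ← two_smul ℂ, smul_eq_zero] at e1
    exact ⟨e1.resolve_left two_ne_zero, by rw [← e2]; exact e1.resolve_left two_ne_zero⟩
  have hT : ∀ f : CuspForm (Gamma0 N) 2,
      (evForms N P : Module.End ℂ (CuspForm (Gamma0 N) 2)) f = 0 → f = 0 := fun f hf => by
    refine eq_zero_of_heckeT (goodIndex l) ?_
    have hc : ∀ n : ℕ, ((n : CuspForm.heckeAlgebra N 2 (∅ : Set ℕ)) :
        Module.End ℂ (CuspForm (Gamma0 N) 2)) = n := fun n =>
      map_natCast (CuspForm.heckeAlgebra N 2 (∅ : Set ℕ)).val n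
    simp only [P, map_sub, evForms, MvPolynomial.aeval_X, map_natCast, AddSubgroupClass.coe_sub,
      LinearMap.sub_apply, hc, Module.End.natCast_apply, sub_eq_zero] at hf
    exact hf
  rw [hT u hker.1, hT v hker.2, map_zero, zero_add] at huv
  refine Subtype.ext (AddMonoidHom.ext fun x => ?_)
  have := DFunLike.congr_fun (congrArg Subtype.val huv) x
  simp only [parMap_apply, jPar, ZeroMemClass.coe_zero, map_zero, AddMonoidHom.zero_apply] at this
  simpa using this

end Fermat.Agent.NewVec
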