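/-
The field fixed by the inertia group of a place: the valuation takes its values in powers of the
prime, and roots of unity of order prime to it are fixed.
-/
import Fermat.Agent.EC.Unramified
import Fermat.Agent.GalRep.Model.BaseField

set_option autoImplicit false
set_option linter.style.haveILetI false

noncomputable section

namespace Fermat.Agent.NewVec

open IsLocalRing
open Fermat.Agent.Galois Fermat.Agent.EC
open scoped NumberField

local notation "Qb" => AlgebraicClosure ℚ

variable {A : ValuationSubring (AlgebraicClosure ℚ)} {q : ℕ}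

/-- Units away from `P`, multiples of `q` inside it. -/
theorem exists_smul_eq_natCast_mul {R : Type*} [CommRing R] (P : Ideal R) [P.IsPrime]
    (h : P.ramificationIdx ℤ = 1) (hq : P.under ℤ = Ideal.span {(q : ℤ)}) {z : R} (hz : z ∈ P) :
    ∃ s ∉ P, ∃ w : R, s * z = q * w := by
  rw [Ideal.ramificationIdx_def, ENat.toNat_eq_iff_eq_natCast, Nat.cast_one,
    Module.length_eq_one_iff, isSimpleModule_iff_isCoatom, ← Ideal.isMaximal_def,
    IsLocalRing.isMaximal_iff, hq, Ideal.map_span, Set.image_singleton, map_natCast] at h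
  have hz' : algebraMap R (Localization.AtPrime P) z ∈
      Ideal.span {(q : Localization.AtPrime P)} := by
    rw [h, ← Localization.AtPrime.map_eq_maximalIdeal]
    exact Ideal.mem_map_of_mem _ hz
  rw [← map_natCast (algebraMap R (Localization.AtPrime P)) q, ← Set.image_singleton,
    ← Ideal.map_span, IsLocalization.algebraMap_mem_map_algebraMap_iff P.primeCompl] at hz'
  obtain ⟨s, hs, hsz⟩ := hz'
  obtain ⟨w, hw⟩ := Ideal.mem_span_singleton.mp hsz
  exact ⟨s, hs, w, hw⟩

/-- The value of an element fixed by inertia is a power of that of `q`. -/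
theorem exists_val_eq_zpow_of_fixed (hq : q.Prime) (hA : A.LiesOverPrime q) {x : Qb}
    (hx : ∀ σ ∈ A.inertiaSubgroupIn ℚ, σ x = x) (hx0 : x ≠ 0) :
    ∃ k : ℤ, A.valuation x = A.valuation (q : Qb) ^ k := by
  haveI : Normal ℚ Qb := IsGalois.to_normal
  haveI : FiniteDimensional ℚ (IntermediateField.adjoin ℚ ({x} : Set Qb)) :=
    IntermediateField.adjoin.finiteDimensional (Algebra.IsIntegral.isIntegral x)
  let L : IntermediateField ℚ Qb :=
    IntermediateField.normalClosure ℚ (IntermediateField.adjoin ℚ ({x} : Set Qb)) Qb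
  have hxL : x ∈ L := (IntermediateField.le_normalClosure _)
    (IntermediateField.mem_adjoin_simple_self ℚ x)
  haveI : FiniteDimensional ℚ L := normalClosure.is_finiteDimensional ℚ _ Qb
  haveI : Normal ℚ L := normalClosure.normal ℚ _ Qb
  haveI : IsGalois ℚ L := ⟨⟩
  haveI : NumberField L := { }
  set f := ringOfIntegersToZBar L with hf
  let P : Ideal (𝓞 L) := (placeCenter A).comap f
  haveI : P.IsPrime := Ideal.IsPrime.comap _
  let Gp := P.inertia (L ≃ₐ[ℚ] L)
  let E : IntermediateField ℚ L := FixedPoints.intermediateField Gp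
  haveI : IsGaloisGroup Gp E L := IsGaloisGroup.subgroup _ ℚ L _
  haveI : NumberField E := { }
  haveI := IsGaloisGroup.of_isFractionRing Gp (𝓞 E) (𝓞 L) E L
  haveI := IsGaloisGroup.of_isFractionRing (L ≃ₐ[ℚ] L) ℤ (𝓞 L) ℚ L
  let PE : Ideal (𝓞 E) := P.under (𝓞 E)
  have hqP : P.under ℤ = Ideal.span {(q : ℤ)} := by
    ext n
    show f (algebraMap ℤ (𝓞 L) n) ∈ placeCenter A ↔ _
    rw [Ideal.mem_span_singleton, ← intCast_mem_placeCenter hq hA, algebraMap_int_eq, eq_intCast,
      map_intCast]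
  have hPE : PE.under ℤ = Ideal.span {(q : ℤ)} := by
    rw [← hqP, Ideal.under_under]
  haveI : (Ideal.span {(q : ℤ)}).IsMaximal :=
    Ideal.IsPrime.isMaximal ((Ideal.span_singleton_prime (by exact_mod_cast hq.ne_zero)).mpr
      (Nat.prime_iff_prime_int.mp hq)) (by simp [hq.ne_zero])
  haveI : (P.under ℤ).IsPrime := Ideal.IsPrime.comap _
  haveI : PE.IsPrime := Ideal.IsPrime.comap _
  haveI : P.LiesOver PE := ⟨rfl⟩
  have hII : Gp.comap (Gp.subtype) = (⊤ : Subgroup Gp) := by
    rw [Subgroup.eq_top_iff']; exact fun g => g.2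
  have h1 : Nat.card (P.inertia (L ≃ₐ[ℚ] L)) = P.ramificationIdx ℤ := by
    rw [Ideal.card_inertia_eq_ramificationIdxIn (G := L ≃ₐ[ℚ] L) (P.under ℤ) P,
      Ideal.ramificationIdxIn_eq_ramificationIdx (P.under ℤ) P (L ≃ₐ[ℚ] L)]
  have h2 : Nat.card (P.inertia Gp) = P.ramificationIdx (𝓞 E) := by
    rw [Ideal.card_inertia_eq_ramificationIdxIn (G := Gp) PE P,
      Ideal.ramificationIdxIn_eq_ramificationIdx PE P Gp]
  have h3 : Nat.card (P.inertia Gp) = Nat.card Gp := by
    have e : P.inertia Gp = ⊤ := (Subgroup.eq_top_iff' _).mpr fun g y => g.2 y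
    rw [e, Subgroup.card_top]
  have h4 := Ideal.ramificationIdx_tower (R := ℤ) PE P
  rw [← h1, ← h2, h3] at h4
  have hpos : 0 < Nat.card Gp := Nat.card_pos
  have he : PE.ramificationIdx ℤ = 1 :=
    Nat.eq_of_mul_eq_mul_right hpos (by rw [one_mul]; exact h4.symm)
  -- values on the integers of `E`
  let g : 𝓞 E →+* ZBar := f.comp (algebraMap (𝓞 E) (𝓞 L))
  have hgP : ∀ z, z ∈ PE ↔ A.valuation (g z : Qb) < 1 := fun z => by
    rw [← A.mem_nonunits_iff, ← mem_placeCenter_iff]; rfl
  have hg0 : Function.Injective g := by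
    intro a b hab
    apply NumberField.RingOfIntegers.ext
    apply Subtype.ext
    exact Subtype.ext (congrArg (fun z : ZBar => (z : Qb)) hab)
  have hq0 : A.valuation (q : Qb) ≠ 0 := by simpa using hq.ne_zero
  have hle1 : ∀ z, A.valuation (g z : Qb) ≤ 1 := fun z =>
    (A.valuation_le_one_iff _).mpr (integralClosure_le A _)
  have key : ∀ (K : ℕ) (z : 𝓞 E), A.valuation (q : Qb) ^ K ≤ A.valuation (g z : Qb) →
      ∃ k : ℕ, A.valuation (g z : Qb) = A.valuation (q : Qb) ^ k := by
    intro K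
    induction K with
    | zero =>
      intro z hz
      exact ⟨0, le_antisymm (by simpa using hle1 z) (by simpa using hz)⟩
    | succ K ih =>
      intro z hz
      rcases (hle1 z).eq_or_lt with h | h
      · exact ⟨0, by rw [h, pow_zero]⟩
      obtain ⟨s, hs, w, hw⟩ := exists_smul_eq_natCast_mul PE he hPE ((hgP z).mpr h)
      have hs1 : A.valuation (g s : Qb) = 1 :=
        le_antisymm (hle1 s) (not_lt.mp fun h' => hs ((hgP s).mpr h'))
      have hzw : A.valuation (g z : Qb) = A.valuation (q : Qb) * A.valuation (g w : Qb) := by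
        have := congrArg (fun t => A.valuation ((g t : ZBar) : Qb)) hw
        simp only [map_mul, map_natCast, MulMemClass.coe_mul] at this
        rw [hs1, one_mul] at this
        rw [this]
        congr 1
      rw [hzw, pow_succ'] at hz
      obtain ⟨k, hk⟩ := ih w ((mul_le_mul_iff_right₀ (zero_lt_iff.mpr hq0)).mp hz)
      exact ⟨k + 1, by rw [hzw, hk, pow_succ']⟩
  have hval : ∀ z : 𝓞 E, z ≠ 0 → ∃ k : ℕ, A.valuation (g z : Qb) = A.valuation (q : Qb) ^ k := by
    intro z hz
    obtain ⟨K, hK⟩ := GalRep.Model.exists_pow_le_val A hq hA (g z).2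
      (fun h => hz (hg0 (by rw [map_zero]; exact Subtype.ext h)))
    exact key K z hK
  -- `x` lies in `E`
  have hxE : (⟨x, hxL⟩ : L) ∈ E := by
    rintro ⟨τ, hτ⟩
    obtain ⟨σ, hσ, hστ⟩ := exists_lift_inertia L hq hA τ (fun a => by
      rw [← map_sub]; exact hτ a)
    apply Subtype.ext
    show ((τ ⟨x, hxL⟩ : L) : Qb) = x
    rw [← hστ]
    exact (AlgEquiv.restrictNormal_commutes σ L ⟨x, hxL⟩).trans (hx σ hσ)
  obtain ⟨a, b, hb, hab⟩ := IsFractionRing.div_surjective (A := 𝓞 E) (⟨_, hxE⟩ : E)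
  have hb0 : b ≠ 0 := nonZeroDivisors.ne_zero hb
  have ha0 : a ≠ 0 := by
    rintro rfl
    rw [map_zero, zero_div] at hab
    exact hx0 (congrArg (fun e : E => ((e : L) : Qb)) hab.symm)
  obtain ⟨i, hi⟩ := hval a ha0
  obtain ⟨j, hj⟩ := hval b hb0
  refine ⟨(i : ℤ) - j, ?_⟩
  have e : x = (g a : Qb) / (g b : Qb) := by
    have := congrArg (fun e : E => ((e : L) : Qb)) hab
    simp only [map_div₀] at this
    rw [← this]
    rfl
  rw [e, map_div₀, hi, hj, zpow_sub₀ hq0, zpow_natCast, zpow_natCast]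

/-- Roots of unity of order prime to `q` are fixed by inertia. -/
theorem fixed_of_pow_eq_one (hq : q.Prime) (hA : A.LiesOverPrime q) {n : ℕ} (hn : ¬ q ∣ n)
    {x : Qb} (hx : x ^ n = 1) {σ : GQ} (hσ : σ ∈ A.inertiaSubgroupIn ℚ) : σ x = x := by
  obtain ⟨⟨τ, hdec⟩, hτ, rfl⟩ := hσ
  have hn0 : 0 < n := Nat.pos_of_ne_zero fun h => hn (h ▸ dvd_zero q)
  have hxA : x ∈ A := integralClosure_le A ⟨x, IsIntegral.of_pow hn0 (hx ▸ isIntegral_one)⟩
  let y : A := ⟨x, hxA⟩
  have hy : y ^ n = 1 := Subtype.ext hx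
  have hy' : ((⟨τ, hdec⟩ : A.decompositionSubgroup ℚ) • y) ^ n = 1 := by
    rw [← smul_pow', hy, smul_one]
  have hres : residue A ((⟨τ, hdec⟩ : A.decompositionSubgroup ℚ) • y) = residue A y :=
    (ResidueField.residue_smul (A.decompositionSubgroup ℚ) (⟨τ, hdec⟩ : A.decompositionSubgroup ℚ) y).trans
      (RingEquiv.congr_fun (MonoidHom.mem_ker.1 hτ) (residue A y))
  exact congrArg Subtype.val (GalRep.pow_eq_of_residue_eq hq hA hn hy' hy hres)

end Fermat.Agent.NewVec
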