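/-
The base of the models at a place over `q`: the inertia field and its extension by the `q`-th
roots of unity, as discrete valuation rings inside `ℂ`.
-/
import Fermat.Agent.NewVec.InertiaField
import Fermat.Agent.Models.Field.Conj
import Fermat.Agent.GalRep.Level.SL2

set_option autoImplicit false
set_option linter.style.haveILetI false
set_option linter.unusedSectionVars false

noncomputable section

namespace Fermat.Agent.NewVec

open IsLocalRing Polynomial
open Fermat.Agent.Galois Fermat.Agent.GalRep Fermat.Agent.ModField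
open Fermat.Agent.GalRep.Model (zetaC primeToRoots)

local notation "Qb" => AlgebraicClosure ℚ

/-! ## Valuation rings cut out on subfields -/

section Cut

variable {A : ValuationSubring (AlgebraicClosure ℚ)} {K : Type} [Field K]
  (ι : K →+* AlgebraicClosure ℚ)

/-- The inclusion of the part of `A` on a subfield. -/
def cutHom : A.comap ι →+* A where
  toFun y := ⟨ι y, y.2⟩
  map_one' := Subtype.ext (map_one ι)
  map_mul' _ _ := Subtype.ext (map_mul ι _ _)
  map_zero' := Subtype.ext (map_zero ι)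
  map_add' _ _ := Subtype.ext (map_add ι _ _)

theorem isUnit_cut_iff (x : A.comap ι) : IsUnit x ↔ A.valuation (ι x) = 1 := by
  constructor
  · intro hx
    exact (A.valuation_eq_one_iff (cutHom ι x)).mp (hx.map (cutHom ι))
  · intro hx
    have hx0 : (x : K) ≠ 0 := fun h0 => by simp [h0] at hx
    have hinv : ((x : K)⁻¹ : K) ∈ A.comap ι := by
      show ι (x : K)⁻¹ ∈ A
      rw [← A.valuation_le_one_iff, map_inv₀, map_inv₀, hx, inv_one]
    exact isUnit_iff_exists_inv.mpr ⟨⟨_, hinv⟩, Subtype.ext (mul_inv_cancel₀ hx0)⟩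

theorem mem_maximalIdeal_cut (x : A.comap ι) :
    x ∈ maximalIdeal (A.comap ι) ↔ A.valuation (ι x) < 1 := by
  rw [IsLocalRing.mem_maximalIdeal, mem_nonunits_iff, isUnit_cut_iff]
  exact ((A.valuation_le_one_iff _).mpr x.2).lt_iff_ne.symm

variable {ι}

/-- A discretely valued subfield. -/
theorem dvr_cut (ϖ : A.comap ι) (hϖ : A.valuation (ι ϖ) < 1) (hϖ0 : (ϖ : K) ≠ 0)
    (h : ∀ x : K, x ≠ 0 → ∃ k : ℤ, A.valuation (ι x) = A.valuation (ι ϖ) ^ k) :
    IsDiscreteValuationRing (A.comap ι) ∧ maximalIdeal (A.comap ι) = Ideal.span {ϖ} ∧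
      Irreducible ϖ := by
  have hv0 : A.valuation (ι ϖ) ≠ 0 := by simpa using hϖ0
  have hnat : ∀ x : A.comap ι, x ≠ 0 → ∃ (k : ℕ) (u : (A.comap ι)ˣ), ϖ ^ k * u = x := by
    intro x hx
    have hx' : (x : K) ≠ 0 := fun e => hx (Subtype.ext e)
    obtain ⟨k, hk⟩ := h x hx'
    have hk0 : 0 ≤ k := by
      by_contra hneg
      have h1 : A.valuation (ι x) ≤ 1 := (A.valuation_le_one_iff _).mpr x.2
      rw [hk] at h1
      exact absurd h1 (not_le.mpr (one_lt_zpow_of_neg₀ (zero_lt_iff.mpr hv0) hϖ (by omega)))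
    lift k to ℕ using hk0
    rw [zpow_natCast] at hk
    let y : K := (x : K) / (ϖ : K) ^ k
    have hy : A.valuation (ι y) = 1 := by
      simp only [y, map_div₀, map_pow, hk]
      exact div_self (pow_ne_zero _ hv0)
    have hyu : IsUnit (⟨y, (A.valuation_le_one_iff _).mp hy.le⟩ : A.comap ι) :=
      (isUnit_cut_iff ι _).mpr hy
    exact ⟨k, hyu.unit, Subtype.ext (mul_div_cancel₀ _ (pow_ne_zero _ hϖ0))⟩
  have hnu : ¬ IsUnit ϖ := fun hu => hϖ.ne ((isUnit_cut_iff ι ϖ).mp hu)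
  have hm : maximalIdeal (A.comap ι) = Ideal.span {ϖ} := by
    refine le_antisymm (fun x hx => Ideal.mem_span_singleton.mpr ?_) ?_
    · rcases eq_or_ne x 0 with rfl | hx0
      · exact dvd_zero _
      obtain ⟨k, u, rfl⟩ := hnat x hx0
      rcases k with _ | k
      · exact absurd (show IsUnit (ϖ ^ 0 * (u : A.comap ι)) by simp) hx
      · exact ⟨ϖ ^ k * u, by ring⟩
    · rw [Ideal.span_le, Set.singleton_subset_iff]
      exact hnu
  have hϖne : ϖ ≠ 0 := fun e => hϖ0 (congrArg Subtype.val e)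
  have hirr : Irreducible ϖ := by
    refine ⟨hnu, fun a b hab => ?_⟩
    by_contra hne
    push Not at hne
    obtain ⟨a', rfl⟩ := Ideal.mem_span_singleton.mp (hm ▸ (show a ∈ maximalIdeal _ from hne.1))
    obtain ⟨b', rfl⟩ := Ideal.mem_span_singleton.mp (hm ▸ (show b ∈ maximalIdeal _ from hne.2))
    exact hnu (IsUnit.of_mul_eq_one (a' * b')
      (mul_left_cancel₀ hϖne (by linear_combination -hab)))
  exact ⟨IsDiscreteValuationRing.ofHasUnitMulPowIrreducibleFactorization
    ⟨ϖ, hirr, fun {x} hx => by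
      obtain ⟨k, u, hu⟩ := hnat x hx
      exact ⟨k, u, hu⟩⟩, hm, hirr⟩

theorem isAlgClosed_cut {q : ℕ} (hq : q.Prime) (hA : A.LiesOverPrime q)
    (hroots : ∀ y ∈ primeToRoots q, y ∈ ι.fieldRange) :
    IsAlgClosed (ResidueField (A.comap ι)) := by
  haveI : IsLocalHom (cutHom (A := A) ι) :=
    ⟨fun y hy => (isUnit_cut_iff ι y).mpr ((A.valuation_eq_one_iff _).mp hy)⟩
  have hres : Function.Bijective (ResidueField.map (cutHom (A := A) ι)) := by
    refine ⟨RingHom.injective _, fun r => ?_⟩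
    rcases eq_or_ne r 0 with rfl | hr
    · exact ⟨0, map_zero _⟩
    obtain ⟨y, hy, rfl⟩ := GalRep.Model.exists_root_residue A hq hA r hr
    obtain ⟨k, hk⟩ := hroots _ hy
    refine ⟨residue (A.comap ι) ⟨k, show ι k ∈ A from hk ▸ y.2⟩, ?_⟩
    rw [ResidueField.map_residue]
    exact congrArg _ (Subtype.ext hk)
  haveI := GalRep.Model.residue_isAlgClosed A
  exact IsAlgClosed.of_ringEquiv _ _ (RingEquiv.ofBijective _ hres).symm

end Cut

/-! ## The inertia field -/

variable (A : ValuationSubring (AlgebraicClosure ℚ))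

/-- The field fixed by inertia. -/
def inertiaFld : IntermediateField ℚ Qb := IntermediateField.fixedField (A.inertiaSubgroupIn ℚ)

theorem mem_inertiaFld {x : Qb} : x ∈ inertiaFld A ↔ ∀ σ ∈ A.inertiaSubgroupIn ℚ, σ x = x :=
  IntermediateField.mem_fixedField_iff _ _

/-- Its image in `ℂ`. -/
def inertiaC : Subfield ℂ := (inertiaFld A).toSubfield.map qbarToC

/-- The valuation ring of the inertia field. -/
def wBase : ValuationSubring (inertiaFld A) := A.comap (algebraMap (inertiaFld A) Qb)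

variable {q : ℕ}

theorem root_mem_inertiaFld (hq : q.Prime) (hA : A.LiesOverPrime q) {n : ℕ} (hn : ¬ q ∣ n)
    {x : Qb} (hx : x ^ n = 1) : x ∈ inertiaFld A :=
  (mem_inertiaFld A).mpr fun _ hσ => fixed_of_pow_eq_one hq hA hn hx hσ

theorem wBase_props (hq : q.Prime) (hA : A.LiesOverPrime q) :
    IsDiscreteValuationRing (wBase A) ∧ maximalIdeal (wBase A) = Ideal.span {(q : wBase A)} ∧
      IsAlgClosed (ResidueField (wBase A)) := by
  have h := dvr_cut (A := A) (ι := algebraMap (inertiaFld A) Qb) (q : A.comap _)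
    (by simpa using GalRep.Model.val_natCast_lt_one A hA) (by simp [hq.ne_zero]) fun x hx => by
      obtain ⟨k, hk⟩ := exists_val_eq_zpow_of_fixed hq hA ((mem_inertiaFld A).mp x.2)
        (fun e => hx (Subtype.ext e))
      refine ⟨k, hk.trans ?_⟩
      simp
  refine ⟨h.1, h.2.1, isAlgClosed_cut hq hA ?_⟩
  rintro y ⟨n, hn, hy⟩
  exact ⟨⟨y, root_mem_inertiaFld A hq hA hn hy⟩, rfl⟩

variable (M : ℕ) [NeZero M]

theorem exists_qbar_zetaC : ∃ z : Qb, qbarToC z = zetaC M := by
  haveI : NeZero (M : Qb) := ⟨Nat.cast_ne_zero.mpr (NeZero.ne M)⟩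
  obtain ⟨z, hz⟩ := HasEnoughRootsOfUnity.exists_primitiveRoot Qb M
  obtain ⟨i, -, hi⟩ := (hz.map_of_injective qbarToC.injective).eq_pow_of_pow_eq_one
    (ξ := zetaC M) ((Complex.isPrimitiveRoot_exp M (NeZero.ne M)).pow_eq_one)
  exact ⟨z ^ i, by rw [map_pow, hi]⟩

/-- The algebraic number `exp(2πi/M)`. -/
def zetaQ : Qb := (exists_qbar_zetaC M).choose

theorem map_zetaQ : qbarToC (zetaQ M) = zetaC M := (exists_qbar_zetaC M).choose_spec

theorem isPrimitiveRoot_zetaQ : IsPrimitiveRoot (zetaQ M) M :=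
  IsPrimitiveRoot.of_map_of_injective (f := qbarToC)
    (by rw [map_zetaQ]; exact Complex.isPrimitiveRoot_exp M (NeZero.ne M)) qbarToC.injective

/-- The inertia field with the `M`-th roots of unity. -/
def oFld : IntermediateField (inertiaFld A) Qb :=
  IntermediateField.adjoin (inertiaFld A) {zetaQ M}

/-- Its valuation ring. -/
def oBase : ValuationSubring (oFld A M) := A.comap (algebraMap (oFld A M) Qb)

/-- The inclusion of `wBase` into `oBase`. -/
def wToO : wBase A →+* oBase A M where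
  toFun w := ⟨algebraMap (inertiaFld A) (oFld A M) w, w.2⟩
  map_one' := Subtype.ext (map_one _)
  map_mul' _ _ := Subtype.ext (map_mul _ _ _)
  map_zero' := Subtype.ext (map_zero _)
  map_add' _ _ := Subtype.ext (map_add _ _ _)

instance instAlgebraWO : Algebra (wBase A) (oBase A M) := (wToO A M).toAlgebra

/-- The algebraic number underlying an element of the base. -/
def oVal : oBase A M →+* Qb := (algebraMap (oFld A M) Qb).comp (oBase A M).subtype

theorem oVal_injective : Function.Injective (oVal A M) :=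
  (algebraMap (oFld A M) Qb).injective.comp Subtype.val_injective

theorem oVal_algebraMap (w : wBase A) :
    oVal A M (algebraMap (wBase A) (oBase A M) w) = ((w : inertiaFld A) : Qb) := rfl

theorem mem_maximalIdeal_oBase (x : oBase A M) :
    x ∈ maximalIdeal (oBase A M) ↔ A.valuation (oVal A M x) < 1 :=
  mem_maximalIdeal_cut _ x

/-- The embedding of the base. -/
def embO : Emb (oBase A M) M where
  φ := qbarToC.comp (oVal A M)
  inj := qbarToC.injective.comp (oVal_injective A M)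
  ζ := (⟨(⟨zetaQ M, IntermediateField.mem_adjoin_simple_self _ _⟩ : oFld A M),
    integralClosure_le A (⟨zetaQ M, (isPrimitiveRoot_zetaQ M).isIntegral (NeZero.pos M)⟩ : ZBar)⟩ :
      oBase A M)
  map_ζ := map_zetaQ M

theorem embO_φ (a : oBase A M) : (embO A M).φ a = qbarToC (oVal A M a) := rfl

theorem oVal_embO_ζ : oVal A M (embO A M).ζ = zetaQ M := rfl

theorem mem_embO_K {c : ℂ} : c ∈ (embO A M).K ↔ ∃ x ∈ oFld A M, qbarToC x = c := by
  constructor
  · intro hc
    refine (Subfield.closure_le (t := (oFld A M).toSubfield.map qbarToC)).mpr ?_ hc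
    rintro _ ⟨a, rfl⟩
    exact ⟨((a : oFld A M) : Qb), (a : oFld A M).2, rfl⟩
  · rintro ⟨x, hx, rfl⟩
    rcases A.mem_or_inv_mem x with h | h
    · exact (embO A M).φ_mem ⟨⟨x, hx⟩, h⟩
    · have := Subfield.inv_mem _ ((embO A M).φ_mem ⟨⟨x⁻¹, inv_mem hx⟩, h⟩)
      change (qbarToC x⁻¹)⁻¹ ∈ _ at this
      rwa [map_inv₀, inv_inv] at this

theorem inertiaC_le_K : inertiaC A ≤ (embO A M).K := by
  rintro _ ⟨x, hx, rfl⟩
  exact (mem_embO_K A M).mpr ⟨x, IntermediateField.algebraMap_mem _ (⟨x, hx⟩ : inertiaFld A), rfl⟩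

/-! ## The totally ramified part -/

section Level

variable {A M} {m : ℕ} (hq : q.Prime) (hA : A.LiesOverPrime q) (hMm : M = q * m) (hqm : ¬ q ∣ m)
include hq hA hMm hqm

/-- The primitive `q`-th root. -/
local notation "μ" => zetaQ M ^ m

omit hA hqm in
theorem isPrimitiveRoot_mu : IsPrimitiveRoot μ q :=
  (isPrimitiveRoot_zetaQ M).pow (NeZero.pos M) (by rw [hMm, mul_comm])

omit hqm in
theorem val_mu_sub_one : A.valuation (μ - 1) ^ (q - 1) = A.valuation (q : Qb) := by
  haveI : NeZero q := ⟨hq.ne_zero⟩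
  have hμ := isPrimitiveRoot_mu hq hMm
  have hμA : ∀ i : ℕ, μ ^ i ∈ A := fun i =>
    integralClosure_le A ⟨μ ^ i, (hμ.isIntegral hq.pos).pow i⟩
  have key : ∀ (j : ℕ), ¬ q ∣ j → A.valuation (μ ^ j - 1) = A.valuation (μ - 1) := by
    intro j hj
    have h1 : ∀ (x : Qb) (i : ℕ), (∀ k, x ^ k ∈ A) →
        A.valuation (x ^ i - 1) ≤ A.valuation (x - 1) := by
      intro x i hx
      rw [← mul_geom_sum x i, map_mul]
      exact mul_le_of_le_one_right' ((A.valuation_le_one_iff _).mpr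
        (sum_mem fun k _ => hx k))
    refine le_antisymm (h1 μ j hμA) ?_
    obtain ⟨i, -, hi⟩ := (hμ.pow_of_coprime j
      ((hq.coprime_iff_not_dvd.mpr hj).symm)).eq_pow_of_pow_eq_one hμ.pow_eq_one
    conv_lhs => rw [← hi]
    exact h1 _ i fun k => by rw [← pow_mul]; exact hμA _
  obtain ⟨n, hn⟩ : ∃ n, q = n + 1 := ⟨q - 1, by have := hq.pos; omega⟩
  have hprod := congrArg A.valuation ((hn ▸ hμ).prod_one_sub_pow_eq_order)
  rw [map_prod, Finset.prod_congr rfl (fun k hk => by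
    rw [← Valuation.map_sub_swap, key (k + 1) (fun hd => by
      have := Nat.le_of_dvd (by omega) hd
      have := Finset.mem_range.mp hk
      omega)]), Finset.prod_const, Finset.card_range] at hprod
  rw [show q - 1 = n by omega, hprod, hn]
  push_cast
  ring_nf

theorem zetaQ_mem_adjoin_mu :
    zetaQ M ∈ IntermediateField.adjoin (inertiaFld A) ({μ} : Set Qb) := by
  have hc : IsCoprime (q : ℤ) (m : ℤ) := (hq.coprime_iff_not_dvd.mpr hqm).isCoprime
  obtain ⟨u, v, huv⟩ := hc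
  have hz := isPrimitiveRoot_zetaQ M
  have hz0 : zetaQ M ≠ 0 := hz.ne_zero (NeZero.ne M)
  have e : zetaQ M = (zetaQ M ^ q) ^ u * μ ^ v := by
    rw [← zpow_natCast, ← zpow_natCast, ← zpow_mul, ← zpow_mul, ← zpow_add₀ hz0,
      show (q : ℤ) * u + m * v = 1 by linear_combination huv, zpow_one]
  have hmem : (zetaQ M ^ q) ^ u * μ ^ v ∈ IntermediateField.adjoin (inertiaFld A) ({μ} : Set Qb) :=
    mul_mem (zpow_mem (IntermediateField.algebraMap_mem _ (⟨zetaQ M ^ q,
      root_mem_inertiaFld A hq hA hqm (by rw [← pow_mul, ← hMm, hz.pow_eq_one])⟩ : inertiaFld A)) u)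
      (zpow_mem (IntermediateField.mem_adjoin_simple_self _ _) v)
  rwa [← e] at hmem

theorem exists_expansion {x : Qb} (hx : x ∈ oFld A M) :
    ∃ c : ℕ → inertiaFld A, x = ∑ i ∈ Finset.range (q - 1), (c i : Qb) * (μ - 1) ^ i := by
  have hsub : oFld A M ≤ IntermediateField.adjoin (inertiaFld A) {μ} := by
    exact IntermediateField.adjoin_le_iff.mpr (Set.singleton_subset_iff.mpr
      (zetaQ_mem_adjoin_mu hq hA hMm hqm))
  have h1 : x ∈ Algebra.adjoin (inertiaFld A) ({μ} : Set Qb) := by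
    rw [← IntermediateField.adjoin_simple_toSubalgebra_of_isAlgebraic
      (Algebra.IsAlgebraic.isAlgebraic (R := inertiaFld A) μ), IntermediateField.mem_toSubalgebra]
    exact hsub hx
  have h2 : x ∈ Algebra.adjoin (inertiaFld A) ({μ - 1} : Set Qb) := by
    refine Algebra.adjoin_le (Set.singleton_subset_iff.mpr ?_) h1
    have := add_mem (Algebra.subset_adjoin (Set.mem_singleton (μ - 1)) :
      μ - 1 ∈ Algebra.adjoin (inertiaFld A) ({μ - 1} : Set Qb)) (one_mem _)
    rwa [sub_add_cancel] at this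
  rw [Algebra.adjoin_singleton_eq_range_aeval] at h2
  obtain ⟨P, rfl⟩ := h2
  let Φ : (inertiaFld A)[X] := (cyclotomic q (inertiaFld A)).comp (X + C 1)
  have hΦm : Φ.Monic := (cyclotomic.monic q _).comp_X_add_C 1
  have hΦd : Φ.natDegree = q - 1 := by
    simp only [Φ, natDegree_comp, natDegree_cyclotomic, Nat.totient_prime hq, natDegree_X_add_C,
      mul_one]
  have hΦ0 : aeval (μ - 1) Φ = 0 := by
    simp only [Φ, aeval_comp, map_add, aeval_X, map_one, sub_add_cancel]
    rw [aeval_def, ← eval_map, map_cyclotomic]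
    haveI : NeZero (q : Qb) := ⟨Nat.cast_ne_zero.mpr hq.ne_zero⟩
    exact (isRoot_cyclotomic_iff.mpr (isPrimitiveRoot_mu hq hMm)).eq_zero
  refine ⟨fun i => (P %ₘ Φ).coeff i, ?_⟩
  have hdeg : (P %ₘ Φ).natDegree < q - 1 := by
    rw [← hΦd]
    refine natDegree_modByMonic_lt _ hΦm fun e => ?_
    rw [e, natDegree_one] at hΦd
    have := hq.two_le
    omega
  show aeval (μ - 1) P = _
  conv_lhs => rw [← modByMonic_add_div P Φ]
  rw [map_add, map_mul, hΦ0, zero_mul, add_zero,
    aeval_eq_sum_range' hdeg]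
  exact Finset.sum_congr rfl fun i _ => Algebra.smul_def _ _

/-- The terms of an expansion have distinct values. -/
theorem exists_term_val {c : inertiaFld A} (hc : (c : Qb) ≠ 0) (i : ℕ) :
    ∃ k : ℤ, A.valuation ((c : Qb) * (μ - 1) ^ i) =
      A.valuation (μ - 1) ^ (((q - 1 : ℕ) : ℤ) * k + i) := by
  obtain ⟨k, hk⟩ := exists_val_eq_zpow_of_fixed hq hA ((mem_inertiaFld A).mp c.2) hc
  refine ⟨k, ?_⟩
  have hπ0 : A.valuation (μ - 1) ≠ 0 := by
    simpa [sub_eq_zero] using (isPrimitiveRoot_mu hq hMm).ne_one hq.one_lt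
  rw [map_mul, map_pow, hk, ← val_mu_sub_one hq hA hMm, zpow_add₀ hπ0, zpow_mul, zpow_natCast,
    zpow_natCast]

theorem val_mu_sub_one_lt : A.valuation (μ - 1) < 1 := by
  refine not_le.mp fun h => ?_
  have := one_le_pow_of_one_le' h (q - 1)
  rw [val_mu_sub_one hq hA hMm] at this
  exact absurd (GalRep.Model.val_natCast_lt_one A hA) (not_lt.mpr this)

theorem term_val_ne {c c' : inertiaFld A} (hc : (c : Qb) ≠ 0) (hc' : (c' : Qb) ≠ 0) {i j : ℕ}
    (hi : i < q - 1) (hj : j < q - 1) (hij : i ≠ j) :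
    A.valuation ((c : Qb) * (μ - 1) ^ i) ≠ A.valuation ((c' : Qb) * (μ - 1) ^ j) := by
  intro h
  obtain ⟨k, hk⟩ := exists_term_val hq hA hMm hqm hc i
  obtain ⟨l, hl⟩ := exists_term_val hq hA hMm hqm hc' j
  rw [hk, hl] at h
  have hπ0 : 0 < A.valuation (μ - 1) := zero_lt_iff.mpr
    (by simpa [sub_eq_zero] using (isPrimitiveRoot_mu hq hMm).ne_one hq.one_lt)
  have e := (zpow_right_strictAnti₀ hπ0 (val_mu_sub_one_lt hq hA hMm hqm)).injective h
  refine hij ?_
  have h1 : ((q - 1 : ℕ) : ℤ) ∣ (i : ℤ) - j := ⟨l - k, by linear_combination e⟩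
  obtain ⟨t, ht⟩ := h1
  have h2 : ((q - 1 : ℕ) : ℤ) > 0 := by have := hq.two_le; omega
  have hi' : (i : ℤ) < ((q - 1 : ℕ) : ℤ) := by exact_mod_cast hi
  have hj' : (j : ℤ) < ((q - 1 : ℕ) : ℤ) := by exact_mod_cast hj
  have ht1 : t < 1 := by nlinarith
  have ht2 : -1 < t := by nlinarith
  obtain rfl : t = 0 := by omega
  omega

/-- The value of a sum is that of its largest term. -/
theorem expansion_val (c : ℕ → inertiaFld A) (hne : ∃ i < q - 1, (c i : Qb) ≠ 0) :
    ∃ i₀ < q - 1, (c i₀ : Qb) ≠ 0 ∧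
      A.valuation (∑ i ∈ Finset.range (q - 1), (c i : Qb) * (μ - 1) ^ i) =
        A.valuation ((c i₀ : Qb) * (μ - 1) ^ i₀) ∧
      ∀ i < q - 1, A.valuation ((c i : Qb) * (μ - 1) ^ i) ≤
        A.valuation ((c i₀ : Qb) * (μ - 1) ^ i₀) := by
  classical
  let T := (Finset.range (q - 1)).filter fun i => (c i : Qb) ≠ 0
  have hT : ∑ i ∈ T, (c i : Qb) * (μ - 1) ^ i =
      ∑ i ∈ Finset.range (q - 1), (c i : Qb) * (μ - 1) ^ i := by
    refine Finset.sum_filter_of_ne fun i _ hi e => hi ?_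
    rw [e, zero_mul]
  have hTne : T.Nonempty := by
    obtain ⟨i, hi, hic⟩ := hne
    exact ⟨i, Finset.mem_filter.mpr ⟨Finset.mem_range.mpr hi, hic⟩⟩
  obtain ⟨i₀, hi₀, hmax⟩ := T.exists_max_image
    (fun i => A.valuation ((c i : Qb) * (μ - 1) ^ i)) hTne
  obtain ⟨hi₀r, hi₀c⟩ := Finset.mem_filter.mp hi₀
  refine ⟨i₀, Finset.mem_range.mp hi₀r, hi₀c, ?_, fun i hi => ?_⟩
  · rw [← hT]
    refine Valuation.map_sum_eq_of_lt _ hi₀ fun i hi => ?_
    · obtain ⟨hiT, hine⟩ := Finset.mem_sdiff.mp hi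
      obtain ⟨hir, hic⟩ := Finset.mem_filter.mp hiT
      exact lt_of_le_of_ne (hmax i hiT) (term_val_ne hq hA hMm hqm hic hi₀c
        (Finset.mem_range.mp hir) (Finset.mem_range.mp hi₀r) (by simpa using hine))
  · by_cases hci : (c i : Qb) = 0
    · simp [hci]
    · exact hmax i (Finset.mem_filter.mpr ⟨Finset.mem_range.mpr hi, hci⟩)

theorem exists_coeff_ne {c : ℕ → inertiaFld A}
    (hne : ∑ i ∈ Finset.range (q - 1), (c i : Qb) * (μ - 1) ^ i ≠ 0) :
    ∃ i < q - 1, (c i : Qb) ≠ 0 := by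
  by_contra h
  push Not at h
  exact hne (Finset.sum_eq_zero fun i hi => by rw [h i (Finset.mem_range.mp hi), zero_mul])

/-- The uniformiser `μ - 1`. -/
def piO : oBase A M :=
  ⟨⟨μ - 1, sub_mem (pow_mem (IntermediateField.mem_adjoin_simple_self _ _) m) (one_mem _)⟩,
    (A.valuation_le_one_iff _).mp (val_mu_sub_one_lt hq hA hMm hqm).le⟩

theorem oBase_dvr :
    IsDiscreteValuationRing (oBase A M) ∧
      maximalIdeal (oBase A M) = Ideal.span {piO hq hA hMm hqm} ∧
      Irreducible (piO hq hA hMm hqm) := by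
  refine dvr_cut (A := A) (ι := algebraMap (oFld A M) Qb) (piO hq hA hMm hqm)
    (val_mu_sub_one_lt hq hA hMm hqm) ?_ fun x hx => ?_
  · intro e
    exact (isPrimitiveRoot_mu hq hMm).ne_one hq.one_lt
      (sub_eq_zero.mp (congrArg (fun y : oFld A M => (y : Qb)) e))
  · obtain ⟨c, hc⟩ := exists_expansion hq hA hMm hqm x.2
    have hne : (x : Qb) ≠ 0 := fun e => hx (Subtype.ext e)
    rw [hc] at hne
    obtain ⟨i₀, -, hc0, hv, -⟩ :=
      expansion_val hq hA hMm hqm c (exists_coeff_ne hq hA hMm hqm hne)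
    obtain ⟨k, hk⟩ := exists_term_val hq hA hMm hqm hc0 i₀
    exact ⟨_, (congrArg A.valuation hc).trans (hv.trans hk)⟩

omit hMm in
theorem isAlgClosed_oBase : IsAlgClosed (ResidueField (oBase A M)) := by
  refine isAlgClosed_cut hq hA ?_
  rintro y ⟨n, hn, hy⟩
  exact ⟨algebraMap (inertiaFld A) (oFld A M) ⟨y, root_mem_inertiaFld A hq hA hn hy⟩, rfl⟩

theorem natCast_mem_maximal : (q : oBase A M) ∈ maximalIdeal (oBase A M) :=
  (mem_maximalIdeal_cut _ _).mpr (by simpa using GalRep.Model.val_natCast_lt_one A hA)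

theorem exists_wBase_pow : ∃ c : wBase A,
    algebraMap (wBase A) (oBase A M) c = (embO A M).ζ ^ q :=
  ⟨⟨⟨zetaQ M ^ q, root_mem_inertiaFld A hq hA hqm
    (by rw [← pow_mul, ← hMm, (isPrimitiveRoot_zetaQ M).pow_eq_one])⟩,
    pow_mem (integralClosure_le A ⟨zetaQ M, (isPrimitiveRoot_zetaQ M).isIntegral (NeZero.pos M)⟩) q⟩,
    Subtype.ext (Subtype.ext rfl)⟩

theorem adjoin_eq_top : Algebra.adjoin (wBase A) {(embO A M).ζ} = ⊤ := by
  refine eq_top_iff.mpr fun x _ => ?_
  obtain ⟨c, hc⟩ := exists_expansion hq hA hMm hqm (x : oFld A M).2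
  rcases eq_or_ne ((x : oFld A M) : Qb) 0 with h0 | hne
  · have : x = 0 := Subtype.ext (Subtype.ext h0)
    rw [this]
    exact zero_mem _
  rw [hc] at hne
  obtain ⟨i₀, hi₀, hc0, hv, hmax⟩ :=
    expansion_val hq hA hMm hqm c (exists_coeff_ne hq hA hMm hqm hne)
  have hx1 : A.valuation ((x : oFld A M) : Qb) ≤ 1 := (A.valuation_le_one_iff _).mpr x.2
  have hπ : A.valuation (μ - 1) < 1 := val_mu_sub_one_lt hq hA hMm hqm
  have hπ0 : 0 < A.valuation (μ - 1) := zero_lt_iff.mpr
    (by simpa [sub_eq_zero] using (isPrimitiveRoot_mu hq hMm).ne_one hq.one_lt)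
  have hcW : ∀ i < q - 1, (c i : inertiaFld A) ∈ wBase A := by
    intro i hi
    show ((c i : inertiaFld A) : Qb) ∈ A
    by_cases hci : (c i : Qb) = 0
    · rw [hci]; exact A.zero_mem
    obtain ⟨k, hk⟩ := exists_term_val hq hA hMm hqm hci i
    have h1 : A.valuation (μ - 1) ^ (((q - 1 : ℕ) : ℤ) * k + i) ≤ 1 := by
      rw [← hk]
      exact (hmax i hi).trans ((hv.symm.trans (congrArg A.valuation hc).symm).le.trans hx1)
    have h2 : 0 ≤ ((q - 1 : ℕ) : ℤ) * k + i := by
      by_contra hneg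
      exact absurd h1 (not_le.mpr (one_lt_zpow_of_neg₀ hπ0 hπ (by omega)))
    have hk0 : 0 ≤ k := by
      have hi' : (i : ℤ) < ((q - 1 : ℕ) : ℤ) := by exact_mod_cast hi
      by_contra hneg
      have hk1 : k ≤ -1 := by omega
      nlinarith
    obtain ⟨k', hk'⟩ := exists_val_eq_zpow_of_fixed hq hA ((mem_inertiaFld A).mp (c i).2) hci
    obtain rfl : k' = k := by
      obtain ⟨l, hl⟩ := exists_term_val hq hA hMm hqm hci i
      have hq1 : A.valuation (q : Qb) < 1 := GalRep.Model.val_natCast_lt_one A hA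
      have hq0 : 0 < A.valuation (q : Qb) := zero_lt_iff.mpr (by simpa using hq.ne_zero)
      have e : A.valuation ((c i : Qb) * (μ - 1) ^ i) =
          A.valuation (μ - 1) ^ (((q - 1 : ℕ) : ℤ) * k' + i) := by
        rw [map_mul, map_pow, hk', ← val_mu_sub_one hq hA hMm, zpow_add₀ hπ0.ne', zpow_mul,
          zpow_natCast, zpow_natCast]
      have := (zpow_right_strictAnti₀ hπ0 hπ).injective (e.symm.trans hk)
      have hd : ((q - 1 : ℕ) : ℤ) ≠ 0 := by have := hq.two_le; omega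
      exact mul_left_cancel₀ hd (by linarith)
    rw [← A.valuation_le_one_iff, hk']
    lift k' to ℕ using hk0
    rw [zpow_natCast]
    exact pow_le_one₀ zero_le (GalRep.Model.val_natCast_lt_one A hA).le
  have hmu : (piO hq hA hMm hqm) ∈ Algebra.adjoin (wBase A) {(embO A M).ζ} := by
    have e : piO hq hA hMm hqm = (embO A M).ζ ^ m - 1 := oVal_injective A M (by
      rw [map_sub, map_pow, map_one, oVal_embO_ζ]; rfl)
    rw [e]
    have hz : (embO A M).ζ ∈ Algebra.adjoin (wBase A) {(embO A M).ζ} :=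
      Algebra.subset_adjoin (Set.mem_singleton _)
    exact Subalgebra.sub_mem _ (Subalgebra.pow_mem _ hz m) (Subalgebra.one_mem _)
  have hcW' : ∀ i ∈ Finset.range (q - 1), (c i : inertiaFld A) ∈ wBase A := fun i hi =>
    hcW i (Finset.mem_range.mp hi)
  have e : x = ∑ i ∈ (Finset.range (q - 1)).attach,
      algebraMap (wBase A) (oBase A M) ⟨c i, hcW' i i.2⟩ * piO hq hA hMm hqm ^ (i : ℕ) := by
    refine oVal_injective A M ?_
    rw [map_sum]
    simp only [map_mul, map_pow, oVal_algebraMap]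
    rw [show oVal A M (piO hq hA hMm hqm) = μ - 1 from rfl,
      Finset.sum_attach (Finset.range (q - 1)) fun i => (c i : Qb) * (μ - 1) ^ i, ← hc]
    rfl
  rw [e]
  exact sum_mem fun i _ => mul_mem (Subalgebra.algebraMap_mem _ _) (pow_mem hmu _)

/-! ## Automorphisms over the inertia field -/

theorem apply_mem_oFld {s : GQ} (hs : ∀ y ∈ inertiaFld A, s y = y) {x : Qb} (hx : x ∈ oFld A M) :
    s x ∈ oFld A M := by
  obtain ⟨c, rfl⟩ := exists_expansion hq hA hMm hqm hx
  rw [map_sum]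
  refine sum_mem fun i _ => ?_
  rw [map_mul, hs _ (c i).2, map_pow, map_sub, map_one]
  refine mul_mem (IntermediateField.algebraMap_mem _ (c i)) (pow_mem (sub_mem ?_ (one_mem _)) i)
  haveI : NeZero q := ⟨hq.ne_zero⟩
  obtain ⟨j, -, hj⟩ := (isPrimitiveRoot_mu hq hMm).eq_pow_of_pow_eq_one
    (ξ := s μ) (by rw [← map_pow, (isPrimitiveRoot_mu hq hMm).pow_eq_one, map_one])
  rw [← hj]
  exact pow_mem (pow_mem (IntermediateField.mem_adjoin_simple_self _ _) m) j

theorem mem_stabK_of_fix {s : GQ} (hs : ∀ y ∈ inertiaFld A, s y = y) :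
    liftAut s ∈ stabK (embO A M) := by
  have hs' : ∀ y ∈ inertiaFld A, s⁻¹ y = y := fun y hy => by
    conv_lhs => rw [← hs y hy]
    exact s.symm_apply_apply y
  rw [mem_stabK]
  intro c
  simp only [mem_embO_K]
  constructor
  · rintro ⟨x, hx, he⟩
    refine ⟨s⁻¹ x, apply_mem_oFld hq hA hMm hqm hs' hx, (liftAut s).injective ?_⟩
    rw [liftAut_spec, ← he]
    exact congrArg qbarToC (s.apply_symm_apply x)
  · rintro ⟨x, hx, rfl⟩
    exact ⟨s x, apply_mem_oFld hq hA hMm hqm hs hx, (liftAut_spec s x).symm⟩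

theorem liftAut_congr {s : GQ} (hs : ∀ y ∈ inertiaFld A, s y = y) (o : oBase A M) :
    ∃ o' : oBase A M, liftAut s ((embO A M).φ o) = (embO A M).φ o' ∧
      o' - o ∈ maximalIdeal (oBase A M) := by
  have hgo := (adjoin_eq_top hq hA hMm hqm).ge (Algebra.mem_top (R := wBase A) (x := o))
  induction hgo using Algebra.adjoin_induction with
  | mem x hx =>
    obtain rfl := hx
    obtain ⟨j, -, hj⟩ := (isPrimitiveRoot_zetaQ M).eq_pow_of_pow_eq_one
      (ξ := s (zetaQ M)) (by rw [← map_pow, (isPrimitiveRoot_zetaQ M).pow_eq_one, map_one])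
    refine ⟨(embO A M).ζ ^ j, ?_, ?_⟩
    · rw [embO_φ, embO_φ, liftAut_spec, map_pow, oVal_embO_ζ, hj]
    · rw [mem_maximalIdeal_oBase, map_sub, map_pow, oVal_embO_ζ]
      haveI : NeZero q := ⟨hq.ne_zero⟩
      have h1 : s (zetaQ M ^ q) = zetaQ M ^ q := hs _ (root_mem_inertiaFld A hq hA hqm
        (by rw [← pow_mul, ← hMm, (isPrimitiveRoot_zetaQ M).pow_eq_one]))
      have hzA : ∀ i : ℕ, zetaQ M ^ i ∈ A := fun i => integralClosure_le A
        ⟨zetaQ M ^ i, ((isPrimitiveRoot_zetaQ M).isIntegral (NeZero.pos M)).pow i⟩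
      have hz0 : zetaQ M ≠ 0 := (isPrimitiveRoot_zetaQ M).ne_zero (NeZero.ne M)
      have hw : (zetaQ M ^ j / zetaQ M) ^ q = 1 := by
        rw [div_pow, hj, ← map_pow, h1, div_self (pow_ne_zero _ hz0)]
      obtain ⟨i, -, hi⟩ := (isPrimitiveRoot_mu hq hMm).eq_pow_of_pow_eq_one hw
      have e : zetaQ M ^ j - zetaQ M = zetaQ M * ((μ ^ i) - 1) := by
        rw [hi, mul_sub, mul_one, mul_div_cancel₀ _ hz0]
      rw [e, ← mul_geom_sum, map_mul, map_mul, mul_left_comm]
      refine lt_of_le_of_lt (mul_le_of_le_one_right' ?_) (val_mu_sub_one_lt hq hA hMm hqm)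
      rw [← map_mul, A.valuation_le_one_iff]
      exact mul_mem (by simpa using hzA 1) (sum_mem fun k _ => by rw [← pow_mul]; exact hzA _)
  | algebraMap r =>
    refine ⟨algebraMap _ _ r, ?_, by simp⟩
    rw [embO_φ, liftAut_spec]
    exact congrArg qbarToC (hs _ (r : inertiaFld A).2)
  | add a b _ _ iha ihb =>
    obtain ⟨a', ha, ha'⟩ := iha
    obtain ⟨b', hb, hb'⟩ := ihb
    exact ⟨a' + b', by rw [map_add, map_add, ha, hb, map_add],
      by rw [add_sub_add_comm]; exact add_mem ha' hb'⟩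
  | mul a b _ _ iha ihb =>
    obtain ⟨a', ha, ha'⟩ := iha
    obtain ⟨b', hb, hb'⟩ := ihb
    refine ⟨a' * b', by rw [map_mul, map_mul, ha, hb, map_mul], ?_⟩
    rw [show a' * b' - a * b = (a' - a) * b' + a * (b' - b) by ring]
    exact add_mem (Ideal.mul_mem_right _ _ ha') (Ideal.mul_mem_left _ _ hb')

/-- Every exponent of the `q`-th roots is taken by an automorphism over the inertia field. -/
theorem exists_fix_mu (a : (ZMod q)ˣ) :
    ∃ s : GQ, (∀ y ∈ inertiaFld A, s y = y) ∧ s μ = μ ^ (a : ZMod q).val := by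
  haveI : Fact q.Prime := ⟨hq⟩
  haveI : NeZero (q : inertiaFld A) := ⟨Nat.cast_ne_zero.mpr hq.ne_zero⟩
  have hμ := isPrimitiveRoot_mu hq hMm (M := M)
  have hint : _root_.IsIntegral (inertiaFld A) μ := (Algebra.IsIntegral.isIntegral (R := ℚ) μ).tower_top
  -- the minimal polynomial has full degree
  have hmin : minpoly (inertiaFld A) μ = cyclotomic q (inertiaFld A) := by
    have hdvd : minpoly (inertiaFld A) μ ∣ cyclotomic q (inertiaFld A) := by
      refine minpoly.dvd _ _ ?_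
      rw [aeval_def, ← eval_map, map_cyclotomic]
      exact (isRoot_cyclotomic_iff.mpr hμ).eq_zero
    refine (eq_of_monic_of_dvd_of_natDegree_le (minpoly.monic hint) (cyclotomic.monic _ _) hdvd
      ?_).symm
    rw [natDegree_cyclotomic, Nat.totient_prime hq]
    by_contra hlt
    push Not at hlt
    let P : (inertiaFld A)[X] := (minpoly (inertiaFld A) μ).comp (X + C 1)
    have hPd : P.natDegree = (minpoly (inertiaFld A) μ).natDegree := by
      simp only [P, natDegree_comp, natDegree_X_add_C, mul_one]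
    have hP0 : aeval (μ - 1) P = 0 := by
      simp only [P, aeval_comp, map_add, aeval_X, map_one, sub_add_cancel, minpoly.aeval]
    have hPm : P.coeff P.natDegree = 1 := (minpoly.monic hint).comp_X_add_C 1
    have hd : P.natDegree < q - 1 := by rw [hPd]; exact hlt
    obtain ⟨i₀, -, hc0, hv, -⟩ := expansion_val hq hA hMm hqm (fun i => P.coeff i)
      ⟨P.natDegree, hd, by rw [hPm]; exact one_ne_zero⟩
    rw [aeval_eq_sum_range' hd] at hP0
    simp only [Algebra.smul_def] at hP0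
    have h0 : ∑ i ∈ Finset.range (q - 1), ((P.coeff i : inertiaFld A) : Qb) * (μ - 1) ^ i = 0 := hP0
    rw [h0, map_zero] at hv
    exact (Valuation.ne_zero_iff _).mpr (mul_ne_zero hc0 (pow_ne_zero _
      (sub_ne_zero.mpr (hμ.ne_one hq.one_lt)))) hv.symm
  haveI : Normal (inertiaFld A) Qb := Normal.tower_top_of_normal ℚ _ _
  have hconj : minpoly (inertiaFld A) (μ ^ (a : ZMod q).val) = minpoly (inertiaFld A) μ := by
    refine (minpoly.eq_of_irreducible_of_monic (minpoly.irreducible hint) ?_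
      (minpoly.monic hint)).symm
    rw [hmin, aeval_def, ← eval_map, map_cyclotomic]
    exact (isRoot_cyclotomic_iff.mpr (hμ.pow_of_coprime _ (ZMod.val_coe_unit_coprime a))).eq_zero
  obtain ⟨s, hs⟩ := MulAction.mem_orbit_iff.mp ((Normal.minpoly_eq_iff_mem_orbit Qb).mp hconj)
  exact ⟨s.restrictScalars ℚ, fun y hy => s.commutes ⟨y, hy⟩, hs⟩

theorem cycM_eq_one_of_fix [NeZero m] {s : GQ} (hs : ∀ y ∈ inertiaFld A, s y = y) :
    Level.cycM m s = 1 := by
  haveI : NeZero (m : Qb) := ⟨Nat.cast_ne_zero.mpr (NeZero.ne m)⟩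
  obtain ⟨z, hz⟩ := HasEnoughRootsOfUnity.exists_primitiveRoot Qb m
  refine Level.cycM_eq_of_root s hz ?_
  rw [hs z (root_mem_inertiaFld A hq hA hqm hz.pow_eq_one)]
  rcases eq_or_ne m 1 with rfl | hm1
  · rw [IsPrimitiveRoot.one_right_iff.mp hz, one_pow]
  haveI : Fact (1 < m) := ⟨by have := NeZero.ne m; omega⟩
  rw [Units.val_one, ZMod.val_one, pow_one]

theorem cycM_eq_of_mu [NeZero q] {s : GQ} {a : (ZMod q)ˣ} (h : s μ = μ ^ (a : ZMod q).val) :
    Level.cycM q s = a :=
  Level.cycM_eq_of_root s (isPrimitiveRoot_mu hq hMm) h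

end Level

end Fermat.Agent.NewVec
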