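/-
Translations and conjugations on series: roots inside a coefficient field, and automorphisms
congruent to the identity on the component at infinity.
-/
import Fermat.Agent.Models.Field.Charts
import Fermat.Agent.Models.Field.Conj
import Fermat.Agent.GalRep.Model.Invariants

set_option autoImplicit false
set_option linter.style.haveILetI false
set_option linter.unusedSectionVars false

noncomputable section

namespace Fermat.Agent.NewVec

open CongruenceSubgroup IsLocalRing
open Fermat.Agent.GalRep Fermat.Agent.GalRep.Level Fermat.Agent.ModField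
open Fermat.Agent.GalRep.Model (zetaC SeriesField C_pi_prime)
open scoped MatrixGroups

/-! ## Roots with coefficients in a field -/

/-- A normalised root of a series with coefficients in `K` has coefficients in `K`. -/
theorem kSer_of_pow (K : Subfield ℂ) {n : ℕ} (hn : 0 < n) {h : LaurentSeries ℂ} (h0 : h ≠ 0)
    (hlead : h.coeff h.order = 1) (hpow : h ^ n ∈ kSer K) : h ∈ kSer K := by
  set p := pcoef K h with hp
  by_contra hh
  have hne : h - p ≠ 0 := fun e => hh (by rw [sub_eq_zero.mp e]; exact pcoef_mem K h)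
  set d := h.order with hd
  have hpd : p.coeff d = 1 := by rw [hp, pcoef_coeff, hlead, retract_of_mem K K.one_mem]
  have hp0 : p ≠ 0 := fun e => by rw [e] at hpd; exact zero_ne_one hpd
  have hlow : ∀ i < d, h.coeff i = 0 ∧ p.coeff i = 0 := fun i hi => by
    have := HahnSeries.coeff_eq_zero_of_lt_order hi
    exact ⟨this, by rw [hp, pcoef_coeff, this, map_zero]⟩
  have hpord : p.order = d := le_antisymm
    (HahnSeries.order_le_of_coeff_ne_zero (by rw [hpd]; exact one_ne_zero))
    (not_lt.mp fun hlt => HahnSeries.coeff_order_eq_zero.not.mpr hp0 (hlow _ hlt).2)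
  have hpl : p.leadingCoeff = 1 := by rw [HahnSeries.leadingCoeff_eq, hpord, hpd]
  have hhl : h.leadingCoeff = 1 := by rw [HahnSeries.leadingCoeff_eq, ← hd, hlead]
  -- powers
  have hmon : ∀ {x : LaurentSeries ℂ}, x ≠ 0 → x.leadingCoeff = 1 → ∀ k : ℕ,
      (x ^ k).leadingCoeff = 1 := fun {x} _ hx k => by
    induction k with
    | zero => simp
    | succ k ih => rw [pow_succ, HahnSeries.leadingCoeff_mul, ih, hx, one_mul]
  set S := ∑ i ∈ Finset.range n, h ^ i * p ^ (n - 1 - i) with hS
  set D : ℤ := ((n - 1 : ℕ) : ℤ) * d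
  have hterm : ∀ i ∈ Finset.range n, (h ^ i * p ^ (n - 1 - i)).order = D ∧
      (h ^ i * p ^ (n - 1 - i)).coeff D = 1 := by
    intro i hi
    have hi' := Finset.mem_range.mp hi
    have ho : (h ^ i * p ^ (n - 1 - i)).order = D := by
      rw [HahnSeries.order_mul (pow_ne_zero _ h0) (pow_ne_zero _ hp0), HahnSeries.order_pow,
        HahnSeries.order_pow, hpord, ← hd, ← add_nsmul, nsmul_eq_mul]
      congr 2
      omega
    refine ⟨ho, ?_⟩
    rw [← ho, ← HahnSeries.leadingCoeff_eq, HahnSeries.leadingCoeff_mul, hmon h0 hhl,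
      hmon hp0 hpl, one_mul]
  have hSD : S.coeff D = (n : ℂ) := by
    rw [hS, HahnSeries.coeff_sum, Finset.sum_congr rfl fun i hi => (hterm i hi).2, Finset.sum_const,
      Finset.card_range, nsmul_one]
  have hS0 : S ≠ 0 := fun e => by
    rw [e] at hSD
    exact Nat.cast_ne_zero.mpr hn.ne' hSD.symm
  have hSo : S.order = D := le_antisymm
    (HahnSeries.order_le_of_coeff_ne_zero (by rw [hSD]; exact Nat.cast_ne_zero.mpr hn.ne'))
    (not_lt.mp fun hlt => HahnSeries.coeff_order_eq_zero.not.mpr hS0 (by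
      conv_lhs => rw [hS]
      rw [HahnSeries.coeff_sum]
      exact Finset.sum_eq_zero fun i hi =>
        HahnSeries.coeff_eq_zero_of_lt_order (lt_of_lt_of_eq hlt (hterm i hi).1.symm)))
  have hprod : h ^ n - p ^ n = S * (h - p) := (geom_sum₂_mul h p n).symm
  have hmem : h ^ n - p ^ n ∈ kSer K := sub_mem hpow (pow_mem (pcoef_mem K h) n)
  have hc := mem_kSer.mp hmem (h ^ n - p ^ n).order
  rw [← HahnSeries.leadingCoeff_eq, hprod, HahnSeries.leadingCoeff_mul, HahnSeries.leadingCoeff_eq,
    hSo, hSD, HahnSeries.leadingCoeff_eq, HahnSeries.coeff_sub] at hc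
  set e := (h - p).order
  have he : h.coeff e - p.coeff e ∈ K := by
    have := K.mul_mem (K.inv_mem (natCast_mem K n)) hc
    rwa [← mul_assoc, inv_mul_cancel₀ (Nat.cast_ne_zero.mpr hn.ne'), one_mul] at this
  have hhe : h.coeff e ∈ K := by
    have := K.add_mem he (show p.coeff e ∈ K from retract_mem K _)
    rwa [sub_add_cancel] at this
  refine HahnSeries.coeff_order_eq_zero.not.mpr hne ?_
  rw [HahnSeries.coeff_sub, hp, pcoef_coeff, retract_of_mem K hhe, sub_self]

/-! ## Twisting series -/

/-- Coefficient `i` multiplied by `u ^ i`. -/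
def twistHom (u : ℂˣ) : LaurentSeries ℂ →+* LaurentSeries ℂ := Fermat.Agent.GalRep.twist u

variable {O : Type} [CommRing O] [IsDomain O] {M : ℕ} [NeZero M] (E : Emb O M)

/-- `exp(2πi/M)` as a unit. -/
def zU (M : ℕ) : ℂˣ := Units.mk0 (zetaC M) (Complex.exp_ne_zero _)

theorem toLS_fShift_T (r : ℤ) (x : Fld E) :
    toLS E (fShift E (ModularGroup.T ^ r) x) = twistHom (zU M ^ r) (toLS E x) := by
  obtain ⟨a, b, -, rfl⟩ := exists_eq_div E x
  have h : ∀ a : bddMF E, toLS E (fShift E (ModularGroup.T ^ r) (toFld E a)) =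
      twistHom (zU M ^ r) (toLS E (toFld E a)) := fun a => by
    rw [fShift_toFld, toLS_toFld, toLS_toFld]
    ext i
    rw [twistHom, twist_coeff]
    show (serHom M (shift M (ModularGroup.T ^ r) (a : MF M))).coeff i = _
    rw [Model.coeff_serHom_shift_T]
    congr 1
    rw [← zpow_mul, Units.val_zpow_eq_zpow_val]
    rfl
  simp only [map_div₀, h]

variable [IsDiscreteValuationRing O] {π : O}

/-- Conjugation and translation are congruent to the identity at infinity. -/
theorem fConjT_sub_mem (hπ : Irreducible π) (σ : stabK E)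
    (hσ : ∀ o : O, ∃ o', σ.1 (E.φ o) = E.φ o' ∧ o' - o ∈ maximalIdeal O) (r : ℤ)
    (hr : ∃ u : O, E.φ u = zetaC M ^ r ∧ u - 1 ∈ maximalIdeal O) {x : Fld E}
    (hx : x ∈ gaussP E hπ 1) :
    fShift E (ModularGroup.T ^ r) (fConj E σ x) - x ∈ (gaussP E hπ 1).nonunits := by
  choose s hs hs' using hσ
  obtain ⟨u, hu, hu'⟩ := hr
  have hser : ∀ y : Fld E, serAt E 1 y = serF E y := fun y => by
    simp only [serAt, RingHom.comp_apply, RingEquiv.toRingHom_eq_coe, RingEquiv.coe_toRingHom,
      fShift_one]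
  -- the map on power series over `O`
  let tw : PowerSeries O → PowerSeries O := fun a =>
    PowerSeries.mk fun i => s (PowerSeries.coeff i a) * u ^ i
  have htw : ∀ a, E.gO (tw a) = twistHom (zU M ^ r) (lmap σ.1.toRingHom (E.gO a)) := fun a => by
    ext i
    rw [twistHom, twist_coeff, lmap_coeff]
    simp only [Emb.gO, RingHom.comp_apply]
    by_cases hi : 0 ≤ i
    · lift i to ℕ using hi
      rw [HahnSeries.ofPowerSeries_apply_coeff, HahnSeries.ofPowerSeries_apply_coeff,
        PowerSeries.coeff_map, PowerSeries.coeff_map, PowerSeries.coeff_mk, map_mul, map_pow,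
        hu, zpow_natCast, Units.val_pow_eq_pow_val, Units.val_zpow_eq_zpow_val]
      show E.φ (s _) * _ = σ.1 (E.φ _) * _
      rw [hs]
      rfl
    · have hi' : i ∉ Set.range ((↑) : ℕ → ℤ) := fun ⟨k, hk⟩ => hi (hk ▸ Int.natCast_nonneg k)
      have h1 : ∀ f : PowerSeries ℂ, (HahnSeries.ofPowerSeries ℤ ℂ f).coeff i = 0 := fun f => by
        rw [HahnSeries.ofPowerSeries_apply]
        exact HahnSeries.embDomain_of_notMem_range hi'
      rw [h1, h1, map_zero, zero_mul]
  have hcong : ∀ a, PowerSeries.C π ∣ tw a - a := fun a => by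
    have hd : ∀ i, π ∣ s (PowerSeries.coeff i a) * u ^ i - PowerSeries.coeff i a := fun i => by
      have h1 : s (PowerSeries.coeff i a) * u ^ i - PowerSeries.coeff i a ∈ maximalIdeal O := by
        rw [show s (PowerSeries.coeff i a) * u ^ i - PowerSeries.coeff i a =
          (s (PowerSeries.coeff i a) - PowerSeries.coeff i a) * u ^ i +
            PowerSeries.coeff i a * (u ^ i - 1) by ring]
        refine add_mem (Ideal.mul_mem_right _ _ (hs' _)) (Ideal.mul_mem_left _ _ ?_)
        obtain ⟨t, ht⟩ := sub_one_dvd_pow_sub_one u i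
        rw [ht]
        exact Ideal.mul_mem_right _ _ hu'
      rw [hπ.maximalIdeal_eq, Ideal.mem_span_singleton] at h1
      exact h1
    choose c hc using hd
    refine ⟨PowerSeries.mk c, PowerSeries.ext fun i => ?_⟩
    rw [map_sub, PowerSeries.coeff_mk, PowerSeries.coeff_C_mul, PowerSeries.coeff_mk, hc]
  rw [mem_gaussP, hser, mem_gaussRing] at hx
  obtain ⟨a, b, hb, hab⟩ := hx
  rw [mem_nonunits_gaussP, hser, mem_nonunits_gaussRing, map_sub]
  have hb' : ¬ PowerSeries.C π ∣ tw b := fun h => hb (by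
    have := dvd_sub h (hcong b); rwa [sub_sub_cancel] at this)
  have hab' : serF E (fShift E (ModularGroup.T ^ r) (fConj E σ x)) * algebraMap (PowerSeries O) (SeriesField O) (tw b) =
      algebraMap (PowerSeries O) (SeriesField O) (tw a) := by
    refine E.toC_injective ?_
    have h := congrArg E.toC hab
    rw [map_mul, toC_serF, E.toC_algebraMap, E.toC_algebraMap] at h
    rw [map_mul, toC_serF, E.toC_algebraMap, E.toC_algebraMap, toLS_fShift_T, toLS_fConj, htw,
      htw, ← h, map_mul, map_mul]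
  refine ⟨tw a * b - a * tw b, tw b * b, fun h => ?_, ?_, ?_⟩
  · exact ((C_pi_prime hπ).dvd_or_dvd h).elim hb' hb
  · rw [show tw a * b - a * tw b = (tw a - a) * b - a * (tw b - b) by ring]
    exact dvd_sub (dvd_mul_of_dvd_left (hcong a) _) (dvd_mul_of_dvd_right (hcong b) _)
  · rw [map_mul, map_sub, map_mul, map_mul, ← hab, ← hab']
    ring

/-- Only translations by multiples of `M` act trivially. -/
theorem dvd_of_fShift_T_eq (r : ℤ) (h : ∀ x : Fld E, fShift E (ModularGroup.T ^ r) x = x) :
    (M : ℤ) ∣ r := by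
  rcases eq_or_ne M 1 with rfl | hM1
  · exact one_dvd _
  have hu : Model.NZ M ((1, 0) : ℤ × ℤ) := fun hd => hM1 (by
    have := Int.eq_one_of_dvd_one (Int.natCast_nonneg M) hd.1
    exact_mod_cast this)
  have h1 := h (toFld E ⟨fricke (1, 0) hu, fricke_mem E _ hu⟩)
  rw [fShift_toFld] at h1
  have h2 : shift M (ModularGroup.T ^ r) (fricke (1, 0) hu) = fricke (1, 0) hu :=
    congrArg Subtype.val (toFld_injective E h1)
  rw [Level.shift_fricke] at h2
  have h3 := Level.pm_of_fricke_eq _ _ h2
  simp only [Model.rowMul, ModularGroup.coe_T_zpow] at h3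
  rcases h3 with ⟨-, h4⟩ | ⟨-, h4⟩ <;> simpa using h4

end Fermat.Agent.NewVec
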