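/-
The symmetries of the model over the inertia field: translations, conjugations over the inertia
field, and the automorphisms fixing a component of the special fibre.
-/
import Fermat.Agent.NewVec.SeriesAct
import Fermat.Agent.NewVec.LocalBase
import Fermat.Agent.Models.DetectDefs

set_option autoImplicit false
set_option linter.style.haveILetI false
set_option linter.unusedSectionVars false

noncomputable section

namespace Fermat.Agent.NewVec

open CongruenceSubgroup IsLocalRing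
open Fermat.Agent.GalRep Fermat.Agent.GalRep.Level Fermat.Agent.ModField
open Fermat.Agent.Galois (GQ)
open Fermat.Agent.GalRep.Model (zetaC chartRing mem_chartRing_iff)
open scoped MatrixGroups

local notation "Qb" => AlgebraicClosure ℚ

variable {A : ValuationSubring (AlgebraicClosure ℚ)} {q N M : ℕ} [NeZero M]
  (hq : q.Prime) (hA : A.LiesOverPrime q) (hMN : M = q * N) (hqN : ¬ q ∣ N)

local notation "EE" => embO A M

/-- The chosen automorphism over the inertia field with given exponent. -/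
def fixAut (a : (ZMod q)ˣ) : GQ := (exists_fix_mu hq hA hMN hqN a).choose

theorem fixAut_fix (a : (ZMod q)ˣ) : ∀ y ∈ inertiaFld A, fixAut hq hA hMN hqN a y = y :=
  (exists_fix_mu hq hA hMN hqN a).choose_spec.1

theorem fixAut_mu (a : (ZMod q)ˣ) :
    fixAut hq hA hMN hqN a (zetaQ M ^ N) = (zetaQ M ^ N) ^ (a : ZMod q).val :=
  (exists_fix_mu hq hA hMN hqN a).choose_spec.2

/-- The conjugation with exponent `a`, as an element of the stabiliser of the constants. -/
def fixStab (a : (ZMod q)ˣ) : stabK EE :=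
  ⟨liftAut (fixAut hq hA hMN hqN a),
    mem_stabK_of_fix hq hA hMN hqN (fixAut_fix hq hA hMN hqN a)⟩

include hq hA hMN hqN in
/-- Conjugations over the inertia field are determined by the image of the root of unity. -/
theorem fConj_eq_of_mu {σ τ : stabK EE} {s t : GQ} (hσ : ∀ x : Qb, σ.1 (qbarToC x) = qbarToC (s x))
    (hτ : ∀ x : Qb, τ.1 (qbarToC x) = qbarToC (t x)) (hs : ∀ y ∈ inertiaFld A, s y = y)
    (ht : ∀ y ∈ inertiaFld A, t y = y) (h : s (zetaQ M ^ N) = t (zetaQ M ^ N)) (x : Fld EE) :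
    fConj EE σ x = fConj EE τ x := by
  refine toLS_injective EE ?_
  rw [toLS_fConj, toLS_fConj]
  ext i
  rw [lmap_coeff, lmap_coeff]
  obtain ⟨y, hy, hyx⟩ := (mem_embO_K A M).mp (mem_kSer.mp ((embO A M).sFld_le (toLS_mem EE x)) i)
  show σ.1 _ = τ.1 _
  rw [← hyx, hσ, hτ]
  obtain ⟨c, rfl⟩ := exists_expansion hq hA hMN hqN hy
  congr 1
  simp only [map_sum, map_mul, map_pow, map_sub, map_one, hs _ (c _).2, ht _ (c _).2, h]

theorem fixStab_mul [NeZero q] (a b : (ZMod q)ˣ) (x : Fld EE) :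
    fConj EE (fixStab hq hA hMN hqN a) (fConj EE (fixStab hq hA hMN hqN b) x) =
      fConj EE (fixStab hq hA hMN hqN (a * b)) x := by
  rw [fConj_fConj]
  refine fConj_eq_of_mu hq hA hMN hqN (s := fixAut hq hA hMN hqN a * fixAut hq hA hMN hqN b)
    (fun y => ?_) (liftAut_spec _) (fun y hy => ?_) (fixAut_fix hq hA hMN hqN _) ?_ x
  · show liftAut _ (liftAut _ (qbarToC y)) = _
    rw [liftAut_spec, liftAut_spec]
    rfl
  · show fixAut hq hA hMN hqN a (fixAut hq hA hMN hqN b y) = y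
    rw [fixAut_fix hq hA hMN hqN b y hy, fixAut_fix hq hA hMN hqN a y hy]
  · show fixAut hq hA hMN hqN a (fixAut hq hA hMN hqN b _) = _
    rw [fixAut_mu, map_pow, fixAut_mu, fixAut_mu, ← pow_mul, Units.val_mul, ZMod.val_mul,
      pow_eq_pow_mod _ (isPrimitiveRoot_mu hq hMN).pow_eq_one]

/-- The conjugations over the inertia field. -/
def conjTor [NeZero q] : (ZMod q)ˣ →* RingAut (Fld EE) :=
  MonoidHom.mk' (fun a => fConj EE (fixStab hq hA hMN hqN a))
    fun a b => RingEquiv.ext fun x => (fixStab_mul hq hA hMN hqN a b x).symm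

theorem conjTor_apply [NeZero q] (a : (ZMod q)ˣ) (x : Fld EE) :
    conjTor hq hA hMN hqN a x = fConj EE (fixStab hq hA hMN hqN a) x := rfl

/-- The exponent of a conjugation on the roots of order `M`. -/
def expM (a : (ZMod q)ˣ) : (ZMod M)ˣ := cycC M (fixStab hq hA hMN hqN a).1

theorem expM_mod_q [NeZero q] (a : (ZMod q)ˣ) :
    Units.map (ZMod.castHom (hMN ▸ dvd_mul_right q N : q ∣ M) (ZMod q)).toMonoidHom
      (expM hq hA hMN hqN a) = a := by
  rw [expM, fixStab, cycC_castHom, cycC_liftAut]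
  exact cycM_eq_of_mu hq hA hMN hqN (fixAut_mu hq hA hMN hqN a)

theorem expM_mod_N [NeZero N] (a : (ZMod q)ˣ) :
    Units.map (ZMod.castHom (hMN ▸ dvd_mul_left N q : N ∣ M) (ZMod N)).toMonoidHom
      (expM hq hA hMN hqN a) = 1 := by
  rw [expM, fixStab, cycC_castHom, cycC_liftAut]
  exact cycM_eq_one_of_fix hq hA hMN hqN (fixAut_fix hq hA hMN hqN a)

theorem conjTor_fShift [NeZero q] (a : (ZMod q)ˣ) {g g' : SL(2, ℤ)}
    (hg : ConjEq M (expM hq hA hMN hqN a) g g') (x : Fld EE) :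
    conjTor hq hA hMN hqN a (fShift EE g x) = fShift EE g' (conjTor hq hA hMN hqN a x) :=
  fConj_fShift EE _ hg x

theorem conjTor_jF [NeZero q] (a : (ZMod q)ˣ) : conjTor hq hA hMN hqN a (jF EE) = jF EE :=
  fConj_jF EE _

/-! ## The group -/

variable [NeZero q]

/-- Translations and conjugations over the inertia field. -/
def symG : Subgroup (RingAut (Fld EE)) where
  carrier := {σ | ∃ (g : SL(2, ℤ)) (a : (ZMod q)ˣ),
    ∀ x, σ x = fShift EE g (conjTor hq hA hMN hqN a x)}
  one_mem' := ⟨1, 1, fun x => by rw [map_one, fShift_one]⟩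
  mul_mem' := by
    rintro σ τ ⟨g, a, hσ⟩ ⟨h, b, hτ⟩
    obtain ⟨h', hh⟩ := exists_conjEq (expM hq hA hMN hqN a) h
    refine ⟨h' * g, a * b, fun x => ?_⟩
    show σ (τ x) = _
    rw [hσ, hτ, conjTor_fShift hq hA hMN hqN a hh, fShift_fShift, map_mul]
    rfl
  inv_mem' := by
    rintro σ ⟨g, a, hσ⟩
    obtain ⟨g', hg'⟩ := exists_conjEq (expM hq hA hMN hqN a⁻¹) g⁻¹
    refine ⟨g', a⁻¹, fun x => σ.injective ?_⟩
    rw [← conjTor_fShift hq hA hMN hqN a⁻¹ hg']
    show σ (σ.symm x) = _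
    rw [RingEquiv.apply_symm_apply, hσ]
    have h1 : ∀ y, conjTor hq hA hMN hqN a (conjTor hq hA hMN hqN a⁻¹ y) = y := fun y => by
      show (conjTor hq hA hMN hqN a * conjTor hq hA hMN hqN a⁻¹) y = y
      rw [← map_mul, mul_inv_cancel, map_one]
      rfl
    rw [h1, fShift_fShift, inv_mul_cancel, fShift_one]

theorem mem_symG {σ : RingAut (Fld EE)} : σ ∈ symG hq hA hMN hqN ↔
    ∃ (g : SL(2, ℤ)) (a : (ZMod q)ˣ), ∀ x, σ x = fShift EE g (conjTor hq hA hMN hqN a x) := Iff.rfl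

theorem finite_symG : Finite (symG hq hA hMN hqN) := by
  let f : SL(2, ZMod M) × (ZMod q)ˣ → symG hq hA hMN hqN := fun p =>
    ⟨(conjTor hq hA hMN hqN p.2).trans (fShift EE (lift p.1)), lift p.1, p.2, fun _ => rfl⟩
  refine Finite.of_surjective f fun σ => ?_
  obtain ⟨g, a, h⟩ := σ.2
  refine ⟨(red M g, a), Subtype.ext (RingEquiv.ext fun x => ?_)⟩
  show fShift EE (lift (red M g)) (conjTor hq hA hMN hqN a x) = _
  rw [h]
  exact fShift_congr EE (Function.surjInv_eq (red_surjective M) _) _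

theorem symG_fix_jF {σ : RingAut (Fld EE)} (hσ : σ ∈ symG hq hA hMN hqN) : σ (jF EE) = jF EE := by
  obtain ⟨g, a, h⟩ := hσ
  rw [h, conjTor_jF, fShift_jF]

theorem symG_const {σ : RingAut (Fld EE)} (hσ : σ ∈ symG hq hA hMN hqN) (c : oBase A M) :
    ∃ c' : oBase A M, σ (algebraMap _ (Fld EE) c) = algebraMap _ (Fld EE) c' ∧
      c' - c ∈ maximalIdeal (oBase A M) := by
  obtain ⟨g, a, h⟩ := hσ
  obtain ⟨c', hc', hm⟩ := liftAut_congr hq hA hMN hqN (fixAut_fix hq hA hMN hqN a) c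
  refine ⟨c', ?_, hm⟩
  rw [h, conjTor_apply, ← cstK_φ, fConj_cstK, fShift_cstK, ← cstK_φ]
  exact congrArg _ (Subtype.ext hc')

/-! ## The automorphisms fixing a component -/

variable [IsDiscreteValuationRing (oBase A M)] {π : oBase A M} (hπ : Irreducible π)

theorem symG_map_chart {σ : RingAut (Fld EE)} (hσ : σ ∈ symG hq hA hMN hqN) {w : Fld EE}
    (hw : σ w = w) {b : Fld EE} (hb : b ∈ chartRing (oBase A M) w) :
    σ b ∈ chartRing (oBase A M) w := by
  rw [mem_chartRing_iff] at hb ⊢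
  have hmap : ∀ y ∈ Algebra.adjoin (oBase A M) ({w} : Set (Fld EE)),
      σ y ∈ Algebra.adjoin (oBase A M) ({w} : Set (Fld EE)) := by
    intro y hy
    induction hy using Algebra.adjoin_induction with
    | mem y hy => obtain rfl := hy; rw [hw]; exact Algebra.subset_adjoin rfl
    | algebraMap r =>
      obtain ⟨c, hc, -⟩ := symG_const hq hA hMN hqN hσ r
      rw [hc]; exact Subalgebra.algebraMap_mem _ _
    | add y z _ _ iy iz => rw [map_add]; exact add_mem iy iz
    | mul y z _ _ iy iz => rw [map_mul]; exact mul_mem iy iz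
  let r : Algebra.adjoin (oBase A M) ({w} : Set (Fld EE)) →+*
      Algebra.adjoin (oBase A M) ({w} : Set (Fld EE)) :=
    ((σ : Fld EE →+* Fld EE).comp (Algebra.adjoin (oBase A M) ({w} : Set (Fld EE))).val.toRingHom)
      |>.codRestrict _ fun y => hmap y y.2
  exact hb.map_of_comp_eq r (σ : Fld EE →+* Fld EE) (RingHom.ext fun _ => rfl)

/-- The translation `T^{N j}`. -/
def tN (j : ZMod q) : SL(2, ℤ) := ModularGroup.T ^ ((N : ℤ) * (j.val : ℤ))

/-- An automorphism fixing the component at infinity pointwise. -/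
def fix₁ (p : ZMod q × (ZMod q)ˣ) : RingAut (Fld EE) :=
  (conjTor hq hA hMN hqN p.2).trans (fShift EE (tN (N := N) p.1))

theorem fix₁_apply (p : ZMod q × (ZMod q)ˣ) (x : Fld EE) :
    fix₁ hq hA hMN hqN p x = fShift EE (tN (N := N) p.1) (conjTor hq hA hMN hqN p.2 x) := rfl

set_option maxHeartbeats 1000000 in
theorem fix₁_sub_mem (p : ZMod q × (ZMod q)ˣ) {x : Fld EE} (hx : x ∈ gaussP EE hπ 1) :
    fix₁ hq hA hMN hqN p x - x ∈ (gaussP EE hπ 1).nonunits := by
  refine fConjT_sub_mem EE hπ _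
    (fun o => liftAut_congr hq hA hMN hqN (fixAut_fix hq hA hMN hqN p.2) o) _ ?_ hx
  refine ⟨(EE).ζ ^ (N * p.1.val), ?_, ?_⟩
  · rw [map_pow, (EE).map_ζ, show ((N : ℤ) * (p.1.val : ℤ)) = ((N * p.1.val : ℕ) : ℤ) by push_cast; ring,
      zpow_natCast]
  · rw [pow_mul]
    obtain ⟨t, ht⟩ := sub_one_dvd_pow_sub_one ((EE).ζ ^ N) p.1.val
    rw [ht]
    refine Ideal.mul_mem_right _ _ ?_
    rw [mem_maximalIdeal_oBase, map_sub, map_pow, map_one, oVal_embO_ζ]
    exact val_mu_sub_one_lt hq hA hMN hqN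

theorem fix₁_mem_gaussP (p : ZMod q × (ZMod q)ˣ) (hp : p.1 = 0) {x : Fld EE} :
    fix₁ hq hA hMN hqN p x ∈ gaussP EE hπ 1 ↔ x ∈ gaussP EE hπ 1 := by
  have h1 : ∀ (a : (ZMod q)ˣ) {y : Fld EE}, y ∈ gaussP EE hπ 1 →
      fix₁ hq hA hMN hqN (0, a) y ∈ gaussP EE hπ 1 := fun a y hy => by
    have h := fix₁_sub_mem hq hA hMN hqN hπ (0, a) hy
    have := (gaussP EE hπ 1).add_mem _ _ ((gaussP EE hπ 1).nonunits_subset h) hy
    rwa [sub_add_cancel] at this
  obtain ⟨j, a⟩ := p
  subst hp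
  refine ⟨fun h => ?_, h1 a⟩
  have := h1 a⁻¹ h
  have e : fix₁ hq hA hMN hqN (0, a⁻¹) (fix₁ hq hA hMN hqN (0, a) x) = x := by
    simp only [fix₁_apply, tN, ZMod.val_zero, Nat.cast_zero, mul_zero, zpow_zero, fShift_one]
    show (conjTor hq hA hMN hqN a⁻¹ * conjTor hq hA hMN hqN a) x = x
    rw [← map_mul, inv_mul_cancel, map_one]
    rfl
  rwa [e] at this

theorem fix₁_injective : Function.Injective (fix₁ hq hA hMN hqN) := by
  rintro ⟨j, a⟩ ⟨k, b⟩ h
  have happ : ∀ x, fShift EE (tN (N := N) j) (conjTor hq hA hMN hqN a x) =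
      fShift EE (tN (N := N) k) (conjTor hq hA hMN hqN b x) := fun x =>
    RingEquiv.congr_fun h x
  -- the constants see the conjugation
  have hμ := isPrimitiveRoot_mu hq hMN (M := M)
  have hab : a = b := by
    have h1 := happ (cstK EE ⟨qbarToC (zetaQ M ^ N), by
      rw [map_pow, map_zetaQ]; exact pow_mem (EE).zetaC_mem N⟩)
    simp only [conjTor_apply, fConj_cstK, fShift_cstK] at h1
    have h2 := congrArg (fun z => z.1) ((cstK EE).injective h1)
    change liftAut _ (qbarToC _) = liftAut _ (qbarToC _) at h2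
    rw [liftAut_spec, liftAut_spec, fixAut_mu, fixAut_mu] at h2
    exact Units.ext (ZMod.val_injective q (hμ.pow_inj (ZMod.val_lt _) (ZMod.val_lt _)
      (qbarToC.injective h2)))
  subst hab
  have h3 : ∀ x, fShift EE (ModularGroup.T ^ ((N : ℤ) * ((j.val : ℤ) - k.val))) x = x := by
    intro x
    obtain ⟨y, rfl⟩ := (conjTor hq hA hMN hqN a).surjective x
    have h4 := congrArg (fShift EE (ModularGroup.T ^ (-((N : ℤ) * (k.val : ℤ))))) (happ y)
    simp only [tN, fShift_fShift, ← zpow_add] at h4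
    rwa [add_neg_cancel, zpow_zero, fShift_one,
      show (N : ℤ) * (j.val : ℤ) + -((N : ℤ) * k.val) = N * ((j.val : ℤ) - k.val) by ring] at h4
  have h5 := dvd_of_fShift_T_eq EE _ h3
  rw [hMN, Nat.cast_mul, mul_comm (q : ℤ)] at h5
  have hN0 : (N : ℤ) ≠ 0 := by
    intro h0
    exact hqN (by rw [Int.natCast_eq_zero.mp h0]; exact dvd_zero q)
  have h6 := Int.dvd_of_mul_dvd_mul_left hN0 h5
  have hjk : j = k := by
    have := (ZMod.intCast_zmod_eq_zero_iff_dvd _ q).mpr h6
    push_cast [ZMod.natCast_val] at this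
    simpa [sub_eq_zero] using this
  rw [hjk]

/-- The components. -/
def comps : Type := {P : ValuationSubring (Fld EE) // ∃ δ, P = gaussP EE hπ δ}

theorem gaussP_congr {δ δ' : SL(2, ℤ)} (h : red M δ = red M δ') :
    gaussP EE hπ δ = gaussP EE hπ δ' := by
  refine SetLike.ext fun x => ?_
  simp only [mem_gaussP, serAt, RingHom.comp_apply, RingEquiv.toRingHom_eq_coe,
    RingEquiv.coe_toRingHom, fShift_congr EE h x]

theorem finite_comps : Finite (comps hπ) :=
  Finite.of_surjective (fun x : SL(2, ZMod M) => (⟨gaussP EE hπ (lift x), _, rfl⟩ : comps hπ))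
    fun P => by
      obtain ⟨δ, hδ⟩ := P.2
      exact ⟨red M δ, Subtype.ext ((gaussP_congr hπ (Function.surjInv_eq (red_surjective M) _)).trans
        hδ.symm)⟩

/-- A cusp of a component. -/
def cuspOf (P : comps hπ) : SL(2, ℤ) := P.2.choose

theorem cuspOf_spec (P : comps hπ) : P.1 = gaussP EE hπ (cuspOf hπ P) := P.2.choose_spec

theorem mem_gaussP_iff_shift (δ : SL(2, ℤ)) {x : Fld EE} :
    x ∈ gaussP EE hπ δ ↔ fShift EE δ x ∈ gaussP EE hπ 1 := by
  rw [fShift_mem_gaussP, mul_one]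

theorem mem_nonunits_iff_shift (δ : SL(2, ℤ)) {x : Fld EE} :
    x ∈ (gaussP EE hπ δ).nonunits ↔ fShift EE δ x ∈ (gaussP EE hπ 1).nonunits := by
  rw [mem_nonunits_gaussP, mem_nonunits_gaussP, serAt_fShift, mul_one]

open scoped Classical in
/-- The automorphisms fixing a component pointwise. -/
def fixH (P : comps hπ) : Finset (RingAut (Fld EE)) :=
  Finset.univ.image fun p =>
    ((fShift EE (cuspOf hπ P)).trans (fix₁ hq hA hMN hqN p)).trans (fShift EE (cuspOf hπ P)).symm

set_option maxHeartbeats 2000000 in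
open scoped Classical in
theorem symmetry :
    Models.Symmetry (ModField.model EE) π (fun P : comps hπ => P.1) (symG hq hA hMN hqN)
      (fixH hq hA hMN hqN hπ) (q * (q - 1)) where
  injective := Subtype.val_injective
  uniformizer P := by
    obtain ⟨δ, hδ⟩ := P.2
    simp only [hδ]
    exact uniformizer_gaussP EE hπ δ
  fix_w σ hσ := symG_fix_jF hq hA hMN hqN hσ
  map₀ σ hσ b hb := symG_map_chart hq hA hMN hqN hσ (symG_fix_jF hq hA hMN hqN hσ) hb
  map₁ σ hσ b hb := symG_map_chart hq hA hMN hqN hσ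
    (by rw [map_inv₀, symG_fix_jF hq hA hMN hqN hσ]) hb
  const σ hσ c := symG_const hq hA hMN hqN hσ c
  perm σ hσ P := by
    obtain ⟨g, a, h⟩ := hσ
    obtain ⟨δ, hδ⟩ := P.2
    obtain ⟨δ', hδ'⟩ := exists_conjEq (expM hq hA hMN hqN a) δ
    obtain ⟨k, hk⟩ := exists_conjEq_symm (expM hq hA hMN hqN a) g⁻¹
    refine ⟨⟨gaussP EE hπ (g⁻¹ * δ'), _, rfl⟩, fun x => ?_⟩
    simp only [hδ]
    rw [h, fShift_mem_gaussP, mul_inv_cancel_left, mem_gaussP_iff_shift hπ δ',
      ← conjTor_fShift hq hA hMN hqN a hδ', mem_gaussP_iff_shift hπ δ]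
    have := fix₁_mem_gaussP hq hA hMN hqN hπ (0, a) rfl (x := fShift EE δ x)
    simpa only [fix₁_apply, tN, ZMod.val_zero, Nat.cast_zero, mul_zero, zpow_zero, fShift_one]
      using this
  mem P σ hσ := by
    obtain ⟨p, -, rfl⟩ := Finset.mem_image.mp hσ
    have h1 : ∀ g, (fShift EE g : RingAut (Fld EE)) ∈ symG hq hA hMN hqN := fun g =>
      ⟨g, 1, fun x => by rw [map_one]; rfl⟩
    have h2 : fix₁ hq hA hMN hqN p ∈ symG hq hA hMN hqN := ⟨_, _, fun _ => rfl⟩
    exact mul_mem (inv_mem (h1 _)) (mul_mem h2 (h1 _))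
  card P := by
    rw [fixH, Finset.card_image_of_injective, Finset.card_univ, Fintype.card_prod, ZMod.card,
      ZMod.card_units_eq_totient, Nat.totient_prime hq]
    intro p p' hp
    refine fix₁_injective hq hA hMN hqN (RingEquiv.ext fun x => ?_)
    obtain ⟨y, rfl⟩ := (fShift EE (cuspOf hπ P)).surjective x
    exact (fShift EE (cuspOf hπ P)).symm.injective (RingEquiv.congr_fun hp y)
  fix P σ hσ x hx := by
    obtain ⟨p, -, rfl⟩ := Finset.mem_image.mp hσ
    simp only [cuspOf_spec hπ P, mem_gaussP_iff_shift hπ (cuspOf hπ P),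
      mem_nonunits_iff_shift hπ (cuspOf hπ P)] at hx ⊢
    rw [map_sub, RingEquiv.trans_apply, RingEquiv.apply_symm_apply]
    exact fix₁_sub_mem hq hA hMN hqN hπ p hx

end Fermat.Agent.NewVec
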