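/-
From level `q^2 m` to level `q m`: pullback to `Γ(q) ∩ Γ₀(m)`, translates by `SL₂(𝔽_q)`, and
corestriction.
-/
import Fermat.Agent.GalRep.Level.Hecke
import Fermat.Agent.GalRep.Glue

set_option autoImplicit false
set_option linter.style.haveILetI false

noncomputable section

namespace Fermat.Agent.NewVec

open CongruenceSubgroup
open Fermat.Agent.GalRep Fermat.Agent.GalRep.Level
open Fermat.Agent.Galois (GQ)
open scoped MatrixGroups

variable (q m : ℕ) [NeZero q] [NeZero m] [hqm : Fact (Nat.Coprime q m)]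

/-- The group `Γ(q) ∩ Γ₀(m)`. -/
def midGroup : Subgroup SL(2, ℤ) := Gamma q ⊓ Gamma0 m

omit hqm in
theorem isLevel_mid : IsLevel (q * q * m) (midGroup q m) :=
  ((isLevel_gamma q).of_dvd ⟨q * m, mul_assoc _ _ _⟩).inf
    ((isLevel_gamma0 m).of_dvd (dvd_mul_left m _))

omit hqm in
theorem isLevel_low : IsLevel (q * q * m) (Gamma0 (q * m)) :=
  (isLevel_gamma0 (q * m)).of_dvd ⟨q, by ring⟩

omit [NeZero q] [NeZero m] hqm in
theorem mem_mid {γ : SL(2, ℤ)} :
    γ ∈ midGroup q m ↔ red q γ = 1 ∧ (γ 1 0 : ZMod m) = 0 := by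
  rw [midGroup, Subgroup.mem_inf, red_eq_one_iff, Gamma0_mem]

omit [NeZero q] [NeZero m] in
theorem dvd_of_both {x : ℤ} (h1 : (q : ℤ) ∣ x) (h2 : (m : ℤ) ∣ x) : ((q * m : ℕ) : ℤ) ∣ x := by
  push_cast
  exact IsCoprime.mul_dvd (Int.isCoprime_iff_gcd_eq_one.mpr (by exact_mod_cast hqm.out)) h1 h2

omit [NeZero q] [NeZero m] in
theorem mid_le_low : midGroup q m ≤ Gamma0 (q * m) := fun γ hγ => by
  obtain ⟨h1, h2⟩ := (mem_mid q m).mp hγ
  rw [Gamma0_mem]
  refine (ZMod.intCast_zmod_eq_zero_iff_dvd _ _).mpr (dvd_of_both q m ?_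
    ((ZMod.intCast_zmod_eq_zero_iff_dvd _ _).mp h2))
  refine (ZMod.intCast_zmod_eq_zero_iff_dvd _ _).mp ?_
  rw [← red_apply, h1]
  simp

/-! ## Pullback by `diag(1, q)` -/

/-- The matrix of the pullback. -/
def qMat : Matrix (Fin 2) (Fin 2) ℤ := !![1, 0; 0, (q : ℤ)]

omit [NeZero m] hqm in
theorem det_qMat : 0 < (qMat q).det := by
  simp [qMat, Matrix.det_fin_two_of, Nat.pos_of_neZero q]

omit [NeZero m] hqm in
theorem mul_qMat_cancel {g g' : SL(2, ℤ)}
    (h : (g : Matrix (Fin 2) (Fin 2) ℤ) * qMat q = (g' : Matrix (Fin 2) (Fin 2) ℤ) * qMat q) :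
    g = g' := by
  have hq : (q : ℤ) ≠ 0 := Nat.cast_ne_zero.mpr (NeZero.ne q)
  have e := fun i j => congrFun (congrFun h i) j
  ext i j
  have := e i j
  fin_cases j <;> simp [qMat, Matrix.mul_apply, Fin.sum_univ_two, NeZero.ne q] at this ⊢ <;>
    assumption

omit [NeZero q] [NeZero m] hqm in
theorem intertwine_mul {R : Type} [Monoid R] {Q x y X Y : R} (hx : Q * x = X * Q)
    (hy : Q * y = Y * Q) : Q * (x * y) = X * Y * Q := by
  rw [← mul_assoc, hx, mul_assoc, hy, mul_assoc]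

omit [NeZero q] [NeZero m] hqm in
theorem intertwine_inv {g : SL(2, ℤ)} {g' : SL(2, ℤ)} {Q : Matrix (Fin 2) (Fin 2) ℤ}
    (h : Q * (g : Matrix (Fin 2) (Fin 2) ℤ) = (g' : Matrix (Fin 2) (Fin 2) ℤ) * Q) :
    Q * ((g⁻¹ : SL(2, ℤ)) : Matrix (Fin 2) (Fin 2) ℤ) =
      ((g'⁻¹ : SL(2, ℤ)) : Matrix (Fin 2) (Fin 2) ℤ) * Q := by
  have h1 : (g : Matrix (Fin 2) (Fin 2) ℤ) * ((g⁻¹ : SL(2, ℤ)) : Matrix (Fin 2) (Fin 2) ℤ) = 1 := by
    rw [← Matrix.SpecialLinearGroup.coe_mul, mul_inv_cancel, Matrix.SpecialLinearGroup.coe_one]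
  have h2 : ((g'⁻¹ : SL(2, ℤ)) : Matrix (Fin 2) (Fin 2) ℤ) * (g' : Matrix (Fin 2) (Fin 2) ℤ) = 1 := by
    rw [← Matrix.SpecialLinearGroup.coe_mul, inv_mul_cancel, Matrix.SpecialLinearGroup.coe_one]
  generalize ((g⁻¹ : SL(2, ℤ)) : Matrix (Fin 2) (Fin 2) ℤ) = G at h1 ⊢
  generalize ((g'⁻¹ : SL(2, ℤ)) : Matrix (Fin 2) (Fin 2) ℤ) = G' at h2 ⊢
  calc Q * G = G' * (g' : Matrix (Fin 2) (Fin 2) ℤ) * Q * G := by rw [h2, one_mul]
    _ = G' * (Q * (g : Matrix (Fin 2) (Fin 2) ℤ)) * G := by rw [h, mul_assoc G']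
    _ = G' * Q := by rw [mul_assoc, mul_assoc Q, h1, mul_one]

omit [NeZero q] [NeZero m] in
theorem exists_pull {γ : SL(2, ℤ)} (hb : (q : ℤ) ∣ γ 0 1) (hc : (q : ℤ) ∣ γ 1 0)
    (hm : (m : ℤ) ∣ γ 1 0) :
    ∃ γ' : Gamma0 (q * q * m),
      qMat q * (γ : Matrix (Fin 2) (Fin 2) ℤ) =
        ((γ' : SL(2, ℤ)) : Matrix (Fin 2) (Fin 2) ℤ) * qMat q := by
  obtain ⟨b, hb⟩ := hb
  have hd : (γ 0 0 : ℤ) * γ 1 1 - γ 0 1 * γ 1 0 = 1 := by rw [← Matrix.det_fin_two]; exact γ.2
  refine ⟨⟨⟨!![γ 0 0, b; (q : ℤ) * γ 1 0, γ 1 1], ?_⟩, ?_⟩, ?_⟩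
  · rw [Matrix.det_fin_two_of]
    rw [hb] at hd
    linear_combination hd
  · rw [Gamma0_mem]
    refine (ZMod.intCast_zmod_eq_zero_iff_dvd _ _).mpr ?_
    show ((q * q * m : ℕ) : ℤ) ∣ (q : ℤ) * γ 1 0
    rw [mul_assoc, Nat.cast_mul]
    exact mul_dvd_mul_left _ (dvd_of_both q m hc hm)
  · ext i j
    fin_cases i <;> fin_cases j <;>
      simp [qMat, Matrix.mul_apply, Fin.sum_univ_two, hb] <;> ring

omit [NeZero q] [NeZero m] hqm in
theorem q_dvd_of_mid {γ : SL(2, ℤ)} (h : γ ∈ midGroup q m) :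
    (q : ℤ) ∣ γ 0 1 ∧ (q : ℤ) ∣ γ 1 0 ∧ (m : ℤ) ∣ γ 1 0 := by
  obtain ⟨h1, h2⟩ := (mem_mid q m).mp h
  refine ⟨?_, ?_, (ZMod.intCast_zmod_eq_zero_iff_dvd _ _).mp h2⟩ <;>
    refine (ZMod.intCast_zmod_eq_zero_iff_dvd _ _).mp ?_ <;>
    rw [← red_apply, h1] <;> simp

/-- Conjugation by `diag(1, q)`. -/
def pullHom : midGroup q m →* Gamma0 (q * q * m) :=
  MonoidHom.mk'
    (fun γ => (exists_pull q m (q_dvd_of_mid q m γ.2).1 (q_dvd_of_mid q m γ.2).2.1
      (q_dvd_of_mid q m γ.2).2.2).choose)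
    fun γ δ => by
      refine Subtype.ext (mul_qMat_cancel q ?_)
      have h1 := fun γ : midGroup q m => (exists_pull q m (q_dvd_of_mid q m γ.2).1
        (q_dvd_of_mid q m γ.2).2.1 (q_dvd_of_mid q m γ.2).2.2).choose_spec
      exact ((h1 _).symm.trans (intertwine_mul (h1 γ) (h1 δ)))

theorem pullHom_spec (γ : midGroup q m) :
    qMat q * ((γ : SL(2, ℤ)) : Matrix (Fin 2) (Fin 2) ℤ) =
      ((pullHom q m γ : SL(2, ℤ)) : Matrix (Fin 2) (Fin 2) ℤ) * qMat q :=
  (exists_pull q m (q_dvd_of_mid q m γ.2).1 (q_dvd_of_mid q m γ.2).2.1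
      (q_dvd_of_mid q m γ.2).2.2).choose_spec

theorem trace_pullHom (γ : midGroup q m) :
    ((pullHom q m γ : SL(2, ℤ)) : Matrix (Fin 2) (Fin 2) ℤ).trace =
      ((γ : SL(2, ℤ)) : Matrix (Fin 2) (Fin 2) ℤ).trace := by
  have h := pullHom_spec q m γ
  have h0 := congrFun (congrFun h 0) 0
  have h1 := congrFun (congrFun h 1) 1
  simp [qMat, Matrix.mul_apply, Fin.sum_univ_two] at h0 h1
  rw [Matrix.trace_fin_two, Matrix.trace_fin_two, ← h0]
  have hq : (q : ℤ) ≠ 0 := Nat.cast_ne_zero.mpr (NeZero.ne q)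
  rw [mul_left_cancel₀ hq (h1.trans (mul_comm _ _))]

variable {A : Type} [AddCommGroup A]

/-- Pullback of homomorphisms. -/
def pullQ : ParHom (q * q * m) A →+ ParG (midGroup q m) A :=
  AddMonoidHom.mk'
    (fun χ => ⟨(χ : Additive (Gamma0 (q * q * m)) →+ A).comp (pullHom q m).toAdditive,
      fun γ hγ => χ.2 _ (by rwa [trace_pullHom])⟩)
    fun _ _ => Subtype.ext (AddMonoidHom.ext fun _ => rfl)

theorem pullQ_apply (χ : ParHom (q * q * m) A) (γ : midGroup q m) :
    (pullQ q m χ : Additive (midGroup q m) →+ A) (Additive.ofMul γ) =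
      (χ : Additive (Gamma0 (q * q * m)) →+ A) (Additive.ofMul (pullHom q m γ)) := rfl

/-! ## Translates -/

theorem exists_liftX (x : SL(2, ZMod q)) : ∃ g : SL(2, ℤ), red q g = x ∧ g ∈ Gamma m := by
  let e := ZMod.chineseRemainder hqm.out
  have : NeZero (q * m) := ⟨mul_ne_zero (NeZero.ne q) (NeZero.ne m)⟩
  let y : Matrix (Fin 2) (Fin 2) (ZMod (q * m)) := fun i j =>
    e.symm (x i j, (1 : Matrix (Fin 2) (Fin 2) (ZMod m)) i j)
  have hy : y.det = 1 := by
    refine e.injective (Prod.ext ?_ ?_)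
    · have h : x 0 0 * x 1 1 - x 0 1 * x 1 0 = 1 := by rw [← Matrix.det_fin_two]; exact x.2
      rw [map_one, Prod.fst_one, Matrix.det_fin_two]
      simpa [y, map_sub, map_mul] using h
    · rw [map_one, Prod.snd_one, Matrix.det_fin_two]
      simp [y, map_sub, map_mul]
  obtain ⟨g, hg⟩ := red_surjective (q * m) ⟨y, hy⟩
  have hent : ∀ i j, ((g i j : ℤ) : ZMod q) = x i j ∧
      ((g i j : ℤ) : ZMod m) = (1 : Matrix (Fin 2) (Fin 2) (ZMod m)) i j := fun i j => by
    have h := congrArg (fun z : SL(2, ZMod (q * m)) => e (z i j)) hg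
    simp only [red_apply, map_intCast] at h
    change (g i j : ZMod q × ZMod m) = e (e.symm _) at h
    rw [RingEquiv.apply_symm_apply] at h
    exact ⟨congrArg Prod.fst h, congrArg Prod.snd h⟩
  refine ⟨g, Matrix.SpecialLinearGroup.ext _ _ fun i j => (hent i j).1, ?_⟩
  rw [Gamma_mem]
  exact ⟨by simpa using (hent 0 0).2, by simpa using (hent 0 1).2, by simpa using (hent 1 0).2,
    by simpa using (hent 1 1).2⟩

/-- A lift of an element of `SL₂(ℤ/q)` congruent to one modulo `m`. -/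
def liftQ (x : SL(2, ZMod q)) : SL(2, ℤ) := (exists_liftX q m x).choose

theorem red_liftQ (x : SL(2, ZMod q)) : red q (liftQ q m x) = x :=
  (exists_liftX q m x).choose_spec.1

theorem liftQ_mem (x : SL(2, ZMod q)) : liftQ q m x ∈ Gamma0 m := by
  have h := (exists_liftX q m x).choose_spec.2
  rw [Gamma_mem] at h
  exact Gamma0_mem.mpr h.2.2.1

omit [NeZero q] [NeZero m] hqm in
theorem conj_mem_mid {g : SL(2, ℤ)} (hg : g ∈ Gamma0 m) {γ : SL(2, ℤ)} (hγ : γ ∈ midGroup q m) :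
    g * γ * g⁻¹ ∈ midGroup q m :=
  ⟨(Gamma_normal q).conj_mem γ hγ.1 g,
    (Gamma0 m).mul_mem ((Gamma0 m).mul_mem hg hγ.2) ((Gamma0 m).inv_mem hg)⟩

/-- Conjugation by an element of `Γ₀(m)`. -/
def conjMid (g : Gamma0 m) : midGroup q m →* midGroup q m :=
  MonoidHom.mk' (fun γ => ⟨g * γ * (g : SL(2, ℤ))⁻¹, conj_mem_mid q m g.2 γ.2⟩)
    fun γ δ => Subtype.ext (by simp [mul_assoc])

/-- Translate by an element of `SL₂(ℤ/q)`. -/
def act (x : SL(2, ZMod q)) : ParG (midGroup q m) A →+ ParG (midGroup q m) A :=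
  AddMonoidHom.mk'
    (fun χ => ⟨(χ : Additive (midGroup q m) →+ A).comp
        (conjMid q m ⟨liftQ q m x, liftQ_mem q m x⟩).toAdditive,
      fun γ hγ => χ.2 _ (by
        show ((((liftQ q m x) * γ * (liftQ q m x)⁻¹ : SL(2, ℤ))) :
          Matrix (Fin 2) (Fin 2) ℤ).trace ^ 2 = 4
        rwa [Matrix.SpecialLinearGroup.coe_mul, Matrix.trace_mul_comm,
          ← Matrix.SpecialLinearGroup.coe_mul, inv_mul_cancel_left])⟩)
    fun _ _ => Subtype.ext (AddMonoidHom.ext fun _ => rfl)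

/-- A translate is computed by any element of `Γ₀(m)` with the same reduction. -/
theorem act_apply (x : SL(2, ZMod q)) {g : SL(2, ℤ)} (hg : g ∈ Gamma0 m) (hx : red q g = x)
    (χ : ParG (midGroup q m) A) (γ : midGroup q m) :
    (act q m x χ : Additive (midGroup q m) →+ A) (Additive.ofMul γ) =
      (χ : Additive (midGroup q m) →+ A) (Additive.ofMul (conjMid q m ⟨g, hg⟩ γ)) := by
  have hn : (liftQ q m x)⁻¹ * g ∈ midGroup q m := by
    rw [mem_mid]
    refine ⟨by rw [map_mul, map_inv, red_liftQ, hx, inv_mul_cancel], Gamma0_mem.mp ?_⟩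
    exact (Gamma0 m).mul_mem ((Gamma0 m).inv_mem (liftQ_mem q m x)) hg
  set n : midGroup q m := ⟨_, hn⟩
  set l : Gamma0 m := ⟨liftQ q m x, liftQ_mem q m x⟩
  have e : conjMid q m ⟨g, hg⟩ γ =
      conjMid q m l n * conjMid q m l γ * (conjMid q m l n)⁻¹ := by
    rw [← map_mul, ← map_inv, ← map_mul]
    refine Subtype.ext ?_
    show g * γ * g⁻¹ = (l : SL(2, ℤ)) * ((n : SL(2, ℤ)) * γ * (n : SL(2, ℤ))⁻¹) * (l : SL(2, ℤ))⁻¹
    simp only [n, l]
    group
  rw [e, ofMul_mul, ofMul_mul, ofMul_inv, map_add, map_add, map_neg, add_neg_cancel_comm]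
  rfl

theorem act_act (x y : SL(2, ZMod q)) (χ : ParG (midGroup q m) A) :
    act q m x (act q m y χ) = act q m (y * x) χ := by
  refine Subtype.ext (AddMonoidHom.ext fun z => ?_)
  obtain ⟨γ, rfl⟩ := Additive.ofMul.surjective z
  rw [act_apply q m (y * x) ((Gamma0 m).mul_mem (liftQ_mem q m y) (liftQ_mem q m x))
    (by rw [map_mul, red_liftQ, red_liftQ])]
  show (χ : Additive (midGroup q m) →+ A) (Additive.ofMul (conjMid q m ⟨liftQ q m y, _⟩
    (conjMid q m ⟨liftQ q m x, _⟩ γ))) = _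
  refine congrArg _ (congrArg _ (Subtype.ext ?_))
  simp [conjMid, mul_assoc]

theorem act_one (χ : ParG (midGroup q m) A) : act q m 1 χ = χ := by
  refine Subtype.ext (AddMonoidHom.ext fun z => ?_)
  obtain ⟨γ, rfl⟩ := Additive.ofMul.surjective z
  rw [act_apply q m 1 (Gamma0 m).one_mem (map_one _)]
  exact congrArg _ (congrArg _ (Subtype.ext (by simp [conjMid])))

/-- Diagonal translates fix pullbacks. -/
theorem act_pullQ_of_diag (t : SL(2, ZMod q)) (h01 : t 0 1 = 0) (h10 : t 1 0 = 0)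
    (χ : ParHom (q * q * m) A) : act q m t (pullQ q m χ) = pullQ q m χ := by
  obtain ⟨g, hg, hgm⟩ := exists_liftX q m t
  have hd : ∀ i j, t i j = 0 → (q : ℤ) ∣ g i j := fun i j h => by
    rw [← hg, red_apply] at h
    exact (ZMod.intCast_zmod_eq_zero_iff_dvd _ _).mp h
  rw [Gamma_mem] at hgm
  have hg0 : g ∈ Gamma0 m := Gamma0_mem.mpr hgm.2.2.1
  obtain ⟨g', hg'⟩ := exists_pull q m (hd 0 1 h01) (hd 1 0 h10)
    ((ZMod.intCast_zmod_eq_zero_iff_dvd _ _).mp hgm.2.2.1)
  refine Subtype.ext (AddMonoidHom.ext fun z => ?_)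
  obtain ⟨γ, rfl⟩ := Additive.ofMul.surjective z
  rw [act_apply q m t hg0 hg, pullQ_apply, pullQ_apply]
  have e : pullHom q m (conjMid q m ⟨g, hg0⟩ γ) = g' * pullHom q m γ * g'⁻¹ := by
    refine Subtype.ext (mul_qMat_cancel q ?_)
    rw [← pullHom_spec]
    exact intertwine_mul (intertwine_mul hg' (pullHom_spec q m γ)) (intertwine_inv hg')
  rw [e, ofMul_mul, ofMul_mul, ofMul_inv, map_add, map_add, map_neg, add_neg_cancel_comm]

/-! ## Corestriction -/

omit [NeZero q] [NeZero m] hqm in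
theorem finiteIndex_mid [NeZero (q * q * m)] : (midGroup q m).FiniteIndex :=
  Subgroup.finiteIndex_of_le (isLevel_gamma (q * q * m) |>.gamma_le.trans
    (show Gamma (q * q * m) ≤ midGroup q m from fun γ hγ => by
      have h := Gamma_mem.mp hγ
      rw [mem_mid]
      refine ⟨?_, ?_⟩
      · refine red_eq_one_iff.mpr (Gamma_mem.mpr ?_)
        have hd : q ∣ q * q * m := ⟨q * m, mul_assoc _ _ _⟩
        exact ⟨by simpa only [map_intCast, map_one] using congrArg (ZMod.castHom hd (ZMod q)) h.1,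
          by simpa only [map_intCast, map_zero] using congrArg (ZMod.castHom hd (ZMod q)) h.2.1,
          by simpa only [map_intCast, map_zero] using congrArg (ZMod.castHom hd (ZMod q)) h.2.2.1,
          by simpa only [map_intCast, map_one] using congrArg (ZMod.castHom hd (ZMod q)) h.2.2.2⟩
      · simpa only [map_intCast, map_zero] using
          congrArg (ZMod.castHom (dvd_mul_left m (q * q)) (ZMod m)) h.2.2.1))

/-- The middle group inside `Γ₀(qm)`. -/
abbrev midSub : Subgroup (Gamma0 (q * m)) := (midGroup q m).subgroupOf (Gamma0 (q * m))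

instance finiteIndex_midSub : (midSub q m).FiniteIndex :=
  haveI : NeZero (q * q * m) :=
    ⟨mul_ne_zero (mul_ne_zero (NeZero.ne q) (NeZero.ne q)) (NeZero.ne m)⟩
  haveI := finiteIndex_mid q m
  inferInstance

omit [NeZero q] [NeZero m] hqm in
theorem gamma0_low_le : Gamma0 (q * m) ≤ Gamma0 m := fun γ hγ => by
  have := Gamma0_mem.mp hγ
  exact Gamma0_mem.mpr (by simpa using congrArg (ZMod.castHom (dvd_mul_left m q) (ZMod m)) this)

instance normal_midSub : (midSub q m).Normal :=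
  ⟨fun _ hn g => conj_mem_mid q m (gamma0_low_le q m g.2) hn⟩

/-- A homomorphism on the middle group, multiplicatively, on the subgroup of `Γ₀(qm)`. -/
def midMul (χ : ParG (midGroup q m) A) : midSub q m →* Multiplicative A :=
  (AddMonoidHom.toMultiplicativeRight (χ : Additive (midGroup q m) →+ A)).comp
    (MonoidHom.mk' (fun h => ⟨((h : Gamma0 (q * m)) : SL(2, ℤ)), h.2⟩) fun _ _ => rfl)

theorem midMul_apply (χ : ParG (midGroup q m) A) (h : midSub q m) :
    Multiplicative.toAdd (midMul q m χ h) =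
      (χ : Additive (midGroup q m) →+ A)
        (Additive.ofMul ⟨((h : Gamma0 (q * m)) : SL(2, ℤ)), h.2⟩) := rfl

theorem transfer_eq_one_of_trace (χ : ParG (midGroup q m) A) (γ : Gamma0 (q * m))
    (hγ : ((γ : SL(2, ℤ)) : Matrix (Fin 2) (Fin 2) ℤ).trace ^ 2 = 4) :
    MonoidHom.transfer (midMul q m χ) γ = 1 := by
  classical
  haveI : Fintype (Quotient (MulAction.orbitRel (Subgroup.zpowers γ)
      (Gamma0 (q * m) ⧸ midSub q m))) := Fintype.ofFinite _
  rw [MonoidHom.transfer_eq_prod_quotient_orbitRel_zpowers_quot]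
  refine Finset.prod_eq_one fun o _ => ?_
  refine Multiplicative.toAdd.injective ?_
  rw [midMul_apply, toAdd_one]
  refine χ.2 _ ?_
  simp only [Subgroup.coe_mul, Subgroup.coe_inv, SubmonoidClass.coe_pow,
    Matrix.SpecialLinearGroup.coe_mul]
  rw [Matrix.trace_mul_comm, ← mul_assoc, ← Matrix.SpecialLinearGroup.coe_mul, mul_inv_cancel,
    Matrix.SpecialLinearGroup.coe_one, one_mul, Matrix.SpecialLinearGroup.coe_pow]
  exact trace_pow_sq_eq_four _ (γ : SL(2, ℤ)).2 hγ _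

/-- Corestriction. -/
def corH : ParG (midGroup q m) A →+ ParHom (q * m) A :=
  AddMonoidHom.mk'
    (fun χ => ⟨AddMonoidHom.toMultiplicativeRight.symm (MonoidHom.transfer (midMul q m χ)),
      fun γ hγ => by
        show Multiplicative.toAdd (MonoidHom.transfer (midMul q m χ) γ) = 0
        rw [transfer_eq_one_of_trace q m χ γ hγ, toAdd_one]⟩)
    fun χ χ' => Subtype.ext (AddMonoidHom.ext fun z => by
      obtain ⟨γ, rfl⟩ := Additive.ofMul.surjective z
      show Multiplicative.toAdd (MonoidHom.transfer (midMul q m (χ + χ')) γ) =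
        Multiplicative.toAdd (MonoidHom.transfer (midMul q m χ) γ) +
          Multiplicative.toAdd (MonoidHom.transfer (midMul q m χ') γ)
      simp only [MonoidHom.transfer_def _ (default : (midSub q m).LeftTransversal),
        Subgroup.leftTransversals.diff, toAdd_prod, ← Finset.sum_add_distrib]
      rfl)

/-- Restriction. -/
def resH : ParHom (q * m) A →+ ParG (midGroup q m) A :=
  AddMonoidHom.mk'
    (fun χ => ⟨(χ : Additive (Gamma0 (q * m)) →+ A).comp
        (Subgroup.inclusion (mid_le_low q m)).toAdditive, fun γ hγ => χ.2 _ hγ⟩)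
    fun _ _ => Subtype.ext (AddMonoidHom.ext fun _ => rfl)

/-! ## The upper triangular group -/

/-- The element `diag(s,1/s) (1 w; 0 1)`. -/
def torus (s : (ZMod q)ˣ) : SL(2, ZMod q) :=
  ⟨!![(s : ZMod q), 0; 0, ((s⁻¹ : (ZMod q)ˣ) : ZMod q)], by simp [Matrix.det_fin_two_of]⟩

/-- The element `(1 w; 0 1)`. -/
def unip (w : ZMod q) : SL(2, ZMod q) := ⟨!![1, w; 0, 1], by simp [Matrix.det_fin_two_of]⟩

omit [NeZero q] in
theorem unip_zero : unip q 0 = 1 := by ext i j; fin_cases i <;> fin_cases j <;> simp [unip]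

omit [NeZero q] in
theorem unip_add (v w : ZMod q) : unip q (v + w) = unip q v * unip q w := by
  ext i j; fin_cases i <;> fin_cases j <;> simp [unip, Matrix.mul_apply, Fin.sum_univ_two] <;> ring

theorem exists_borel_index : ∃ e : (ZMod q)ˣ × ZMod q ≃ Gamma0 (q * m) ⧸ midSub q m,
    ∀ x, ∀ g : Gamma0 (q * m), (g : Gamma0 (q * m) ⧸ midSub q m) = e x →
      red q ((g⁻¹ : Gamma0 (q * m)) : SL(2, ℤ)) = torus q x.1 * unip q x.2 := by
  classical
  have hlift : ∀ x : (ZMod q)ˣ × ZMod q,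
      liftQ q m (torus q x.1 * unip q x.2) ∈ Gamma0 (q * m) := fun x => by
    rw [Gamma0_mem]
    refine (ZMod.intCast_zmod_eq_zero_iff_dvd _ _).mpr (dvd_of_both q m ?_
      ((ZMod.intCast_zmod_eq_zero_iff_dvd _ _).mp (Gamma0_mem.mp (liftQ_mem q m _))))
    refine (ZMod.intCast_zmod_eq_zero_iff_dvd _ _).mp ?_
    rw [← red_apply, red_liftQ]
    simp [torus, unip, Matrix.mul_apply, Fin.sum_univ_two]
  let f : (ZMod q)ˣ × ZMod q → Gamma0 (q * m) ⧸ midSub q m := fun x =>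
    ((⟨_, hlift x⟩ : Gamma0 (q * m))⁻¹ : Gamma0 (q * m))
  have hf : ∀ x, ∀ g : Gamma0 (q * m), (g : Gamma0 (q * m) ⧸ midSub q m) = f x →
      red q ((g⁻¹ : Gamma0 (q * m)) : SL(2, ℤ)) = torus q x.1 * unip q x.2 := fun x g hg => by
    rw [QuotientGroup.eq, Subgroup.mem_subgroupOf] at hg
    have h1 := ((mem_mid q m).mp hg).1
    rw [Subgroup.coe_mul, map_mul, Subgroup.coe_inv, Subgroup.coe_inv, map_inv (red q) _,
      map_inv (red q) _, red_liftQ, mul_inv_eq_one] at h1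
    rw [Subgroup.coe_inv, map_inv, h1]
  have hbij : Function.Bijective f := by
    refine ⟨fun x y hxy => ?_, fun z => ?_⟩
    · have h1 := hf x _ rfl
      have h2 := hf y _ hxy
      rw [h1] at h2
      have e00 := congrArg (fun g : SL(2, ZMod q) => g 0 0) h2
      have e01 := congrArg (fun g : SL(2, ZMod q) => g 0 1) h2
      simp [torus, unip, Matrix.mul_apply, Fin.sum_univ_two] at e00 e01
      have hs : x.1 = y.1 := Units.ext e00
      refine Prod.ext hs ?_
      rw [hs] at e01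
      exact (y.1.isUnit.mul_right_inj).mp e01
    · induction z using QuotientGroup.induction_on with
      | _ g =>
      set b := red q ((g⁻¹ : Gamma0 (q * m)) : SL(2, ℤ))
      have hb : b 1 0 = 0 := by
        show (((((g⁻¹ : Gamma0 (q * m)) : SL(2, ℤ)) : Matrix (Fin 2) (Fin 2) ℤ) 1 0 : ℤ) : ZMod q) = 0
        rw [← map_intCast (ZMod.castHom (dvd_mul_right q m) (ZMod q)),
          Gamma0_mem.mp (g⁻¹ : Gamma0 (q * m)).2, map_zero]
      have hdet : b 0 0 * b 1 1 = 1 := by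
        have h : b 0 0 * b 1 1 - b 0 1 * b 1 0 = 1 := by rw [← Matrix.det_fin_two]; exact b.2
        rwa [hb, mul_zero, sub_zero] at h
      let s : (ZMod q)ˣ := ⟨b 0 0, b 1 1, hdet, by rw [mul_comm, hdet]⟩
      refine ⟨(s, b 1 1 * b 0 1), ?_⟩
      have e : torus q s * unip q (b 1 1 * b 0 1) = b := by
        ext i j
        fin_cases i <;> fin_cases j <;>
          simp [torus, unip, Matrix.mul_apply, Fin.sum_univ_two, hb, s, ← mul_assoc, hdet]
      refine QuotientGroup.eq.mpr (Subgroup.mem_subgroupOf.mpr ((mem_mid q m).mpr ⟨?_, ?_⟩))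
      · rw [Subgroup.coe_mul, map_mul, inv_inv, red_liftQ, e]
        rw [show b = red q ((g⁻¹ : Gamma0 (q * m)) : SL(2, ℤ)) from rfl, Subgroup.coe_inv,
          map_inv, inv_mul_cancel]
      · exact Gamma0_mem.mp (gamma0_low_le q m (_ : Gamma0 (q * m)).2)
  exact ⟨Equiv.ofBijective f hbij, hf⟩

/-- The sum of the translates by upper triangular elements. -/
def sumBorel : ParG (midGroup q m) A →+ ParG (midGroup q m) A :=
  ∑ x : (ZMod q)ˣ × ZMod q, act q m (torus q x.1 * unip q x.2)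

theorem resH_corH (χ : ParG (midGroup q m) A) :
    resH q m (corH q m χ) = sumBorel q m χ := by
  classical
  obtain ⟨e, he⟩ := exists_borel_index q m
  letI := (midSub q m).fintypeQuotientOfFiniteIndex
  refine Subtype.ext (AddMonoidHom.ext fun z => ?_)
  obtain ⟨γ, rfl⟩ := Additive.ofMul.surjective z
  let γ' : Gamma0 (q * m) := Subgroup.inclusion (mid_le_low q m) γ
  let T : (midSub q m).LeftTransversal := default
  show Multiplicative.toAdd (MonoidHom.transfer (midMul q m χ) γ') = _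
  rw [MonoidHom.transfer_def _ T, Subgroup.leftTransversals.diff, toAdd_prod, sumBorel,
    AddMonoidHom.finsetSum_apply, AddSubmonoidClass.coe_finsetSum, AddMonoidHom.finsetSum_apply]
  refine (Fintype.sum_equiv e _ _ fun x => ?_).symm
  set α := (T.2.leftQuotientEquiv (e x) : Gamma0 (q * m))
  have hα : (α : Gamma0 (q * m) ⧸ midSub q m) = e x := T.2.leftQuotientEquiv.symm_apply_apply (e x)
  rw [act_apply q m _ (gamma0_low_le q m (α⁻¹ : Gamma0 (q * m)).2) (he x α hα), midMul_apply]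
  refine congrArg _ (congrArg _ (Subtype.ext ?_))
  have hfix : γ'⁻¹ • e x = e x := by
    rw [← hα, MulAction.Quotient.smul_coe, smul_eq_mul, QuotientGroup.eq, mul_inv_rev, inv_inv]
    exact (normal_midSub q m).conj_mem' γ' γ.2 α
  simp only [Subgroup.smul_apply_eq_smul_apply_inv_smul, hfix]
  simp [conjMid, γ', α, mul_assoc]

/-! ## The map to level `qm` -/

/-- Translates by the conjugates of `g` under `diag(a,1)`, summed. -/
def sumTwist (g : SL(2, ZMod q)) : ParG (midGroup q m) A →+ ParG (midGroup q m) A :=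
  ∑ a : (ZMod q)ˣ, act q m (conjA a g)

/-- The map attached to `g`. -/
def psiQ (g : SL(2, ZMod q)) : ParHom (q * q * m) A →+ ParHom (q * m) A :=
  (corH q m).comp ((sumTwist q m g).comp (pullQ q m))

/-- If the value of `psiQ` vanishes, so does a sum of translates of the pullback. -/
theorem sum_translates_eq_zero [IsAddTorsionFree A] (g : SL(2, ZMod q))
    (χ : ParHom (q * q * m) A) (h : psiQ q m g χ = 0) :
    ∑ w : ZMod q, ∑ a : (ZMod q)ˣ, act q m (conjA a g * unip q w) (pullQ q m χ) = 0 := by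
  have h1 : resH q m (psiQ q m g χ) = 0 := by rw [h, map_zero]
  rw [psiQ, AddMonoidHom.comp_apply, AddMonoidHom.comp_apply, resH_corH, sumBorel,
    AddMonoidHom.finsetSum_apply, Fintype.sum_prod_type] at h1
  have key : ∀ (s : (ZMod q)ˣ) (w : ZMod q),
      act q m (torus q s * unip q w) (sumTwist q m g (pullQ q m χ)) =
        ∑ a : (ZMod q)ˣ, act q m (conjA a g * unip q w) (pullQ q m χ) := fun s w => by
    rw [sumTwist, AddMonoidHom.finsetSum_apply, map_sum]
    refine Fintype.sum_equiv (Equiv.mulLeft ((s * s)⁻¹)) _ _ fun a => ?_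
    have e : conjA a g * (torus q s * unip q w) =
        torus q s * (conjA ((s * s)⁻¹ * a) g * unip q w) := by
      rw [← mul_assoc, ← mul_assoc]
      congr 1
      ext i j
      fin_cases i <;> fin_cases j <;>
        simp [torus, conjA_apply, Matrix.mul_apply, Fin.sum_univ_two, mul_inv_rev]
      · ring
      · linear_combination (-((a : ZMod q) * g 0 1) * ((s⁻¹ : (ZMod q)ˣ) : ZMod q)) * Units.mul_inv s
      · linear_combination (-(((a⁻¹ : (ZMod q)ˣ) : ZMod q) * g 1 0) * (s : ZMod q)) * Units.inv_mul s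
      · ring
    rw [act_act, e, ← act_act, act_pullQ_of_diag q m (torus q s) rfl rfl, Equiv.coe_mulLeft]
  rw [Finset.sum_comm] at h1
  simp only [key, Finset.sum_const, ← Finset.smul_sum] at h1
  refine Subtype.ext (AddMonoidHom.ext fun z => ?_)
  have h2 := DFunLike.congr_fun (congrArg Subtype.val h1) z
  exact (nsmul_right_injective (Finset.card_ne_zero.mpr Finset.univ_nonempty))
    (h2.trans (smul_zero _).symm)

end Fermat.Agent.NewVec
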