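/-
Gauss orders of complex Laurent series over the base, and normalised roots in the level field.
-/
import Fermat.Agent.NewVec.SeriesAct

set_option autoImplicit false
set_option linter.style.haveILetI false
set_option linter.unusedSectionVars false

noncomputable section

namespace Fermat.Agent.NewVec

open IsLocalRing
open Fermat.Agent.GalRep Fermat.Agent.GalRep.Level Fermat.Agent.ModField
open Fermat.Agent.GalRep.Model (C_pi_prime C_pow_dvd_series_iff)

variable {O : Type} [CommRing O] [IsDomain O] [IsDiscreteValuationRing O] {M : ℕ}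
  (E : Emb O M) {π : O}

/-- The series is `π ^ e` times a quotient of series with nonzero reductions. -/
def HasOrd (π : O) (s : LaurentSeries ℂ) (e : ℤ) : Prop :=
  ∃ a b : PowerSeries O, ¬ PowerSeries.C π ∣ a ∧ ¬ PowerSeries.C π ∣ b ∧
    s * E.gO b = (HahnSeries.C (E.φ π) : LaurentSeries ℂ) ^ e * E.gO a

theorem C_phi_ne_zero (hπ : Irreducible π) : (HahnSeries.C (E.φ π) : LaurentSeries ℂ) ≠ 0 := by
  simp only [ne_eq, map_eq_zero]
  exact fun h => hπ.ne_zero (E.inj (h.trans (map_zero _).symm))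

theorem gO_C (r : O) : E.gO (PowerSeries.C r) = HahnSeries.C (E.φ r) := by
  rw [Emb.gO, RingHom.comp_apply, PowerSeries.map_C, HahnSeries.ofPowerSeries_C]

theorem gO_ne_zero {a : PowerSeries O} (ha : ¬ PowerSeries.C π ∣ a) : E.gO a ≠ 0 := fun h =>
  ha (by rw [E.gO_injective (h.trans (map_zero _).symm)]; exact dvd_zero _)

namespace HasOrd

variable {E} {s t : LaurentSeries ℂ} {d e : ℤ}

theorem mul (hπ : Irreducible π) (hs : HasOrd E π s d) (ht : HasOrd E π t e) :
    HasOrd E π (s * t) (d + e) := by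
  obtain ⟨a, b, ha, hb, h⟩ := hs
  obtain ⟨a', b', ha', hb', h'⟩ := ht
  refine ⟨a * a', b * b', fun hd => ((C_pi_prime hπ).dvd_or_dvd hd).elim ha ha',
    fun hd => ((C_pi_prime hπ).dvd_or_dvd hd).elim hb hb', ?_⟩
  rw [map_mul, map_mul, zpow_add₀ (C_phi_ne_zero E hπ), mul_mul_mul_comm, h, h', mul_mul_mul_comm]

theorem one (hπ : Irreducible π) : HasOrd E π 1 0 :=
  ⟨1, 1, fun h => (C_pi_prime hπ).not_isUnit (isUnit_of_dvd_one h),
    fun h => (C_pi_prime hπ).not_isUnit (isUnit_of_dvd_one h), by simp⟩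

theorem pow (hπ : Irreducible π) (hs : HasOrd E π s d) : ∀ k : ℕ, HasOrd E π (s ^ k) (k * d)
  | 0 => by simpa using one hπ
  | k + 1 => by
    rw [pow_succ, Nat.cast_succ, add_mul, one_mul]
    exact (pow hπ hs k).mul hπ hs

theorem prod (hπ : Irreducible π) {ι : Type} [Fintype ι] (f : ι → LaurentSeries ℂ) (d : ℤ)
    (h : ∀ i, HasOrd E π (f i) d) : HasOrd E π (∏ i, f i) (Fintype.card ι * d) := by
  classical
  suffices H : ∀ u : Finset ι, HasOrd E π (∏ i ∈ u, f i) (u.card * d) from H Finset.univ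
  intro u
  induction u using Finset.induction with
  | empty => simpa using one hπ
  | insert i u hi ih =>
    rw [Finset.prod_insert hi, Finset.card_insert_of_notMem hi, Nat.cast_succ, add_mul, one_mul,
      add_comm]
    exact (h i).mul hπ ih

theorem unique (hπ : Irreducible π) (hs : HasOrd E π s d) (hs' : HasOrd E π s e) : d = e := by
  wlog hle : d ≤ e generalizing d e with H
  · exact (H hs' hs (le_of_not_ge hle)).symm
  obtain ⟨a, b, ha, hb, h⟩ := hs
  obtain ⟨a', b', ha', hb', h'⟩ := hs'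
  obtain ⟨k, rfl⟩ : ∃ k : ℕ, e = d + k := ⟨(e - d).toNat, by omega⟩
  rw [zpow_add₀ (C_phi_ne_zero E hπ), zpow_natCast] at h'
  have h1 : E.gO (a * b') = E.gO (PowerSeries.C π ^ k * a' * b) := by
    refine mul_left_cancel₀ (zpow_ne_zero d (C_phi_ne_zero E hπ)) ?_
    rw [map_mul, map_mul, map_mul, map_pow, gO_C]
    linear_combination (E.gO b) * h' - (E.gO b') * h
  rcases Nat.eq_zero_or_pos k with hk | hk
  · simp [hk]
  refine absurd ?_ (fun hd => ((C_pi_prime hπ).dvd_or_dvd hd).elim ha hb')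
  rw [E.gO_injective h1, mul_assoc]
  exact (dvd_pow_self _ hk.ne').mul_right _

theorem ne_zero (hπ : Irreducible π) (hs : HasOrd E π s d) : s ≠ 0 := by
  obtain ⟨a, b, ha, hb, h⟩ := hs
  rintro rfl
  rw [zero_mul] at h
  exact mul_ne_zero (zpow_ne_zero d (C_phi_ne_zero E hπ)) (gO_ne_zero E ha) h.symm

end HasOrd

theorem hasOrd_C (hπ : Irreducible π) {r : O} (hr : r ≠ 0) :
    ∃ e : ℤ, HasOrd E π (HahnSeries.C (E.φ r)) e := by
  obtain ⟨k, u, rfl⟩ := IsDiscreteValuationRing.eq_unit_mul_pow_irreducible hr hπ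
  refine ⟨k, PowerSeries.C (u : O), 1, fun h => ?_,
    fun h => (C_pi_prime hπ).not_isUnit (isUnit_of_dvd_one h), ?_⟩
  · exact (C_pi_prime hπ).not_isUnit (isUnit_of_dvd_unit h (u.isUnit.map PowerSeries.C))
  · rw [map_one, mul_one, gO_C, map_mul, map_pow, map_mul, map_pow, zpow_natCast, mul_comm]

theorem hasOrd_pi (hπ : Irreducible π) (k : ℕ) :
    HasOrd E π (HahnSeries.C (E.φ π ^ k)) k :=
  ⟨1, 1, fun h => (C_pi_prime hπ).not_isUnit (isUnit_of_dvd_one h),
    fun h => (C_pi_prime hπ).not_isUnit (isUnit_of_dvd_one h), by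
      rw [map_one, mul_one, mul_one, zpow_natCast, map_pow]⟩

theorem exists_hasOrd (hπ : Irreducible π) {s : LaurentSeries ℂ} (hs : s ∈ E.sFld) (hs0 : s ≠ 0) :
    ∃ e : ℤ, HasOrd E π s e := by
  obtain ⟨x, rfl⟩ := hs
  obtain ⟨a, b, hb, rfl⟩ := IsFractionRing.div_surjective (A := PowerSeries O)
    (K := Model.SeriesField O) x
  rw [map_div₀, E.toC_algebraMap, E.toC_algebraMap] at hs0 ⊢
  have ha : a ≠ 0 := fun h => hs0 (by rw [h, map_zero, zero_div])
  obtain ⟨i, a', ha', rfl⟩ := exists_gauss_form hπ ha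
  obtain ⟨j, b', hb', rfl⟩ := exists_gauss_form hπ (nonZeroDivisors.ne_zero hb)
  refine ⟨(i : ℤ) - j, a', b', ha', hb', ?_⟩
  have hbne := gO_ne_zero E hb'
  rw [zpow_sub₀ (C_phi_ne_zero E hπ), zpow_natCast, zpow_natCast, map_mul, map_mul, map_pow,
    map_pow, gO_C]
  have := C_phi_ne_zero E hπ
  field_simp

/-- Twisting by a unit of the base keeps the order. -/
theorem HasOrd.twist {s : LaurentSeries ℂ} {e : ℤ} (hs : HasOrd E π s e)
    {u : ℂˣ} {z : O} (hz : E.φ z = (u : ℂ)) (hzu : IsUnit z) :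
    HasOrd E π (Fermat.Agent.GalRep.twist u s) e := by
  obtain ⟨a, b, ha, hb, h⟩ := hs
  let tw : PowerSeries O → PowerSeries O := fun f =>
    PowerSeries.mk fun i => PowerSeries.coeff i f * z ^ i
  have htw : ∀ f, E.gO (tw f) = Fermat.Agent.GalRep.twist u (E.gO f) := fun f => by
    ext i
    rw [twist_coeff]
    simp only [Emb.gO, RingHom.comp_apply]
    by_cases hi : 0 ≤ i
    · lift i to ℕ using hi
      rw [HahnSeries.ofPowerSeries_apply_coeff, HahnSeries.ofPowerSeries_apply_coeff,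
        PowerSeries.coeff_map, PowerSeries.coeff_map, PowerSeries.coeff_mk, map_mul, map_pow,
        hz, zpow_natCast, Units.val_pow_eq_pow_val]
    · have hi' : i ∉ Set.range ((↑) : ℕ → ℤ) := fun ⟨k, hk⟩ => hi (hk ▸ Int.natCast_nonneg k)
      have h1 : ∀ f : PowerSeries ℂ, (HahnSeries.ofPowerSeries ℤ ℂ f).coeff i = 0 := fun f => by
        rw [HahnSeries.ofPowerSeries_apply]
        exact HahnSeries.embDomain_of_notMem_range hi'
      rw [h1, h1, zero_mul]
  have hnd : ∀ f, ¬ PowerSeries.C π ∣ f → ¬ PowerSeries.C π ∣ tw f := fun f hf hd => hf (by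
    rw [← pow_one (PowerSeries.C π), C_pow_dvd_series_iff] at hd ⊢
    intro i
    have := hd i
    rw [PowerSeries.coeff_mk] at this
    exact ((hzu.pow i).dvd_mul_right).mp this)
  refine ⟨tw a, tw b, hnd a ha, hnd b hb, ?_⟩
  rw [htw, htw, ← map_mul, h, map_mul, map_zpow₀]
  congr 2
  ext i
  rw [twist_coeff, HahnSeries.C_apply, HahnSeries.coeff_single]
  split_ifs with hi
  · simp [hi]
  · simp

/-- Expanding the variable keeps the order. -/
theorem HasOrd.expand {s : LaurentSeries ℂ} {e : ℤ} (hs : HasOrd E π s e) {l : ℕ} (hl : l ≠ 0) :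
    HasOrd E π (Fermat.Agent.GalRep.expand l hl s) e := by
  obtain ⟨a, b, ha, hb, h⟩ := hs
  have hnd : ∀ f, ¬ PowerSeries.C π ∣ f → ¬ PowerSeries.C π ∣ PowerSeries.expand l hl f :=
    fun f hf hd => hf (by
      rw [← pow_one (PowerSeries.C π), C_pow_dvd_series_iff] at hd ⊢
      intro i
      have := hd (l * i)
      rwa [PowerSeries.coeff_expand_mul] at this)
  have hexp : ∀ f : PowerSeries O, E.gO (PowerSeries.expand l hl f) =
      Fermat.Agent.GalRep.expand l hl (E.gO f) := fun f => by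
    simp only [Emb.gO, RingHom.comp_apply]
    rw [PowerSeries.map_expand, ← expand_ofPowerSeries]
  refine ⟨_, _, hnd a ha, hnd b hb, ?_⟩
  rw [hexp, hexp, ← map_mul, h, map_mul, map_zpow₀]
  congr 2
  ext i
  by_cases hi : (l : ℤ) ∣ i
  · obtain ⟨j, rfl⟩ := hi
    rw [expand_coeff_mul]
    rcases eq_or_ne j 0 with rfl | hj
    · simp
    · simp [hl, hj]
  · rw [expand_coeff_of_not_dvd _ _ _ _ hi]
    have : i ≠ 0 := fun h0 => hi (h0 ▸ dvd_zero _)
    simp [this]

variable [NeZero M]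

/-- A function with a power in the level field is a constant times a normalised element of it. -/
theorem exists_scaled_root {n : ℕ} (hn : 0 < n) {ψ : MF M} (hψ0 : serAlg M ψ ≠ 0)
    (hK : serAlg M ψ ^ n ∈ kSer E.K) :
    ∃ (a b : O) (k : Fld E), a ≠ 0 ∧ b ≠ 0 ∧
      HahnSeries.C (E.φ b) * serAlg M ψ ^ n = HahnSeries.C (E.φ a) * toLS E k ^ n := by
  set s := serAlg M ψ with hs
  set c := s.coeff s.order with hc
  have hc0 : c ≠ 0 := HahnSeries.coeff_order_eq_zero.not.mpr hψ0
  have hcK : c ^ n ∈ E.K := by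
    have hl : ∀ k : ℕ, (s ^ k).leadingCoeff = c ^ k := fun k => by
      induction k with
      | zero => simp
      | succ k ih => rw [pow_succ, HahnSeries.leadingCoeff_mul, ih, HahnSeries.leadingCoeff_eq,
          pow_succ]
    rw [← hl, HahnSeries.leadingCoeff_eq]
    exact mem_kSer.mp hK _
  set s' := HahnSeries.C c⁻¹ * s with hs'
  have hCne : (HahnSeries.C c⁻¹ : LaurentSeries ℂ) ≠ 0 := by simp [hc0]
  have hord : s'.order = s.order := by
    rw [hs', HahnSeries.order_mul hCne hψ0, HahnSeries.C_apply,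
      HahnSeries.order_single (inv_ne_zero hc0), zero_add]
  have hlead : s'.coeff s'.order = 1 := by
    rw [hord, hs', HahnSeries.C_mul_eq_smul, HahnSeries.coeff_smul, smul_eq_mul, ← hc,
      inv_mul_cancel₀ hc0]
  have hpow : s' ^ n ∈ kSer E.K := by
    rw [hs', mul_pow, ← map_pow, inv_pow]
    refine mul_mem (mem_kSer.mpr fun i => ?_) hK
    rw [HahnSeries.C_apply, HahnSeries.coeff_single]
    split_ifs
    · exact inv_mem hcK
    · exact zero_mem _
  have hsK : s' ∈ kSer E.K := kSer_of_pow _ hn (mul_ne_zero hCne hψ0) hlead hpow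
  let ψ' : MF M := algebraMap ℂ (MF M) c⁻¹ * ψ
  have hψ' : serAlg M ψ' = s' := by
    rw [map_mul, AlgHom.commutes, hs', HahnSeries.algebraMap_apply']
    simp [hs]
  obtain ⟨a, b, hb, hab⟩ := exists_frac_of_mem E hcK
  have ha : a ≠ 0 := fun h0 => pow_ne_zero n hc0 (by rw [hab, h0, map_zero, zero_div])
  have hbne : E.φ b ≠ 0 := fun h0 => hb (E.inj (h0.trans (map_zero _).symm))
  refine ⟨a, b, ofMF E ψ' (hψ' ▸ hsK), ha, hb, ?_⟩
  have hk : toLS E (ofMF E ψ' (hψ' ▸ hsK)) = s' := by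
    show toLS E (toFld E _) = _
    rw [toLS_toFld]
    exact hψ'
  rw [hk, hs', mul_pow, ← map_pow HahnSeries.C, ← mul_assoc, ← map_mul HahnSeries.C, inv_pow, hab]
  congr 2
  have hane : E.φ a ≠ 0 := fun h0 => ha (E.inj (h0.trans (map_zero _).symm))
  field_simp

end Fermat.Agent.NewVec
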