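/-
Primes of charts and of polynomial rings over the base; roots at primes of height one and at
regular points; transfer of roots between the two charts.
-/
import Fermat.Agent.Models.Field.ChartLemmas
import Fermat.Agent.Models.CoreExtend
import Fermat.Agent.Models.DetectDefs
import Mathlib.RingTheory.Ideal.KrullsHeightTheorem
import Mathlib.RingTheory.Localization.Integral
import Mathlib.RingTheory.DedekindDomain.Dvr

set_option autoImplicit false
set_option linter.style.haveILetI false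
set_option linter.unusedSectionVars false

noncomputable section

namespace Fermat.Agent.NewVec

open Polynomial IsLocalRing
open Fermat.Agent.Models (HasRootAt)
open Fermat.Agent.GalRep.Model (chartRing mem_chartRing_iff FixedRational)
open Fermat.Agent.ModField (polyHom coe_polyHom polyHom_isIntegral chartRing_closed)

/-! ## Primes of polynomials avoiding the uniformiser -/

section Poly

variable {O : Type} [CommRing O] [IsDomain O] [IsDiscreteValuationRing O] {π : O}

theorem disjoint_constants (hπ : Irreducible π) {P : Ideal O[X]} [P.IsPrime] (hP : C π ∉ P) :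
    Disjoint ((nonZeroDivisors O).map (C : O →+* O[X]) : Set O[X]) (P : Set O[X]) := by
  refine Set.disjoint_left.mpr ?_
  rintro _ ⟨a, ha, rfl⟩ haP
  obtain ⟨k, u, rfl⟩ :=
    IsDiscreteValuationRing.eq_unit_mul_pow_irreducible (nonZeroDivisors.ne_zero ha) hπ
  rw [map_mul, map_pow] at haP
  rcases Ideal.IsPrime.mem_or_mem ‹_› haP with h | h
  · exact Ideal.IsPrime.ne_top ‹_› (Ideal.eq_top_of_isUnit_mem _ h (u.isUnit.map C))
  · exact hP (Ideal.IsPrime.mem_of_pow_mem ‹_› _ h)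

attribute [local instance] Polynomial.algebra Polynomial.isLocalization

/-- A prime avoiding the uniformiser spans a maximal ideal over the field of fractions. -/
theorem isMaximal_map (hπ : Irreducible π) {P : Ideal O[X]} [P.IsPrime] (hP : C π ∉ P)
    (hP0 : P ≠ ⊥) :
    (P.map (algebraMap O[X] (FractionRing O)[X])).IsMaximal := by
  haveI : IsLocalization ((nonZeroDivisors O).map (C : O →+* O[X])) (FractionRing O)[X] :=
    Polynomial.isLocalization (nonZeroDivisors O) (FractionRing O)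
  have hp : (P.map (algebraMap O[X] (FractionRing O)[X])).IsPrime :=
    IsLocalization.isPrime_of_isPrime_disjoint _ _ P ‹_› (disjoint_constants hπ hP)
  refine IsPrime.to_maximal_ideal (hpi := hp) fun h0 => hP0 ?_
  have h := IsLocalization.comap_map_of_isPrime_disjoint
    ((nonZeroDivisors O).map (C : O →+* O[X])) (FractionRing O)[X] ‹P.IsPrime›
    (disjoint_constants hπ hP)
  rw [h0] at h
  rw [← h]
  exact Ideal.comap_bot_of_injective _
    (Polynomial.map_injective _ (IsFractionRing.injective O (FractionRing O)))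

/-- Primes avoiding the uniformiser have height one. -/
theorem eq_of_le_prime (hπ : Irreducible π) {P P' : Ideal O[X]} [P.IsPrime] [P'.IsPrime]
    (hP : C π ∉ P) (hP'0 : P' ≠ ⊥) (hle : P' ≤ P) : P' = P := by
  haveI : IsLocalization ((nonZeroDivisors O).map (C : O →+* O[X])) (FractionRing O)[X] :=
    Polynomial.isLocalization (nonZeroDivisors O) (FractionRing O)
  have hP' : C π ∉ P' := fun h => hP (hle h)
  have hP0 : P ≠ ⊥ := fun h => hP'0 (le_bot_iff.mp (h ▸ hle))
  have hm := isMaximal_map hπ hP' hP'0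
  have e := hm.eq_of_le (isMaximal_map hπ hP hP0).ne_top (Ideal.map_mono hle)
  have h1 := IsLocalization.comap_map_of_isPrime_disjoint
    ((nonZeroDivisors O).map (C : O →+* O[X])) (FractionRing O)[X] ‹P'.IsPrime›
    (disjoint_constants hπ hP')
  have h2 := IsLocalization.comap_map_of_isPrime_disjoint
    ((nonZeroDivisors O).map (C : O →+* O[X])) (FractionRing O)[X] ‹P.IsPrime›
    (disjoint_constants hπ hP)
  rw [e] at h1
  exact h1.symm.trans h2

/-- A prime avoiding the uniformiser consists of the polynomials vanishing at a point, and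
contains one with a simple zero there. -/
theorem exists_point (hπ : Irreducible π) (φ : O →+* ℂ) (hφ : Function.Injective φ)
    {P : Ideal O[X]} [P.IsPrime] (hP : C π ∉ P) (hP0 : P ≠ ⊥) :
    ∃ c : ℂ, (∀ a : O[X], a ∈ P ↔ (a.map φ).eval c = 0) ∧
      ∃ r ∈ P, (derivative (r.map φ)).eval c ≠ 0 := by
  classical
  haveI : CharZero O := φ.charZero_iff hφ |>.mpr inferInstance
  have hm := isMaximal_map hπ hP hP0
  let I := P.map (algebraMap O[X] (FractionRing O)[X])
  obtain ⟨r₀, hr₀⟩ : ∃ r₀, I = Ideal.span {r₀} :=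
    ⟨_, (Submodule.IsPrincipal.span_singleton_generator I).symm⟩
  obtain ⟨ψ, hψ0⟩ : ∃ ψ : FractionRing O →+* ℂ, ∀ x, ψ (algebraMap O (FractionRing O) x) = φ x :=
    ⟨IsFractionRing.lift (A := O) (K := FractionRing O) (L := ℂ) (g := φ) hφ,
      IsFractionRing.lift_algebraMap (A := O) (K := FractionRing O) (g := φ) hφ⟩
  have hdeg : r₀.degree ≠ 0 := fun h => hm.ne_top (by
    show I = ⊤
    rw [hr₀, Ideal.span_singleton_eq_top, Polynomial.isUnit_iff_degree_eq_zero]
    exact h)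
  obtain ⟨c, hc⟩ : ∃ c, (r₀.map ψ).eval c = 0 :=
    IsAlgClosed.exists_root (r₀.map ψ) (by rwa [Polynomial.degree_map])
  have hψ : ∀ a : O[X], (algebraMap O[X] (FractionRing O)[X] a).map ψ = a.map φ := fun a => by
    show (a.map (algebraMap O (FractionRing O))).map ψ = _
    rw [Polynomial.map_map]
    congr 1
    exact RingHom.ext fun x => hψ0 x
  have hsub : ∀ a ∈ P, (a.map φ).eval c = 0 := fun a ha => by
    have h1 : algebraMap O[X] (FractionRing O)[X] a ∈ I := Ideal.mem_map_of_mem _ ha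
    rw [hr₀, Ideal.mem_span_singleton] at h1
    obtain ⟨s, hs⟩ := h1
    rw [← hψ, hs, Polynomial.map_mul, eval_mul, hc, zero_mul]
  let K := RingHom.ker ((evalRingHom c).comp (mapRingHom φ))
  have hK : C π ∉ K := fun h => hπ.ne_zero (hφ (by
    simpa [K, RingHom.mem_ker] using h))
  haveI : K.IsPrime := RingHom.ker_isPrime _
  have hPK : P = K := eq_of_le_prime hπ hK hP0 fun a ha => by
    simpa [K, RingHom.mem_ker] using hsub a ha
  have hiff : ∀ a : O[X], a ∈ P ↔ (a.map φ).eval c = 0 := fun a => by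
    conv_lhs => rw [hPK]
    simp [K, RingHom.mem_ker]
  refine ⟨c, hiff, ?_⟩
  obtain ⟨a, haP, ha0⟩ := Submodule.exists_mem_ne_zero_of_ne_bot hP0
  have hex : ∃ d, ∃ r ∈ P, r ≠ 0 ∧ r.natDegree = d := ⟨_, a, haP, ha0, rfl⟩
  obtain ⟨r, hrP, hr0, hrd⟩ := Nat.find_spec hex
  refine ⟨r, hrP, fun h => ?_⟩
  rw [derivative_map] at h
  have hd : derivative r ∈ P := (hiff _).mpr h
  have hpos : r.natDegree ≠ 0 := fun h0 => by
    rw [eq_C_of_natDegree_eq_zero h0] at hrP hr0
    exact Set.disjoint_left.mp (disjoint_constants hπ hP)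
      ⟨r.coeff 0, mem_nonZeroDivisors_of_ne_zero (fun e => hr0 (by rw [e, map_zero])), rfl⟩ hrP
  have hd0 : derivative r ≠ 0 := fun e =>
    hpos (natDegree_eq_zero_of_derivative_eq_zero e)
  have := Nat.find_min' hex ⟨derivative r, hd, hd0, rfl⟩
  have hlt := natDegree_derivative_lt hpos
  omega

end Poly

/-! ## Roots at primes of height one -/

section Dvr

variable {R F : Type} [CommRing R] [IsDomain R] [IsNoetherianRing R] [IsIntegrallyClosed R]
  [Field F] [Algebra R F] [IsFractionRing R F]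

/-- Elements are units times powers of one element near a prime of height one. -/
theorem exists_uniformizer (Q : Ideal R) [Q.IsPrime] (hQ0 : Q ≠ ⊥)
    (hmin : ∀ P : Ideal R, P.IsPrime → P ≤ Q → P = ⊥ ∨ P = Q) :
    ∃ ϖ : R, ϖ ≠ 0 ∧ ∀ r : R, r ≠ 0 →
      ∃ (k : ℕ) (a b : R), a ∉ Q ∧ b ∉ Q ∧ b * r = a * ϖ ^ k := by
  classical
  let L := Localization.AtPrime Q
  haveI : IsNoetherianRing L := IsLocalization.isNoetherianRing Q.primeCompl L inferInstance
  haveI : IsIntegrallyClosed L :=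
    isIntegrallyClosed_of_isLocalization L Q.primeCompl Q.primeCompl_le_nonZeroDivisors
  have hinjL : Function.Injective (algebraMap R L) :=
    IsLocalization.injective L Q.primeCompl_le_nonZeroDivisors
  have huniq : ∀ P : Ideal L, P ≠ ⊥ → P.IsPrime → P = maximalIdeal L := fun P hP0 hP => by
    have hback : (P.comap (algebraMap R L)).map (algebraMap R L) = P :=
      IsLocalization.map_comap Q.primeCompl L P
    have hle : P.comap (algebraMap R L) ≤ Q := fun r hr => by
      by_contra hrQ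
      exact hP.ne_top (Ideal.eq_top_of_isUnit_mem _ hr
        (IsLocalization.map_units L (⟨r, hrQ⟩ : Q.primeCompl)))
    rcases hmin _ (hP.comap _) hle with h | h
    · exact absurd (by rw [← hback, h, Ideal.map_bot]) hP0
    · rw [← hback, h]
      exact Localization.AtPrime.map_eq_maximalIdeal
  haveI : IsPrincipalIdealRing L := by
    have h := (tfae_of_isNoetherianRing_of_isLocalRing_of_isDomain L).out 0 3
    rw [h]
    exact ⟨inferInstance, huniq⟩
  have hne : maximalIdeal L ≠ ⊥ := by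
    rw [← Localization.AtPrime.map_eq_maximalIdeal]
    exact fun h => hQ0 ((Ideal.map_eq_bot_iff_of_injective hinjL).mp h)
  haveI : IsDiscreteValuationRing L := { not_a_field' := hne }
  obtain ⟨p, hp⟩ := IsDiscreteValuationRing.exists_irreducible L
  obtain ⟨ϖ, s, rfl⟩ := IsLocalization.exists_mk'_eq Q.primeCompl p
  have hϖ0 : ϖ ≠ 0 := fun h => hp.ne_zero (by rw [h, IsLocalization.mk'_zero])
  refine ⟨ϖ, hϖ0, fun r hr => ?_⟩
  obtain ⟨k, u, hu⟩ := IsDiscreteValuationRing.eq_unit_mul_pow_irreducible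
    ((map_ne_zero_iff _ hinjL).mpr hr) hp
  obtain ⟨a, t, hat⟩ := IsLocalization.exists_mk'_eq Q.primeCompl (u : L)
  have haQ : a ∉ Q := fun ha => by
    have : IsLocalization.mk' L a t ∈ maximalIdeal L := by
      rw [← Localization.AtPrime.map_eq_maximalIdeal,
        IsLocalization.mk'_mem_map_algebraMap_iff Q.primeCompl]
      exact ⟨1, one_mem _, by rwa [one_mul]⟩
    rw [hat] at this
    exact (maximalIdeal.isMaximal L).ne_top (Ideal.eq_top_of_isUnit_mem _ this u.isUnit)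
  refine ⟨k, a, (t : R) * (s : R) ^ k, haQ, fun h => ?_, hinjL ?_⟩
  · rcases Ideal.IsPrime.mem_or_mem ‹_› h with h | h
    · exact t.2 h
    · exact s.2 (Ideal.IsPrime.mem_of_pow_mem ‹_› _ h)
  · rw [map_mul, map_mul, map_mul, map_pow, map_pow, hu, ← hat,
      ← IsLocalization.mk'_spec L ϖ s, ← IsLocalization.mk'_spec L a t]
    ring

/-- Divisibility of the order gives a root. -/
theorem hasRootAt_of_ord (Q : Ideal R) [Q.IsPrime] (hQ0 : Q ≠ ⊥)
    (hmin : ∀ P : Ideal R, P.IsPrime → P ≤ Q → P = ⊥ ∨ P = Q) (o : F → ℤ)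
    (hmul : ∀ x y : F, x ≠ 0 → y ≠ 0 → o (x * y) = o x + o y)
    (hnn : ∀ r : R, r ≠ 0 → 0 ≤ o (algebraMap R F r))
    (hmem : ∀ r : R, r ≠ 0 → (r ∈ Q ↔ 0 < o (algebraMap R F r)))
    {E : ℕ} (t : R) (ht : t ≠ 0) (htE : o (algebraMap R F t) = E) {n : ℕ} {x : F} (hx : x ≠ 0)
    (hdvd : (n : ℤ) ∣ o x) : HasRootAt R n (x ^ E) Q := by
  obtain ⟨ϖ, hϖ, hunif⟩ := exists_uniformizer Q hQ0 hmin
  set al := algebraMap R F with hal
  have hne : ∀ {r : R}, r ≠ 0 → al r ≠ 0 := fun hr =>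
    (map_ne_zero_iff _ (IsFractionRing.injective R F)).mpr hr
  have hne' : ∀ {r : R}, r ∉ Q → al r ≠ 0 := fun hr => hne fun h => hr (h ▸ Q.zero_mem)
  have hunit : ∀ {a : R}, a ∉ Q → o (al a) = 0 := fun {a} ha => by
    have ha0 : a ≠ 0 := fun h => ha (h ▸ Q.zero_mem)
    have h1 := hnn a ha0
    have h2 : ¬ 0 < o (al a) := fun h => ha ((hmem a ha0).mpr h)
    omega
  have ho1 : o 1 = 0 := by
    have := hmul 1 1 one_ne_zero one_ne_zero
    rw [mul_one] at this
    omega
  have hpow : ∀ {y : F}, y ≠ 0 → ∀ k : ℕ, o (y ^ k) = k * o y := fun {y} hy k => by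
    induction k with
    | zero => simp [ho1]
    | succ k ih => rw [pow_succ, hmul _ _ (pow_ne_zero _ hy) hy, ih]; push_cast; ring
  have hord : ∀ {r : R}, r ≠ 0 → ∀ {k : ℕ} {a b : R}, a ∉ Q → b ∉ Q → b * r = a * ϖ ^ k →
      o (al r) = k * o (al ϖ) := fun {r} hr {k a b} ha hb he => by
    have h := congrArg (fun z => o (al z)) he
    simp only [map_mul, map_pow] at h
    rw [hmul _ _ (hne' hb) (hne hr), hmul _ _ (hne' ha) (pow_ne_zero _ (hne hϖ)), hunit ha, hunit hb,
      hpow (hne hϖ), zero_add, zero_add] at h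
    exact h
  obtain ⟨r, s, hs, rfl⟩ := IsFractionRing.div_surjective (A := R) (K := F) x
  have hs0 : s ≠ 0 := nonZeroDivisors.ne_zero hs
  have hr0 : r ≠ 0 := fun h => hx (by rw [h, map_zero, zero_div])
  obtain ⟨k, a, b, ha, hb, hab⟩ := hunif r hr0
  obtain ⟨l, c, d, hc, hd, hcd⟩ := hunif s hs0
  obtain ⟨m, a₁, b₁, ha₁, hb₁, htab⟩ := hunif t ht
  have ek := hord hr0 ha hb hab
  have el := hord hs0 hc hd hcd
  have em := hord ht ha₁ hb₁ htab
  have hos : o (al r / al s) = o (al r) - o (al s) := by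
    have := hmul (al r / al s) (al s) (div_ne_zero (hne hr0) (hne hs0)) (hne hs0)
    rw [div_mul_cancel₀ _ (hne hs0)] at this
    omega
  rw [htE] at em
  have hdiv : (n : ℤ) ∣ ((k : ℤ) - l) * E := by
    have e : ((k : ℤ) - l) * E = m * o (al r / al s) := by
      rw [hos, ek, el, em]; ring
    rw [e]
    exact hdvd.mul_left _
  obtain ⟨i, hi⟩ := hdiv
  refine ⟨al ϖ ^ i, (b * c) ^ E, (a * d) ^ E,
    fun h => (Ideal.IsPrime.mem_or_mem ‹_› (Ideal.IsPrime.mem_of_pow_mem ‹_› _ h)).elim hb hc,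
    fun h => (Ideal.IsPrime.mem_or_mem ‹_› (Ideal.IsPrime.mem_of_pow_mem ‹_› _ h)).elim ha hd, ?_⟩
  show al ((a * d) ^ E) * (al ϖ ^ i) ^ n = al ((b * c) ^ E) * (al r / al s) ^ E
  rw [← zpow_natCast (al ϖ ^ i) n, ← zpow_mul, mul_comm i, ← hi, map_pow, map_pow, zpow_mul,
    zpow_natCast, ← mul_pow, ← mul_pow]
  congr 1
  have e1 : al b * al r = al a * al ϖ ^ k := by rw [← map_mul, hab, map_mul, map_pow]
  have e2 : al d * al s = al c * al ϖ ^ l := by rw [← map_mul, hcd, map_mul, map_pow]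
  have hϖl : al ϖ ^ l ≠ 0 := pow_ne_zero _ (hne hϖ)
  rw [zpow_sub₀ (hne hϖ), zpow_natCast, zpow_natCast, map_mul, map_mul, mul_div_assoc',
    mul_div_assoc', div_eq_div_iff hϖl (hne hs0)]
  linear_combination (al a * al ϖ ^ k) * e2 - (al c * al ϖ ^ l) * e1

end Dvr

/-! ## Regular points -/

section Regular

variable {R F : Type} [CommRing R] [IsDomain R] [IsNoetherianRing R] [Field F] [Algebra R F]
  [IsFractionRing R F]

/-- At a regular point above a curve, roots along all curves give a root. -/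
theorem hasRootAt_of_regular {n : ℕ} (hn : 0 < n) (m : Ideal R) [m.IsPrime]
    (hbelow : ∃ Q : Ideal R, Q.IsPrime ∧ Q ≠ ⊥ ∧ Q < m)
    (hgen : ∃ x y : R, x ∈ m ∧ y ∈ m ∧ ∀ z ∈ m, ∃ s ∉ m, s * z ∈ Ideal.span {x, y})
    {f : F} (hf : f ≠ 0)
    (hroots : ∀ Q : Ideal R, Q.IsPrime → Q ≠ ⊥ → Q ≤ m → Q ≠ m → HasRootAt R n f Q) :
    HasRootAt R n f m := by
  obtain ⟨Q₀, hQ₀, hQ₀0, hQ₀m⟩ := hbelow
  obtain ⟨x, y, hx, hy, hxy⟩ := hgen
  wlog hx0 : x ≠ 0 generalizing x y with H
  · by_cases hy0 : y = 0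
    · exfalso
      refine hQ₀0 (le_bot_iff.mp fun z hz => ?_)
      obtain ⟨s, hs, hsz⟩ := hxy z (hQ₀m.le hz)
      rw [not_not.mp hx0, hy0] at hsz
      simp only [Set.insert_eq_of_mem, Set.mem_singleton_iff, Ideal.span_singleton_eq_bot.mpr rfl,
        Ideal.mem_bot, mul_eq_zero] at hsz
      exact Ideal.mem_bot.mpr (hsz.resolve_left fun h => hs (h ▸ m.zero_mem))
    · refine H y x hy hx (fun z hz => ?_) hy0
      obtain ⟨s, hs, hsz⟩ := hxy z hz
      exact ⟨s, hs, by rwa [Set.pair_comm]⟩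
  obtain ⟨P, hP, hPm⟩ := Ideal.exists_minimalPrimes_le
    ((Ideal.span_singleton_le_iff_mem (I := m)).mpr hx)
  haveI := hP.1.1
  have hxP : x ∈ P := hP.1.2 (Ideal.mem_span_singleton_self x)
  have hP1 := Ideal.height_le_one_of_isPrincipal_of_mem_minimalPrimes (Ideal.span {x}) P hP
  have hyP : y ∉ P := by
    intro hyP
    have hmP : m ≤ P := fun z hz => by
      obtain ⟨s, hs, hsz⟩ := hxy z hz
      have : Ideal.span {x, y} ≤ P := Ideal.span_le.mpr (by
        rintro _ (rfl | rfl) <;> assumption)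
      exact (Ideal.IsPrime.mem_or_mem ‹_› (this hsz)).resolve_left fun h => hs (hPm h)
    have e : m = P := le_antisymm hmP hPm
    haveI := hQ₀
    have h1 := Ideal.height_add_one_le_of_lt_of_isPrime hQ₀m
    have h2 := Ideal.height_add_one_le_of_lt_of_isPrime (bot_lt_iff_ne_bot.mpr hQ₀0 : ⊥ < Q₀)
    rw [Ideal.height_bot, zero_add] at h2
    rw [← e] at hP1
    have : (1 : ℕ∞) + 1 ≤ 1 := ((add_le_add h2 le_rfl).trans h1).trans hP1
    exact absurd this (by decide)
  exact Models.hasRootAt_regular hn m hx hy hxy hx0 P hPm hxP hyP hf hroots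

end Regular

/-! ## The charts -/

section Chart

variable {O F : Type} [CommRing O] [IsDomain O] [IsDiscreteValuationRing O] [Field F] [Algebra O F]
  {G : Type} [Group G] [Finite G] [MulSemiringAction G F] [FaithfulSMul G F] [SMulCommClass G O F]
  {w : F}

/-- A chart has the ambient field as its field of fractions. -/
theorem isFractionRing_chart (htr : Function.Injective (aeval (R := O) w))
    (hfix : FixedRational O G w) : IsFractionRing (chartRing O w) F := by
  classical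
  haveI : FaithfulSMul (chartRing O w) F :=
    (faithfulSMul_iff_algebraMap_injective _ _).mpr Subtype.val_injective
  refine IsFractionRing.of_field _ _ fun x => ?_
  let n := Nat.card G + 1
  obtain ⟨P, hP, hsum⟩ := GalRep.Model.exists_dependence hfix (ι := Fin n) (by simp [n])
    fun i => x ^ (i : ℕ)
  have halg : IsAlgebraic (chartRing O w) x := by
    refine ⟨∑ i : Fin n, C (polyHom w (P i)) * X ^ (i : ℕ), fun h0 => ?_, ?_⟩
    · refine hP (funext fun i => htr ?_)
      have := congrArg (fun R : (chartRing O w)[X] => R.coeff (i : ℕ)) h0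
      simp only [finsetSum_coeff, coeff_C_mul_X_pow, coeff_zero, Fin.val_inj,
        Finset.sum_ite_eq, Finset.mem_univ, if_true] at this
      rw [Pi.zero_apply, map_zero, ← coe_polyHom, this, ZeroMemClass.coe_zero]
    · simp only [map_sum, map_mul, aeval_C, aeval_X_pow]
      rw [← hsum]
      exact Finset.sum_congr rfl fun i _ => congrArg (· * _) (coe_polyHom w _)
  obtain ⟨y, hy0, hy⟩ := halg.exists_integral_multiple
  have hyx : (y : F) * x ∈ chartRing O w := chartRing_closed w (by simpa [Algebra.smul_def] using hy)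
  refine ⟨⟨_, hyx⟩, y, ?_⟩
  show x = (y : F) * x / (y : F)
  rw [mul_div_cancel_left₀ _ fun h => hy0 (Subtype.ext h)]

theorem comap_ne_bot {Q : Ideal (chartRing O w)} (hQ0 : Q ≠ ⊥) : Q.comap (polyHom w) ≠ ⊥ := by
  letI : Algebra O[X] (chartRing O w) := (polyHom w).toAlgebra
  haveI : Algebra.IsIntegral O[X] (chartRing O w) := ⟨polyHom_isIntegral w⟩
  exact fun h => hQ0 (Ideal.eq_bot_of_comap_eq_bot h)

theorem C_pi_notMem {π : O} {Q : Ideal (chartRing O w)} (hQ : algebraMap O (chartRing O w) π ∉ Q) :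
    C π ∉ Q.comap (polyHom w) := fun h => hQ (ModField.polyHom_C w π ▸ Ideal.mem_comap.mp h)

theorem min_of_comap {Q : Ideal (chartRing O w)} [Q.IsPrime]
    (hmax : ∀ P : Ideal O[X], P.IsPrime → P ≠ ⊥ → P ≤ Q.comap (polyHom w) →
      P = Q.comap (polyHom w))
    (P : Ideal (chartRing O w)) (hP : P.IsPrime) (hle : P ≤ Q) : P = ⊥ ∨ P = Q := by
  rw [or_iff_not_imp_left]
  intro hP0
  refine le_antisymm hle fun x hx => ?_
  by_contra hxP
  letI : Algebra O[X] (chartRing O w) := (polyHom w).toAlgebra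
  haveI : Algebra.IsIntegral O[X] (chartRing O w) := ⟨polyHom_isIntegral w⟩
  have hlt : P.comap (polyHom w) < Q.comap (polyHom w) :=
    Ideal.comap_lt_comap_of_integral_mem_sdiff hle ⟨hx, hxP⟩ (Algebra.IsIntegral.isIntegral x)
  exact hlt.ne (hmax _ (hP.comap _) (comap_ne_bot hP0) hlt.le)

end Chart

/-! ## Transfer between charts -/

section Transfer

variable {O F : Type} [CommRing O] [Field F] [Algebra O F] (M : Models.Model O F)

/-- Roots on the first chart give roots on the second away from its coordinate. -/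
theorem hasRootAt_transfer {n : ℕ} {f : F}
    (hroots : ∀ Q : Ideal M.B₀, Q.IsPrime → Q ≠ ⊥ → HasRootAt M.B₀ n f Q)
    (Q : Ideal M.B₁) [Q.IsPrime] (hQ0 : Q ≠ ⊥)
    (hw : (⟨M.w⁻¹, M.w_inv_mem⟩ : M.B₁) ∉ Q) : HasRootAt M.B₁ n f Q := by
  let u : M.B₁ := ⟨M.w⁻¹, M.w_inv_mem⟩
  let S : F → Prop := fun x =>
    ∀ (E : ℕ) (h : M.w⁻¹ ^ E * x ∈ M.B₁), (⟨_, h⟩ : M.B₁) ∈ Q
  have hshift : ∀ {x : F} {E E' : ℕ} (h : M.w⁻¹ ^ E * x ∈ M.B₁) (h' : M.w⁻¹ ^ E' * x ∈ M.B₁),
      (⟨_, h⟩ : M.B₁) ∈ Q → (⟨_, h'⟩ : M.B₁) ∈ Q := fun {x E E'} h h' hQ => by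
    have e : u ^ E * (⟨_, h'⟩ : M.B₁) = u ^ E' * (⟨_, h⟩ : M.B₁) :=
      Subtype.ext (show M.w⁻¹ ^ E * (M.w⁻¹ ^ E' * x) = M.w⁻¹ ^ E' * (M.w⁻¹ ^ E * x) by ring)
    exact (Ideal.IsPrime.mem_or_mem ‹_› (e ▸ Q.mul_mem_left _ hQ)).resolve_left fun hu =>
      hw (Ideal.IsPrime.mem_of_pow_mem ‹_› _ hu)
  have hex : ∀ x : M.B₀, ∃ E, M.w⁻¹ ^ E * (x : F) ∈ M.B₁ := fun x => M.loc₁ _ (M.le₀ x.2)
  let Q₀ : Ideal M.B₀ :=
    { carrier := {x | S x}
      zero_mem' := fun E h => by
        rw [show (⟨_, h⟩ : M.B₁) = 0 from Subtype.ext (by simp)]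
        exact Q.zero_mem
      add_mem' := fun {x y} hx hy E h => by
        obtain ⟨i, hi⟩ := hex x
        obtain ⟨j, hj⟩ := hex y
        have hi' : M.w⁻¹ ^ (E + i + j) * (x : F) ∈ M.B₁ := by
          rw [show M.w⁻¹ ^ (E + i + j) * (x : F) = M.w⁻¹ ^ (E + j) * (M.w⁻¹ ^ i * (x : F)) by ring]
          exact mul_mem (pow_mem M.w_inv_mem _) hi
        have hj' : M.w⁻¹ ^ (E + i + j) * (y : F) ∈ M.B₁ := by
          rw [show M.w⁻¹ ^ (E + i + j) * (y : F) = M.w⁻¹ ^ (E + i) * (M.w⁻¹ ^ j * (y : F)) by ring]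
          exact mul_mem (pow_mem M.w_inv_mem _) hj
        have hs : M.w⁻¹ ^ (E + i + j) * ((x + y : M.B₀) : F) ∈ M.B₁ := by
          rw [AddMemClass.coe_add, mul_add]
          exact add_mem hi' hj'
        refine hshift hs h ?_
        rw [show (⟨_, hs⟩ : M.B₁) = ⟨_, hi'⟩ + ⟨_, hj'⟩ from Subtype.ext (mul_add _ _ _)]
        exact Q.add_mem (hx _ hi') (hy _ hj')
      smul_mem' := fun c x hx E h => by
        obtain ⟨i, hi⟩ := hex c
        obtain ⟨j, hj⟩ := hex x
        have hs : M.w⁻¹ ^ (i + j) * ((c • x : M.B₀) : F) ∈ M.B₁ := by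
          rw [smul_eq_mul, MulMemClass.coe_mul, pow_add, mul_mul_mul_comm]
          exact mul_mem hi hj
        refine hshift hs h ?_
        rw [show (⟨_, hs⟩ : M.B₁) = ⟨_, hi⟩ * ⟨_, hj⟩ from Subtype.ext (by
          simp only [smul_eq_mul, MulMemClass.coe_mul, pow_add, mul_mul_mul_comm])]
        exact Q.mul_mem_left _ (hx j hj) }
  have hQ₀ : Q₀.IsPrime := by
    refine Ideal.isPrime_iff.mpr ⟨fun h => ?_, fun {x y} hxy => ?_⟩
    · have h1 : (1 : M.B₀) ∈ Q₀ := h ▸ Submodule.mem_top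
      have hm : M.w⁻¹ ^ 0 * ((1 : M.B₀) : F) ∈ M.B₁ := by simp
      have := h1 0 hm
      rw [show (⟨_, hm⟩ : M.B₁) = 1 from Subtype.ext (by simp)] at this
      exact Ideal.IsPrime.ne_top ‹_› ((Ideal.eq_top_iff_one _).mpr this)
    · obtain ⟨i, hi⟩ := hex x
      obtain ⟨j, hj⟩ := hex y
      have hs : M.w⁻¹ ^ (i + j) * ((x * y : M.B₀) : F) ∈ M.B₁ := by
        rw [MulMemClass.coe_mul, pow_add, mul_mul_mul_comm]
        exact mul_mem hi hj
      have h1 := hxy _ hs
      rw [show (⟨_, hs⟩ : M.B₁) = ⟨_, hi⟩ * ⟨_, hj⟩ from Subtype.ext (by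
        simp only [MulMemClass.coe_mul, pow_add, mul_mul_mul_comm])] at h1
      exact (Ideal.IsPrime.mem_or_mem ‹_› h1).imp (fun h E he => hshift hi he h)
        (fun h E he => hshift hj he h)
  have hQ₀0 : Q₀ ≠ ⊥ := fun h => by
    obtain ⟨z, hzQ, hz0⟩ := Submodule.exists_mem_ne_zero_of_ne_bot hQ0
    obtain ⟨E, hE⟩ := M.loc₀ _ (M.le₁ z.2)
    have hm : M.w⁻¹ ^ E * (M.w ^ E * (z : F)) = (z : F) := by
      rw [← mul_assoc, ← mul_pow, inv_mul_cancel₀ M.w_ne, one_pow, one_mul]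
    have hzQ₀ : (⟨_, hE⟩ : M.B₀) ∈ Q₀ := fun i hi => by
      refine hshift (E := E) (by rw [hm]; exact z.2) hi ?_
      rwa [show (⟨_, _⟩ : M.B₁) = z from Subtype.ext hm]
    rw [h, Ideal.mem_bot] at hzQ₀
    exact hz0 (Subtype.ext (hm ▸ by rw [show M.w ^ E * (z : F) = 0 from congrArg Subtype.val hzQ₀]; simp))
  obtain ⟨h, a, b, ha, hb, he⟩ := hroots Q₀ hQ₀ hQ₀0
  obtain ⟨i, hi⟩ := hex a
  obtain ⟨j, hj⟩ := hex b
  have hi' : M.w⁻¹ ^ (i + j) * (a : F) ∈ M.B₁ := by
    rw [pow_add, mul_assoc, mul_left_comm]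
    exact mul_mem (pow_mem M.w_inv_mem _) hi
  have hj' : M.w⁻¹ ^ (i + j) * (b : F) ∈ M.B₁ := by
    rw [pow_add, mul_assoc]
    exact mul_mem (pow_mem M.w_inv_mem _) hj
  refine ⟨h, ⟨_, hi'⟩, ⟨_, hj'⟩, fun hm => ha fun E hE => hshift hi' hE hm,
    fun hm => hb fun E hE => hshift hj' hE hm, ?_⟩
  change (b : F) * h ^ n = (a : F) * f at he
  show M.w⁻¹ ^ (i + j) * (b : F) * h ^ n = M.w⁻¹ ^ (i + j) * (a : F) * f
  rw [mul_assoc, he, mul_assoc]

end Transfer

end Fermat.Agent.NewVec
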