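/-
Roots on the two charts of the level field: along curves through finite points, cusps and the
components of the special fibre, and at regular points.
-/
import Fermat.Agent.NewVec.Primes
import Fermat.Agent.NewVec.GaussOrd
import Fermat.Agent.GalRep.Level.Rep
import Fermat.Agent.Models.Field.Charts

set_option autoImplicit false
set_option linter.style.haveILetI false
set_option linter.unusedSectionVars false

noncomputable section

namespace Fermat.Agent.NewVec

open Polynomial IsLocalRing UpperHalfPlane CongruenceSubgroup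
open Fermat.Agent.GalRep Fermat.Agent.GalRep.Level Fermat.Agent.ModField
open Fermat.Agent.GalRep.Model (chartRing mem_chartRing_iff isIntegral_adjoin_iff self_mem_chartRing
  FixedRational C_pi_prime)
open Fermat.Agent.Models (HasRootAt)
open scoped MatrixGroups

/-! ## Power series inside Laurent series -/

theorem order_ofPowerSeries_eq {P : PowerSeries ℂ} {k : ℕ} (h : P.order = k) :
    (HahnSeries.ofPowerSeries ℤ ℂ P).order = (k : ℤ) := by
  obtain ⟨hk, hlt⟩ := PowerSeries.order_eq_nat.mp h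
  have hne : (HahnSeries.ofPowerSeries ℤ ℂ P).coeff (k : ℤ) ≠ 0 := by
    rwa [HahnSeries.ofPowerSeries_apply_coeff]
  refine le_antisymm (HahnSeries.order_le_of_coeff_ne_zero hne) ?_
  by_contra hcon
  push Not at hcon
  have h0 : HahnSeries.ofPowerSeries ℤ ℂ P ≠ 0 := fun e => hne (by rw [e]; rfl)
  have hc := HahnSeries.coeff_order_eq_zero.not.mpr h0
  by_cases hneg : (HahnSeries.ofPowerSeries ℤ ℂ P).order < 0
  · refine hc ?_
    rw [HahnSeries.ofPowerSeries_apply]
    refine HahnSeries.embDomain_of_notMem_range ?_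
    rintro ⟨i, hi⟩
    rw [← HahnSeries.ofPowerSeries_apply] at hi
    exact absurd (hi ▸ Int.natCast_nonneg i : (0 : ℤ) ≤ _) (not_le.mpr hneg)
  · obtain ⟨i, hi⟩ := Int.eq_ofNat_of_zero_le (not_lt.mp hneg)
    rw [hi, HahnSeries.ofPowerSeries_apply_coeff] at hc
    exact hc (hlt i (by omega))

theorem order_ofPowerSeries_nonneg {P : PowerSeries ℂ} (hP : P ≠ 0) :
    0 ≤ (HahnSeries.ofPowerSeries ℤ ℂ P).order ∧
      (0 < (HahnSeries.ofPowerSeries ℤ ℂ P).order ↔ PowerSeries.constantCoeff P = 0) := by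
  obtain ⟨k, hk⟩ := ENat.ne_top_iff_exists.mp (PowerSeries.order_eq_top.not.mpr hP)
  rw [order_ofPowerSeries_eq hk.symm]
  refine ⟨Int.natCast_nonneg k, ?_⟩
  obtain ⟨h1, h2⟩ := PowerSeries.order_eq_nat.mp hk.symm
  rw [← PowerSeries.coeff_zero_eq_constantCoeff_apply]
  rcases Nat.eq_zero_or_pos k with rfl | hpos
  · simpa using h1
  · simp [hpos, h2 0 hpos]

variable {O : Type} [CommRing O] [IsDomain O] [IsDiscreteValuationRing O] {M : ℕ} [NeZero M]
  (E : Emb O M) {π : O}

theorem fShift_aeval {w : Fld E} (hw : ∀ g : SL(2, ℤ), fShift E g w = w) (g : SL(2, ℤ))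
    (P : O[X]) : fShift E g (aeval w P) = aeval w P := by
  induction P using Polynomial.induction_on' with
  | add p q hp hq => rw [map_add, map_add, hp, hq]
  | monomial n a => rw [aeval_monomial, map_mul, map_pow, fShift_algebraMap, hw]

theorem smul_fixed {w : Fld E} (hw : ∀ g : SL(2, ℤ), fShift E g w = w) (σ : transG E) :
    σ • w = w := by
  obtain ⟨g, hg⟩ := (mem_transG E).mp σ.2
  rw [transG_smul_def, hg, hw]

theorem isFractionRing_fld {w : Fld E} (htr : Function.Injective (aeval (R := O) w))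
    (hfix : FixedRational O (transG E) w) : IsFractionRing (chartRing O w) (Fld E) :=
  isFractionRing_chart (G := transG E) htr hfix

theorem isIntegrallyClosed_fld {w : Fld E} (htr : Function.Injective (aeval (R := O) w))
    (hfix : FixedRational O (transG E) w) : IsIntegrallyClosed (chartRing O w) := by
  haveI := isFractionRing_fld E htr hfix
  exact (isIntegrallyClosed_iff (Fld E)).mpr fun {x} hx =>
    ⟨⟨x, chartRing_closed w hx⟩, rfl⟩

/-- Maximal ideals are not zero. -/
theorem ne_bot_of_isMaximal {w : Fld E} (m : Ideal (chartRing O w)) [m.IsMaximal]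
    (htr : Function.Injective (aeval (R := O) w)) : m ≠ ⊥ := by
  rintro rfl
  letI : Algebra O[X] (chartRing O w) := (ModField.polyHom w).toAlgebra
  haveI : Algebra.IsIntegral O[X] (chartRing O w) := ⟨ModField.polyHom_isIntegral w⟩
  have h := Ideal.isMaximal_comap_of_isIntegral_of_isMaximal (R := O[X])
    (⊥ : Ideal (chartRing O w))
  have hinj : Function.Injective (algebraMap O[X] (chartRing O w)) := fun a b e =>
    htr ((ModField.coe_polyHom w a).symm.trans ((congrArg Subtype.val e).trans (ModField.coe_polyHom w b)))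
  rw [Ideal.comap_bot_of_injective _ hinj] at h
  exact Polynomial.not_isField O (Ring.isField_iff_maximal_bot.mpr h)

/-! ## Roots along curves seen by a series -/

set_option maxHeartbeats 1000000 in
/-- A homomorphism to Laurent series, finite on the chart, sees the roots along its curves. -/
theorem hasRootAt_series (hπ : Irreducible π) {w : Fld E}
    (hw : ∀ g : SL(2, ℤ), fShift E g w = w) (htr : Function.Injective (aeval (R := O) w))
    (hfix : FixedRational O (transG E) w) [IsNoetherianRing (chartRing O w)]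
    (lam : Fld E →+* LaurentSeries ℂ)
    (hC : ∀ a, lam (algebraMap O (Fld E) a) = HahnSeries.C (E.φ a)) (W₀ : PowerSeries ℂ)
    (hW : lam w = HahnSeries.ofPowerSeries ℤ ℂ W₀) (Q : Ideal (chartRing O w)) [Q.IsPrime]
    (hQπ : algebraMap O (chartRing O w) π ∉ Q) (hQ0 : Q ≠ ⊥)
    (hcomap : ∀ a : O[X], a ∈ Q.comap (ModField.polyHom w) ↔
      (a.map E.φ).eval (PowerSeries.constantCoeff W₀) = 0)
    (R₀ : O[X]) {d : ℕ} (hd : 0 < d) (hR₀ : (lam (aeval w R₀)).order = d) {n : ℕ}
    {f : Fld E} (hf : f ≠ 0) (hdvd : ∀ g : SL(2, ℤ), (n : ℤ) ∣ (lam (fShift E g f)).order) :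
    HasRootAt (chartRing O w) n (f ^ d) Q := by
  haveI := isFractionRing_fld E htr hfix
  haveI := isIntegrallyClosed_fld E htr hfix
  let ev : O[X] →+* PowerSeries ℂ :=
    Polynomial.eval₂RingHom ((PowerSeries.C).comp E.φ) W₀
  have hev : (HahnSeries.ofPowerSeries ℤ ℂ).comp ev = lam.comp (aeval w).toRingHom := by
    refine Polynomial.ringHom_ext (fun a => ?_) ?_
    · simp [ev, hC]
    · simp [ev, hW]
  have hrange : ∀ b : chartRing O w, ∃ P, lam (b : Fld E) = HahnSeries.ofPowerSeries ℤ ℂ P := by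
    intro b
    obtain ⟨p, hp, hpb⟩ := (isIntegral_adjoin_iff w _).mp (mem_chartRing_iff.mp b.2)
    have hint : IsIntegral (PowerSeries ℂ) (lam (b : Fld E)) := by
      refine ⟨p.map ev, hp.map _, ?_⟩
      rw [Polynomial.eval₂_map]
      have h2 := congrArg lam hpb
      rw [Polynomial.hom_eval₂, map_zero] at h2
      rw [← h2]
      congr 1
    obtain ⟨P, hP⟩ := IsIntegrallyClosed.isIntegral_iff.mp hint
    exact ⟨P, hP.symm⟩
  choose pw hpw using hrange
  let lamB : chartRing O w →+* PowerSeries ℂ :=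
    { toFun := pw
      map_one' := HahnSeries.ofPowerSeries_injective (by rw [← hpw, map_one]; simp)
      map_mul' := fun x y => HahnSeries.ofPowerSeries_injective (by
        rw [← hpw, map_mul, ← hpw, ← hpw, MulMemClass.coe_mul, map_mul])
      map_zero' := HahnSeries.ofPowerSeries_injective (by rw [← hpw, map_zero]; simp)
      map_add' := fun x y => HahnSeries.ofPowerSeries_injective (by
        rw [← hpw, map_add, ← hpw, ← hpw, AddMemClass.coe_add, map_add]) }
  have hlamB : ∀ b : chartRing O w, lam (b : Fld E) = HahnSeries.ofPowerSeries ℤ ℂ (lamB b) := hpw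
  let Ql := RingHom.ker ((PowerSeries.constantCoeff : PowerSeries ℂ →+* ℂ).comp lamB)
  haveI : Ql.IsPrime := RingHom.ker_isPrime _
  have hQl : Ql.comap (ModField.polyHom w) = Q.comap (ModField.polyHom w) := by
    ext a
    rw [hcomap, Ideal.mem_comap, RingHom.mem_ker, RingHom.comp_apply]
    have e : lamB (ModField.polyHom w a) = ev a := HahnSeries.ofPowerSeries_injective (by
      rw [← hlamB, ModField.coe_polyHom]
      exact (RingHom.congr_fun hev a).symm)
    have e2 : (PowerSeries.constantCoeff : PowerSeries ℂ →+* ℂ).comp ev =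
        (evalRingHom (PowerSeries.constantCoeff W₀)).comp (mapRingHom E.φ) := by
      refine Polynomial.ringHom_ext (fun x => ?_) ?_ <;> simp [ev]
    rw [e, ← RingHom.comp_apply, e2]
    rfl
  obtain ⟨σ, hσ⟩ := exists_smul_prime (smul_fixed E hw) htr hfix Ql Q hQl
  obtain ⟨γ, hγ⟩ := (mem_transG E).mp σ.2
  let lam' : Fld E →+* LaurentSeries ℂ := lam.comp (fShift E γ).toRingHom
  have hlam' : ∀ y, lam' y = lam (fShift E γ y) := fun y => rfl
  have hsh : ∀ b : chartRing O w, fShift E γ (b : Fld E) ∈ chartRing O w := fun b => by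
    rw [← hγ, ← transG_smul_def]
    exact smul_mem_chart (smul_fixed E hw) σ b.2
  have hb : ∀ b : chartRing O w, lam' (b : Fld E) =
      HahnSeries.ofPowerSeries ℤ ℂ (lamB ⟨_, hsh b⟩) := fun b => hlamB ⟨_, hsh b⟩
  have hne : ∀ b : chartRing O w, b ≠ 0 → lamB ⟨_, hsh b⟩ ≠ 0 := fun b hb0 h0 => hb0 (by
    have h1 := hb b
    rw [h0, map_zero, map_eq_zero] at h1
    exact Subtype.ext h1)
  refine hasRootAt_of_ord Q hQ0 (min_of_comap fun P hP hP0 hle => ?_)
    (fun x => (lam' x).order) (fun x y hx hy => ?_) (fun b hb0 => ?_) (fun b hb0 => ?_)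
    (ModField.polyHom w R₀) ?_ ?_ hf (by simpa [hlam'] using hdvd γ)
  · haveI := hP
    exact eq_of_le_prime hπ (C_pi_notMem hQπ) hP0 hle
  · show (lam' (x * y)).order = _
    rw [map_mul, HahnSeries.order_mul ((map_ne_zero lam').mpr hx) ((map_ne_zero lam').mpr hy)]
  · show 0 ≤ (lam' (b : Fld E)).order
    rw [hb]
    exact (order_ofPowerSeries_nonneg (hne b hb0)).1
  · show b ∈ Q ↔ 0 < (lam' (b : Fld E)).order
    rw [hb, (order_ofPowerSeries_nonneg (hne b hb0)).2, hσ]
    simp only [Ql, RingHom.mem_ker, RingHom.comp_apply]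
    have e : (⟨σ • (b : Fld E), smul_mem_chart (smul_fixed E hw) σ b.2⟩ : chartRing O w) =
        ⟨_, hsh b⟩ := Subtype.ext ((transG_smul_def E σ _).trans (hγ _))
    rw [e]
  · intro h0
    have h1 : aeval w R₀ = 0 := (ModField.coe_polyHom w R₀).symm.trans (congrArg Subtype.val h0)
    rw [h1, map_zero, HahnSeries.order_zero] at hR₀
    omega
  · show (lam' ((ModField.polyHom w R₀ : chartRing O w) : Fld E)).order = (d : ℤ)
    rw [ModField.coe_polyHom, hlam', fShift_aeval E hw, hR₀]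

/-! ## Local coordinates at finite points -/

/-- Expansion in a coordinate at a point. -/
theorem exists_lam_point (τ : ℍ) :
    ∃ (ψ : ℂ → ℂ) (hψ : AnalyticAt ℂ ψ 0) (h0 : ψ 0 ∈ upperHalfPlaneSet)
      (lam : Fld E →+* LaurentSeries ℂ), deriv ψ 0 ≠ 0 ∧
      (∀ a, lam (algebraMap O (Fld E) a) = HahnSeries.C (E.φ a)) ∧
      lam (jF E) = HahnSeries.ofPowerSeries ℤ ℂ
        (PowerSeries.C (Period.jFun τ) + PowerSeries.X ^ eOf (Period.jFun τ)) ∧
      ∀ a : bddMF E, lam (toFld E a) =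
        HahnSeries.ofPowerSeries ℤ ℂ (localAlg M hψ h0 (a : MF M)) := by
  obtain ⟨ψ, hψ, h0, -, hd, hj⟩ := exists_jCoord M τ
  let g : bddMF E →+* LaurentSeries ℂ :=
    (HahnSeries.ofPowerSeries ℤ ℂ).comp ((localAlg M hψ h0).toRingHom.comp (bddMF E).subtype)
  have hg : Function.Injective g := fun a b h =>
    Subtype.ext (localAlg_injective hψ h0 hd (HahnSeries.ofPowerSeries_injective h))
  let lam : Fld E →+* LaurentSeries ℂ :=
    IsFractionRing.lift (A := bddMF E) (K := FractionRing (bddMF E)) hg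
  have hlam : ∀ a, lam (toFld E a) = HahnSeries.ofPowerSeries ℤ ℂ (localAlg M hψ h0 (a : MF M)) :=
    fun a => IsFractionRing.lift_algebraMap (A := bddMF E) (K := FractionRing (bddMF E)) hg a
  refine ⟨ψ, hψ, h0, lam, hd, fun a => ?_, ?_, hlam⟩
  · rw [ModField.algebraMap_eq, hlam]
    show HahnSeries.ofPowerSeries ℤ ℂ (localAlg M hψ h0 (algebraMap ℂ (MF M) (E.φ a))) = _
    rw [AlgHom.commutes, PowerSeries.algebraMap_eq, HahnSeries.ofPowerSeries_C]
  · rw [jF, hlam, hj]

/-- Orders at points and at cusps are divisible by `n`. -/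
structure OrdDvd (n : ℕ) (f : Fld E) : Prop where
  ne_zero : f ≠ 0
  finite : ∀ (ψ : ℂ → ℂ) (hψ : AnalyticAt ℂ ψ 0) (h0 : ψ 0 ∈ upperHalfPlaneSet),
    deriv ψ 0 ≠ 0 → ∀ lam : Fld E →+* LaurentSeries ℂ,
      (∀ a, lam (algebraMap O (Fld E) a) = HahnSeries.C (E.φ a)) →
      (∀ a : bddMF E, lam (toFld E a) =
        HahnSeries.ofPowerSeries ℤ ℂ (localAlg M hψ h0 (a : MF M))) →
      ∀ g : SL(2, ℤ), (n : ℤ) ∣ (lam (fShift E g f)).order
  cusp : ∀ g : SL(2, ℤ), (n : ℤ) ∣ (toLS E (fShift E g f)).order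

namespace OrdDvd

variable {E} {n : ℕ} {f : Fld E}

theorem pow (h : OrdDvd E n f) (k : ℕ) : OrdDvd E n (f ^ k) where
  ne_zero := pow_ne_zero _ h.ne_zero
  finite ψ hψ h0 hd lam hC hl g := by
    rw [map_pow, map_pow, HahnSeries.order_pow, nsmul_eq_mul]
    exact (h.finite ψ hψ h0 hd lam hC hl g).mul_left _
  cusp g := by
    rw [map_pow, map_pow, HahnSeries.order_pow, nsmul_eq_mul]
    exact (h.cusp g).mul_left _

theorem order_C_mul {c : ℂ} (hc : c ≠ 0) {s : LaurentSeries ℂ} (hs : s ≠ 0) :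
    (HahnSeries.C c * s).order = s.order := by
  rw [HahnSeries.order_mul (by simpa using hc) hs, HahnSeries.C_apply,
    HahnSeries.order_single hc, zero_add]

theorem const_mul (h : OrdDvd E n f) {c : O} (hc : c ≠ 0) :
    OrdDvd E n (algebraMap O (Fld E) c * f) := by
  have hc' : E.φ c ≠ 0 := (map_ne_zero_iff _ E.inj).mpr hc
  refine ⟨mul_ne_zero ((map_ne_zero_iff _ (algebraMap_injective E)).mpr hc) h.ne_zero,
    fun ψ hψ h0 hd lam hC hl g => ?_, fun g => ?_⟩
  · rw [map_mul, fShift_algebraMap, map_mul, hC, order_C_mul hc'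
      ((map_ne_zero lam).mpr ((map_ne_zero (fShift E g)).mpr h.ne_zero))]
    exact h.finite ψ hψ h0 hd lam hC hl g
  · rw [map_mul, fShift_algebraMap, map_mul, toLS_algebraMap, order_C_mul hc'
      ((map_ne_zero (toLS E)).mpr ((map_ne_zero (fShift E g)).mpr h.ne_zero))]
    exact h.cusp g

/-- The `n`-th power of a representative. -/
theorem of_rep {G : Subgroup SL(2, ℤ)} [NeZero n] (hG : IsLevel M G) {χ : ParG G (ZMod n)}
    {F : ℍ → ℂ} (hF : IsRepG G n χ F) (hbd : powMF hG hF ∈ bddMF E) :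
    OrdDvd E n (toFld E ⟨powMF hG hF, hbd⟩) := by
  have hne : powMF hG hF ≠ 0 := fun h => hF.ne_zero (funext fun τ =>
    pow_eq_zero_iff (NeZero.ne n) |>.mp (congrFun (congrArg Subtype.val h) τ))
  refine ⟨(map_ne_zero_iff _ (toFld_injective E)).mpr fun h => hne (congrArg Subtype.val h),
    fun ψ hψ h0 hd lam _ hl g => ?_, fun g => ?_⟩
  · rw [fShift_toFld, hl]
    have hFg : (fun τ => F (g • τ)) ≠ 0 := fun h =>
      hF.ne_zero (funext fun τ => by simpa using congrFun h (g⁻¹ • τ))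
    obtain ⟨k, hk⟩ := ENat.ne_top_iff_exists.mp
      (analyticOrderAt_modFun_ne_top (mdifferentiable_comp_smul hF.holo g) hFg h0)
    have hord : (localAlg M hψ h0 (shift M g (powMF hG hF))).order = ((n * k : ℕ) : ℕ∞) := by
      rw [order_localAlg hψ h0 hd]
      have e : ((shift M g (powMF hG hF) : MF M) : ℍ → ℂ) ∘ ofComplex =
          ((fun τ => F (g • τ)) ∘ ofComplex) ^ n := rfl
      rw [e, analyticOrderAt_pow
        (analyticAt_comp_ofComplex (mdifferentiable_comp_smul hF.holo g) ⟨_, h0⟩), ← hk]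
      simp
    rw [order_ofPowerSeries_eq hord, Nat.cast_mul]
    exact dvd_mul_right _ _
  · rw [fShift_toFld, toLS_toFld]
    obtain ⟨h, hh, -⟩ := hF.exists_series hG g
    rw [show serAlg M (shift M g (powMF hG hF)) = h ^ n from
      (hasQSeries_serHom (shift M g (powMF hG hF))).unique (NeZero.pos M) (hh.pow n),
      HahnSeries.order_pow, nsmul_eq_mul]
    exact dvd_mul_right _ _

end OrdDvd

/-- Roots along the curves through finite points. -/
theorem hasRootAt_finite (hπ : Irreducible π) {n : ℕ} {f : Fld E} (hf : OrdDvd E n f)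
    (Q : Ideal (chartRing O (jF E))) [Q.IsPrime] (hQ0 : Q ≠ ⊥)
    (hQπ : algebraMap O (chartRing O (jF E)) π ∉ Q) :
    HasRootAt (chartRing O (jF E)) n (f ^ 6) Q := by
  haveI := isNoetherianRing_B₀ E
  have hP0 : Q.comap (ModField.polyHom (jF E)) ≠ ⊥ := comap_ne_bot hQ0
  obtain ⟨c, hc, r, hrP, hr'⟩ := exists_point hπ E.φ E.inj (C_pi_notMem hQπ) hP0
  obtain ⟨τ, rfl⟩ := jFun_surjective c
  obtain ⟨ψ, hψ, h0, lam, hd, hC, hj, hl⟩ := exists_lam_point E τ
  set c := Period.jFun τ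
  set e := eOf c with he
  have he0 : e ≠ 0 := (eOf_pos c).ne'
  set W₀ : PowerSeries ℂ := PowerSeries.C c + PowerSeries.X ^ e with hW₀
  have hW0 : PowerSeries.constantCoeff W₀ = c := by simp [W₀, he0]
  obtain ⟨s, hs⟩ := Polynomial.dvd_iff_isRoot.mpr ((hc r).mp hrP : (r.map E.φ).IsRoot c)
  have hs0 : s.eval c ≠ 0 := by
    rw [hs] at hr'
    simpa [derivative_mul] using hr'
  have hord : (lam (aeval (jF E) r)).order = (e : ℤ) := by
    have h1 : lam (aeval (jF E) r) = HahnSeries.ofPowerSeries ℤ ℂ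
        (PowerSeries.X ^ e * s.eval₂ PowerSeries.C W₀) := by
      have h2 : lam.comp (aeval (jF E)).toRingHom = ((HahnSeries.ofPowerSeries ℤ ℂ).comp
          (Polynomial.eval₂RingHom PowerSeries.C W₀)).comp (mapRingHom E.φ) := by
        refine Polynomial.ringHom_ext (fun a => ?_) ?_ <;> simp [hC, hj, W₀]
      have h3 := RingHom.congr_fun h2 r
      simp only [RingHom.comp_apply, coe_mapRingHom, coe_eval₂RingHom, hs, eval₂_mul, eval₂_sub,
        eval₂_X, eval₂_C] at h3
      refine h3.trans ?_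
      rw [show W₀ - PowerSeries.C c = PowerSeries.X ^ e by simp [W₀]]
    rw [h1]
    refine order_ofPowerSeries_eq ?_
    rw [PowerSeries.order_mul, PowerSeries.order_X_pow]
    have hu : PowerSeries.constantCoeff (s.eval₂ PowerSeries.C W₀) ≠ 0 := by
      rw [Polynomial.hom_eval₂, hW0]
      simpa [show (PowerSeries.constantCoeff : PowerSeries ℂ →+* ℂ).comp PowerSeries.C = RingHom.id ℂ
        from RingHom.ext fun x => by simp] using hs0
    rw [PowerSeries.order_zero_of_unit (PowerSeries.isUnit_iff_constantCoeff.mpr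
      (isUnit_iff_ne_zero.mpr hu)), add_zero]
  have hroot := hasRootAt_series E hπ (fShift_jF E) (aeval_jF_injective E) (fixedRational_jF E) lam
    hC W₀ hj Q hQπ hQ0 (fun a => by rw [hc, hW0]) r (eOf_pos c) hord hf.ne_zero
    (hf.finite ψ hψ h0 hd lam hC hl)
  obtain ⟨i, hi⟩ : e ∣ 6 := by
    rw [he, eOf]
    split_ifs <;> norm_num
  rw [hi, pow_mul]
  exact hroot.pow i

/-- Roots along the cusps on the chart of `1 / j`. -/
theorem hasRootAt_cusp (hπ : Irreducible π) {n : ℕ} {f : Fld E} (hf : OrdDvd E n f)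
    (Q : Ideal (chartRing O (jF E)⁻¹)) [Q.IsPrime]
    (hQπ : algebraMap O (chartRing O (jF E)⁻¹) π ∉ Q)
    (hwQ : (⟨(jF E)⁻¹, self_mem_chartRing _⟩ : chartRing O (jF E)⁻¹) ∈ Q) :
    HasRootAt (chartRing O (jF E)⁻¹) n (f ^ M) Q := by
  haveI := isNoetherianRing_B₁ E
  have hfix : ∀ g : SL(2, ℤ), fShift E g (jF E)⁻¹ = (jF E)⁻¹ := fun g => by
    rw [map_inv₀, fShift_jF]
  have hQ0 : Q ≠ ⊥ := fun h => by
    rw [h, Ideal.mem_bot] at hwQ
    exact inv_ne_zero (jF_ne_zero E) (congrArg Subtype.val hwQ)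
  have hX : (X : O[X]) ∈ Q.comap (ModField.polyHom (jF E)⁻¹) := by
    have e : ModField.polyHom (jF E)⁻¹ (X : O[X]) = ⟨(jF E)⁻¹, self_mem_chartRing _⟩ :=
      Subtype.ext (by rw [ModField.coe_polyHom, aeval_X])
    rwa [Ideal.mem_comap, e]
  have hP0 : Q.comap (ModField.polyHom (jF E)⁻¹) ≠ ⊥ := fun h => X_ne_zero (Ideal.mem_bot.mp (h ▸ hX))
  obtain ⟨c, hc, -⟩ := exists_point hπ E.φ E.inj (C_pi_notMem hQπ) hP0
  obtain rfl : c = 0 := by simpa using (hc X).mp hX
  -- the series of the coordinate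
  set U : PowerSeries O := jUnit (O := O) (M := M)
  obtain ⟨u, hu⟩ := isUnit_jUnit (O := O) (M := M)
  set W₀ : PowerSeries ℂ := PowerSeries.X ^ M * PowerSeries.map E.φ ↑(u⁻¹) with hW₀
  have hW : toLS E (jF E)⁻¹ = HahnSeries.ofPowerSeries ℤ ℂ W₀ := by
    have h1 := congrArg E.toC (serF_inv_jF E)
    rw [map_mul, toC_serF, E.toC_algebraMap, E.toC_algebraMap] at h1
    simp only [Emb.gO, RingHom.comp_apply, map_pow, PowerSeries.map_X] at h1
    rw [hW₀, map_mul, map_pow, ← h1, mul_assoc, ← map_mul, ← map_mul, ← hu, ← Units.val_mul,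
      mul_inv_cancel, Units.val_one, map_one, map_one, mul_one]
  have hW0 : PowerSeries.constantCoeff W₀ = 0 := by simp [hW₀, NeZero.ne M]
  have hord : (toLS E (aeval (jF E)⁻¹ (X : O[X]))).order = (M : ℤ) := by
    rw [aeval_X, hW]
    refine order_ofPowerSeries_eq ?_
    rw [hW₀, PowerSeries.order_mul, PowerSeries.order_X_pow,
      PowerSeries.order_zero_of_unit (u⁻¹.isUnit.map _), add_zero]
  exact hasRootAt_series E hπ hfix (aeval_inv_jF_injective E) (fixedRational_inv_jF E) (toLS E)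
    (toLS_algebraMap E) W₀ hW Q hQπ hQ0 (fun a => by rw [hc, hW0]) X (NeZero.pos M) hord hf.ne_zero
    hf.cusp

/-! ## The components of the special fibre -/

theorem hasOrd_of_mem_gauss (hπ : Irreducible π) {x : Fld E} (hx : x ≠ 0)
    (hmem : serF E x ∈ gaussRing hπ) :
    ∃ i : ℕ, HasOrd E π (toLS E x) i ∧ (serF E x ∈ (gaussRing hπ).nonunits ↔ 0 < i) := by
  obtain ⟨a, b, hb, hab⟩ := (mem_gaussRing hπ).mp hmem
  have hsx : serF E x ≠ 0 := (map_ne_zero (serF E)).mpr hx
  have hb0 : b ≠ 0 := fun h => hb (h ▸ dvd_zero _)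
  have ha : a ≠ 0 := fun h => by
    rw [h, map_zero] at hab
    exact mul_ne_zero hsx
      ((map_ne_zero_iff _ (IsFractionRing.injective _ _)).mpr hb0) hab
  obtain ⟨i, a', ha', rfl⟩ := exists_gauss_form hπ ha
  refine ⟨i, ⟨a', b, ha', hb, ?_⟩, ⟨fun h => ?_, fun hi => ?_⟩⟩
  · rw [← toC_serF, ← E.toC_algebraMap, ← map_mul, hab, E.toC_algebraMap, map_mul, map_pow, gO_C,
      zpow_natCast]
  · by_contra hi
    obtain rfl : i = 0 := by omega
    obtain ⟨a₂, b₂, hb₂, ha₂, hab₂⟩ := (mem_nonunits_gaussRing hπ).mp h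
    rw [pow_zero, one_mul] at hab
    have e : a' * b₂ = a₂ * b := IsFractionRing.injective (PowerSeries O) (Model.SeriesField O) (by
      rw [map_mul, map_mul, ← hab, ← hab₂]; ring)
    exact ((C_pi_prime hπ).dvd_or_dvd (e ▸ ha₂.mul_right b)).elim ha' hb₂
  · exact (mem_nonunits_gaussRing hπ).mpr
      ⟨_, b, hb, (dvd_pow_self _ hi.ne').mul_right _, hab⟩

/-- A nonmaximal prime over the uniformiser has trace the uniformiser. -/
theorem comap_eq_span (hπ : Irreducible π) {w : Fld E} (Q : Ideal (chartRing O w)) [Q.IsPrime]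
    (hQπ : algebraMap O (chartRing O w) π ∈ Q) (hQm : ¬ Q.IsMaximal) :
    Q.comap (ModField.polyHom w) = Ideal.span {C π} := by
  letI : Algebra O[X] (chartRing O w) := (ModField.polyHom w).toAlgebra
  haveI : Algebra.IsIntegral O[X] (chartRing O w) := ⟨ModField.polyHom_isIntegral w⟩
  haveI : (Q.comap (ModField.polyHom w)).IsPrime := Ideal.IsPrime.comap _
  have hle : Ideal.span {C π} ≤ Q.comap (ModField.polyHom w) := by
    rw [Ideal.span_singleton_le_iff_mem, Ideal.mem_comap, ModField.polyHom_C]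
    exact hQπ
  by_contra hne
  exact hQm (Ideal.isMaximal_of_isIntegral_of_isMaximal_comap Q
    (isMaximal_of_C_lt hπ (lt_of_le_of_ne hle (Ne.symm hne))))

set_option maxHeartbeats 1000000 in
/-- Roots along the components. -/
theorem hasRootAt_gauss (hπ : Irreducible π) {w : Fld E}
    (hw : ∀ g : SL(2, ℤ), fShift E g w = w) (htr : Function.Injective (aeval (R := O) w))
    (hfix : FixedRational O (transG E) w) [IsNoetherianRing (chartRing O w)]
    (hle : ∀ x ∈ chartRing O w, x ∈ gaussP E hπ 1)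
    (hcentre : ∀ P : O[X], serF E (aeval w P) ∈ (gaussRing hπ).nonunits → C π ∣ P)
    (Q : Ideal (chartRing O w)) [Q.IsPrime] (hQπ : algebraMap O (chartRing O w) π ∈ Q)
    (hQm : ¬ Q.IsMaximal) {n : ℕ} {f : Fld E} (hf : f ≠ 0)
    (hdvd : ∀ (g : SL(2, ℤ)) (o : ℤ), HasOrd E π (toLS E (fShift E g f)) o → (n : ℤ) ∣ o) :
    HasRootAt (chartRing O w) n f Q := by
  classical
  haveI := isFractionRing_fld E htr hfix
  haveI := isIntegrallyClosed_fld E htr hfix
  have hQc := comap_eq_span E hπ Q hQπ hQm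
  have hπ0 : algebraMap O (Fld E) π ≠ 0 :=
    (map_ne_zero_iff _ (algebraMap_injective E)).mpr hπ.ne_zero
  have hQ0 : Q ≠ ⊥ := fun h => by
    rw [h, Ideal.mem_bot] at hQπ
    exact hπ0 (congrArg Subtype.val hQπ)
  haveI : (gaussIdeal E hπ 1 w hle).IsPrime := Ideal.IsPrime.comap _
  obtain ⟨σ, hσ⟩ := exists_smul_prime (smul_fixed E hw) htr hfix (gaussIdeal E hπ 1 w hle) Q
    (hQc.symm ▸ comap_gaussIdeal E hπ 1 w hle hw hcentre)
  obtain ⟨γ, hγ⟩ := (mem_transG E).mp σ.2
  have hsh : ∀ b : chartRing O w, fShift E γ (b : Fld E) ∈ chartRing O w := fun b => by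
    rw [← hγ, ← transG_smul_def]
    exact smul_mem_chart (smul_fixed E hw) σ b.2
  have hser : ∀ y, serAt E 1 y = serF E y := fun y => by
    show serF E (fShift E 1 y) = _
    rw [fShift_one]
  let o : Fld E → ℤ := fun x => if h : toLS E (fShift E γ x) = 0 then 0 else
    (exists_hasOrd E hπ (toLS_mem E _) h).choose
  have hne : ∀ {x : Fld E}, x ≠ 0 → toLS E (fShift E γ x) ≠ 0 := fun hx =>
    (map_ne_zero (toLS E)).mpr ((map_ne_zero (fShift E γ)).mpr hx)
  have ho : ∀ {x : Fld E}, x ≠ 0 → HasOrd E π (toLS E (fShift E γ x)) (o x) := fun {x} hx => by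
    simp only [o, dif_neg (hne hx)]
    exact (exists_hasOrd E hπ (toLS_mem E _) (hne hx)).choose_spec
  have hpos : ∀ b : chartRing O w, b ≠ 0 →
      0 ≤ o (b : Fld E) ∧ (b ∈ Q ↔ 0 < o (b : Fld E)) := fun b hb0 => by
    have hbx : (b : Fld E) ≠ 0 := fun h => hb0 (Subtype.ext h)
    have hmem : serF E (fShift E γ b) ∈ gaussRing hπ := by
      rw [← hser]; exact hle _ (hsh b)
    obtain ⟨i, hi, hiff⟩ := hasOrd_of_mem_gauss E hπ
      ((map_ne_zero (fShift E γ)).mpr hbx) hmem
    have e : o (b : Fld E) = (i : ℤ) := HasOrd.unique hπ (ho hbx) hi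
    refine ⟨by omega, ?_⟩
    rw [hσ b, mem_gaussIdeal, mem_nonunits_gaussP, hser]
    show serF E (σ • (b : Fld E)) ∈ _ ↔ _
    rw [transG_smul_def, hγ, hiff, e]
    omega
  have htπ : o (algebraMap O (Fld E) π) = ((1 : ℕ) : ℤ) := by
    refine HasOrd.unique hπ (ho hπ0) ?_
    rw [fShift_algebraMap, toLS_algebraMap]
    simpa using hasOrd_pi E hπ 1
  rw [← pow_one f]
  refine hasRootAt_of_ord Q hQ0 (min_of_comap fun P hP hP0 hPle => ?_) o
    (fun x y hx hy => ?_) (fun b hb => (hpos b hb).1) (fun b hb => (hpos b hb).2)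
    (algebraMap O (chartRing O w) π) (fun h => hπ0 (congrArg Subtype.val h)) htπ hf
    (hdvd γ _ (ho hf))
  · -- primes inside the prime of the uniformiser
    haveI := hP
    rw [hQc] at hPle ⊢
    obtain ⟨a, haP, ha0⟩ := Submodule.exists_mem_ne_zero_of_ne_bot hP0
    refine le_antisymm hPle ?_
    rw [Ideal.span_singleton_le_iff_mem]
    have hCp : Prime (C π : O[X]) := Polynomial.prime_C_iff.mpr hπ.prime
    obtain ⟨k, a', ha', rfl⟩ := WfDvdMonoid.max_power_factor ha0 hCp.irreducible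
    rcases Ideal.IsPrime.mem_or_mem hP haP with h | h
    · exact Ideal.IsPrime.mem_of_pow_mem hP _ h
    · exact absurd (Ideal.mem_span_singleton.mp (hPle h)) ha'
  · refine HasOrd.unique hπ (ho (mul_ne_zero hx hy)) ?_
    rw [map_mul, map_mul]
    exact (ho hx).mul hπ (ho hy)

/-- A maximal ideal over the uniformiser strictly contains a nonzero prime. -/
theorem exists_prime_below (hπ : Irreducible π) {w : Fld E}
    (hw : ∀ g : SL(2, ℤ), fShift E g w = w) (htr : Function.Injective (aeval (R := O) w))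
    (hfix : FixedRational O (transG E) w)
    (hle : ∀ x ∈ chartRing O w, x ∈ gaussP E hπ 1)
    (hcentre : ∀ P : O[X], serF E (aeval w P) ∈ (gaussRing hπ).nonunits → C π ∣ P)
    (m : Ideal (chartRing O w)) [m.IsMaximal] (hm : algebraMap O (chartRing O w) π ∈ m) :
    ∃ Q : Ideal (chartRing O w), Q.IsPrime ∧ Q ≠ ⊥ ∧ Q < m := by
  haveI : (gaussIdeal E hπ 1 w hle).IsPrime := Ideal.IsPrime.comap _
  have hc := comap_gaussIdeal E hπ 1 w hle hw hcentre
  letI : Algebra O[X] (chartRing O w) := (ModField.polyHom w).toAlgebra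
  haveI : Algebra.IsIntegral O[X] (chartRing O w) := ⟨ModField.polyHom_isIntegral w⟩
  have hmax : (m.comap (ModField.polyHom w)).IsMaximal :=
    Ideal.isMaximal_comap_of_isIntegral_of_isMaximal (R := O[X]) m
  have hne : Ideal.span {C π} ≠ m.comap (ModField.polyHom w) := fun h => by
    have hnot : ¬ (Ideal.span {C π} : Ideal O[X]).IsMaximal := by
      intro hM
      have hlt : Ideal.span {C π} < Ideal.span {C π, X} := by
        refine lt_of_le_of_ne (Ideal.span_mono (by simp)) fun e => ?_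
        have : (X : O[X]) ∈ Ideal.span {C π} := e ▸ Ideal.subset_span (by simp)
        rw [Ideal.mem_span_singleton, C_dvd_iff_dvd_coeff] at this
        exact hπ.not_isUnit (isUnit_of_dvd_one (by simpa using this 1))
      have htop := hM.1.2 _ hlt
      have h1 : (1 : O[X]) ∈ Ideal.span {C π, X} := htop ▸ Submodule.mem_top
      obtain ⟨a, b, hab⟩ := Ideal.mem_span_pair.mp h1
      have := congrArg (fun p : O[X] => p.coeff 0) hab
      simp only [coeff_add, mul_coeff_zero, coeff_C_zero, coeff_X_zero, mul_zero, add_zero,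
        coeff_one_zero] at this
      exact hπ.not_isUnit (isUnit_of_dvd_one ⟨_, by rw [← this, mul_comm]⟩)
    exact hnot (h ▸ hmax)
  obtain ⟨m', hle', hm', hm'c⟩ := Ideal.exists_ideal_over_prime_of_isIntegral
    (m.comap (ModField.polyHom w)) (gaussIdeal E hπ 1 w hle) (hc.le.trans (by
      rw [Ideal.span_singleton_le_iff_mem, Ideal.mem_comap, ModField.polyHom_C]; exact hm))
  haveI := hm'
  obtain ⟨σ, hσ⟩ := exists_smul_prime (smul_fixed E hw) htr hfix m' m hm'c
  obtain ⟨γ, hγ⟩ := (mem_transG E).mp σ.2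
  let τ : chartRing O w →+* chartRing O w :=
    { toFun := fun b => ⟨σ • (b : Fld E), smul_mem_chart (smul_fixed E hw) σ b.2⟩
      map_one' := Subtype.ext (smul_one σ)
      map_mul' := fun x y => Subtype.ext (smul_mul' σ (x : Fld E) y)
      map_zero' := Subtype.ext (smul_zero σ)
      map_add' := fun x y => Subtype.ext (smul_add σ (x : Fld E) y) }
  refine ⟨(gaussIdeal E hπ 1 w hle).comap τ, Ideal.IsPrime.comap _, fun h => ?_, ?_⟩
  · have h1 : algebraMap O (chartRing O w) π ∈ (gaussIdeal E hπ 1 w hle).comap τ := by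
      rw [Ideal.mem_comap, show τ (algebraMap O (chartRing O w) π) = ModField.polyHom w (C π) from
        Subtype.ext (by rw [ModField.coe_polyHom, aeval_C]; exact ModField.smul_algebraMap' σ π),
        ← Ideal.mem_comap, hc]
      exact Ideal.mem_span_singleton_self _
    rw [h, Ideal.mem_bot] at h1
    exact (map_ne_zero_iff _ (algebraMap_injective E)).mpr hπ.ne_zero (congrArg Subtype.val h1)
  · refine lt_of_le_of_ne (fun b hb => (hσ b).mpr (hle' hb)) fun e => hne ?_
    rw [← e, ← hc]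
    ext P
    simp only [Ideal.mem_comap]
    have : τ (ModField.polyHom w P) = ModField.polyHom w P := Subtype.ext (by
      show σ • ((ModField.polyHom w P : chartRing O w) : Fld E) = _
      rw [ModField.coe_polyHom, smul_aeval (smul_fixed E hw)])
    rw [this]

/-! ## All points -/

set_option maxHeartbeats 1000000 in
/-- Roots at every point of both charts, given the regularity of the special fibre. -/
theorem hasRootAt_all (hπ : Irreducible π) {n : ℕ} (hn : 0 < n) {f : Fld E} (hf : OrdDvd E n f)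
    (hgauss : ∀ (g : SL(2, ℤ)) (o : ℤ), HasOrd E π (toLS E (fShift E g f)) o → (n : ℤ) ∣ o)
    (hreg₀ : ∀ m : Ideal (chartRing O (jF E)), m.IsMaximal →
      algebraMap O (chartRing O (jF E)) π ∈ m →
      ∃ x y, x ∈ m ∧ y ∈ m ∧ ∀ z ∈ m, ∃ s ∉ m, s * z ∈ Ideal.span {x, y})
    (hreg₁ : ∀ m : Ideal (chartRing O (jF E)⁻¹), m.IsMaximal →
      algebraMap O (chartRing O (jF E)⁻¹) π ∈ m →
      (⟨(jF E)⁻¹, self_mem_chartRing _⟩ : chartRing O (jF E)⁻¹) ∈ m →
      ∃ x y, x ∈ m ∧ y ∈ m ∧ ∀ z ∈ m, ∃ s ∉ m, s * z ∈ Ideal.span {x, y}) :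
    (∀ Q : Ideal (ModField.model E).B₀, Q.IsPrime → Q ≠ ⊥ →
        HasRootAt (ModField.model E).B₀ n (f ^ (6 * M)) Q) ∧
      ∀ m : Ideal (ModField.model E).B₁, m.IsMaximal →
        HasRootAt (ModField.model E).B₁ n (f ^ (6 * M)) m := by
  haveI := isNoetherianRing_B₀ E
  haveI := isNoetherianRing_B₁ E
  have hC := aeval_jF_injective E
  have hC₁ := aeval_inv_jF_injective E
  have hfix₁ : ∀ g : SL(2, ℤ), fShift E g (jF E)⁻¹ = (jF E)⁻¹ := fun g => by
    rw [map_inv₀, fShift_jF]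
  haveI := isFractionRing_fld E hC (fixedRational_jF E)
  haveI := isFractionRing_fld E hC₁ (fixedRational_inv_jF E)
  have hfE : f ^ (6 * M) ≠ 0 := pow_ne_zero _ hf.ne_zero
  -- curves of the first chart
  have h₀ : ∀ Q : Ideal (chartRing O (jF E)), Q.IsPrime → Q ≠ ⊥ →
      ¬ (Q.IsMaximal ∧ algebraMap O (chartRing O (jF E)) π ∈ Q) →
      HasRootAt (chartRing O (jF E)) n (f ^ (6 * M)) Q := fun Q hQ hQ0 hQm => by
    haveI := hQ
    by_cases hQπ : algebraMap O (chartRing O (jF E)) π ∈ Q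
    · exact (hasRootAt_gauss E hπ (fShift_jF E) hC (fixedRational_jF E)
        (fun x hx => (chart_le_gaussP E hπ 1).1 x hx) (centre_jF E hπ) Q hQπ
        (fun h => hQm ⟨h, hQπ⟩) hf.ne_zero hgauss).pow _
    · rw [pow_mul]
      exact (hasRootAt_finite E hπ hf Q hQ0 hQπ).pow _
  have hB₀ : ∀ Q : Ideal (chartRing O (jF E)), Q.IsPrime → Q ≠ ⊥ →
      HasRootAt (chartRing O (jF E)) n (f ^ (6 * M)) Q := fun Q hQ hQ0 => by
    haveI := hQ
    by_cases hQm : Q.IsMaximal ∧ algebraMap O (chartRing O (jF E)) π ∈ Q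
    swap
    · exact h₀ Q hQ hQ0 hQm
    haveI := hQm.1
    refine hasRootAt_of_regular hn Q (exists_prime_below E hπ (fShift_jF E) hC (fixedRational_jF E)
      (fun x hx => (chart_le_gaussP E hπ 1).1 x hx) (centre_jF E hπ) Q hQm.2)
      (hreg₀ Q hQm.1 hQm.2) hfE fun P hP hP0 hPle hPne => ?_
    exact h₀ P hP hP0 fun h => hPne (h.1.eq_of_le hQm.1.ne_top hPle)
  suffices h₁ : ∀ m : Ideal (chartRing O (jF E)⁻¹), m.IsMaximal →
      HasRootAt (chartRing O (jF E)⁻¹) n (f ^ (6 * M)) m from ⟨hB₀, h₁⟩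
  intro m hm
  have htr : ∀ Q : Ideal (chartRing O (jF E)⁻¹), Q.IsPrime → Q ≠ ⊥ →
      (⟨(jF E)⁻¹, self_mem_chartRing _⟩ : chartRing O (jF E)⁻¹) ∉ Q →
      HasRootAt (chartRing O (jF E)⁻¹) n (f ^ (6 * M)) Q := fun Q hQ hQ0 hwQ => by
    haveI := hQ
    exact @hasRootAt_transfer _ _ _ _ _ (ModField.model E) n _ hB₀ Q hQ hQ0 hwQ
  have hcusp : ∀ Q : Ideal (chartRing O (jF E)⁻¹), Q.IsPrime →
      algebraMap O (chartRing O (jF E)⁻¹) π ∉ Q →
      (⟨(jF E)⁻¹, self_mem_chartRing _⟩ : chartRing O (jF E)⁻¹) ∈ Q →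
      HasRootAt (chartRing O (jF E)⁻¹) n (f ^ (6 * M)) Q := fun Q hQ hQπ hwQ => by
    haveI := hQ
    rw [mul_comm, pow_mul]
    exact (hasRootAt_cusp E hπ hf Q hQπ hwQ).pow _
  haveI := hm
  have hm0 := ne_bot_of_isMaximal E m hC₁
  by_cases hwm : (⟨(jF E)⁻¹, self_mem_chartRing _⟩ : chartRing O (jF E)⁻¹) ∈ m
  swap
  · exact htr m hm.isPrime hm0 hwm
  by_cases hmπ : algebraMap O (chartRing O (jF E)⁻¹) π ∈ m
  swap
  · exact hcusp m hm.isPrime hmπ hwm
  refine hasRootAt_of_regular hn m (exists_prime_below E hπ hfix₁ hC₁ (fixedRational_inv_jF E)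
      (fun x hx => (chart_le_gaussP E hπ 1).2 x hx) (centre_inv_jF E hπ) m hmπ)
    (hreg₁ m hm hmπ hwm) hfE fun P hP hP0 hPle hPne => ?_
  haveI := hP
  by_cases hwP : (⟨(jF E)⁻¹, self_mem_chartRing _⟩ : chartRing O (jF E)⁻¹) ∈ P
  swap
  · exact htr P hP hP0 hwP
  by_cases hPπ : algebraMap O (chartRing O (jF E)⁻¹) π ∈ P
  swap
  · exact hcusp P hP hPπ hwP
  exact (hasRootAt_gauss E hπ hfix₁ hC₁ (fixedRational_inv_jF E)
    (fun x hx => (chart_le_gaussP E hπ 1).2 x hx) (centre_inv_jF E hπ) P hPπ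
    (fun h => hPne (h.eq_of_le hm.ne_top hPle)) hf.ne_zero hgauss).pow _

end Fermat.Agent.NewVec
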