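/-
Hecke transfer at level `Γ(q) ∩ Γ₀(m)` for a prime congruent to one modulo the level, and its
effect on expansions at every cusp.
-/
import Fermat.Agent.NewVec.GaussOrd
import Fermat.Agent.NewVec.Psi
import Fermat.Agent.GalRep.Level.Congr

set_option autoImplicit false
set_option linter.style.haveILetI false
set_option linter.unusedSectionVars false

noncomputable section

namespace Fermat.Agent.NewVec

open CongruenceSubgroup UpperHalfPlane
open Fermat.Agent.GalRep Fermat.Agent.GalRep.Level Fermat.Agent.ModField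
open scoped MatrixGroups

theorem mul_left_cancel_of_det {Q X Y : IMat} (hQ : Q.det ≠ 0) (h : Q * X = Q * Y) : X = Y := by
  have := congrArg (fun Z => Q.adjugate * Z) h
  simp only [← Matrix.mul_assoc, Matrix.adjugate_mul, Matrix.smul_mul, Matrix.one_mul] at this
  exact (smul_right_injective IMat hQ) this

/-- The representatives with step `k` are those of `T_ℓ` up to translations and a permutation. -/
theorem exists_rep_eq {ℓ k : ℕ} [NeZero ℓ] (hk : Nat.Coprime k ℓ) :
    ∃ (σ : Equiv.Perm (Option (Fin ℓ))) (t : Option (Fin ℓ) → ℤ), ∀ i,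
      heckeRepG k ℓ 1 i = ((ModularGroup.T ^ t i : SL(2, ℤ)) : IMat) * heckeRep ℓ (σ i) := by
  set π := mulPerm (ZMod.unitOfCoprime k hk)
  have hd : ∀ b : Fin ℓ, (ℓ : ℤ) ∣ (b : ℤ) * k - (π b : ℕ) := fun b => by
    rw [← ZMod.intCast_zmod_eq_zero_iff_dvd]
    push_cast
    rw [mulPerm_spec, ZMod.coe_unitOfCoprime, mul_comm, sub_self]
  choose s hs using hd
  refine ⟨π.optionCongr, fun i => i.elim 0 s, fun i => ?_⟩
  cases i with
  | none => simp [heckeRepG, heckeRep]
  | some b =>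
    simp only [Equiv.optionCongr_apply, Option.map_some, Option.elim_some, heckeRepG, heckeRep,
      ModularGroup.coe_T_zpow]
    ext i j
    fin_cases i <;> fin_cases j <;> simp [Matrix.mul_apply, Fin.sum_univ_two]
    linear_combination hs b

theorem map_heckeRepG_eq_one {M ℓ r : ℕ} (hr : r ∣ M) (hℓ : (ℓ : ZMod r) = 1)
    (i : Option (Fin ℓ)) : (heckeRepG M ℓ 1 i).map ((↑) : ℤ → ZMod r) = 1 := by
  have hM : (M : ZMod r) = 0 := (ZMod.natCast_eq_zero_iff M r).mpr hr
  cases i <;> ext a b <;> fin_cases a <;> fin_cases b <;> simp [heckeRepG, hℓ, hM]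

/-- A prime congruent to one: the representatives permute the cusps trivially. -/
theorem exists_perm_shift {M ℓ : ℕ} [NeZero M] (hℓ : ℓ.Prime) (hℓM : (ℓ : ZMod M) = 1)
    (δ : SL(2, ℤ)) :
    ∃ e : Option (Fin ℓ) → Option (Fin ℓ), Function.Bijective e ∧ ∀ i, ∃ γ ∈ Gamma M,
      heckeRepG M ℓ 1 i * (δ : IMat) = ((γ * δ : SL(2, ℤ)) : IMat) * heckeRepG M ℓ 1 (e i) := by
  haveI : NeZero ℓ := ⟨hℓ.ne_zero⟩
  have hcop : Nat.Coprime M ℓ := by
    refine ((hℓ.coprime_iff_not_dvd).mpr fun hd => ?_).symm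
    have h1 := congrArg (ZMod.castHom hd (ZMod ℓ)) hℓM
    rw [map_natCast, map_one, ZMod.natCast_self] at h1
    haveI := Fact.mk hℓ
    exact zero_ne_one h1
  obtain ⟨σ, t, hσ⟩ := exists_rep_eq hcop
  have hstep : ∀ i, ∃ (j : Option (Fin ℓ)) (C : SL(2, ℤ)),
      heckeRepG M ℓ 1 i * (δ : IMat) = (C : IMat) * heckeRepG M ℓ 1 j := by
    intro i
    obtain ⟨j, X, hX⟩ := exists_eq_mul_heckeRep hℓ (heckeRepG M ℓ 1 i * (δ : IMat))
      ⟨1, by rw [Matrix.det_mul, det_heckeRepG, δ.det_coe, mul_one]⟩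
    have hdX : X.det = 1 := by
      have := congrArg Matrix.det hX
      rw [Matrix.det_mul, Matrix.det_mul, det_heckeRepG, det_heckeRep, δ.det_coe, mul_one] at this
      exact mul_right_cancel₀ (Int.natCast_ne_zero.mpr hℓ.ne_zero)
        (this.symm.trans (one_mul _).symm)
    let Xs : SL(2, ℤ) := ⟨X, hdX⟩
    refine ⟨σ.symm j, Xs * (ModularGroup.T ^ t (σ.symm j))⁻¹, ?_⟩
    rw [hσ (σ.symm j), Equiv.apply_symm_apply, ← mul_assoc, ← Matrix.SpecialLinearGroup.coe_mul,
      inv_mul_cancel_right]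
    exact hX
  choose e C hC using hstep
  refine ⟨e, ?_, fun i => ⟨C i * δ⁻¹, ?_, by rw [inv_mul_cancel_right]; exact hC i⟩⟩
  · rw [← Finite.injective_iff_bijective]
    intro i i' h
    have h1 := hC i
    have h2 := hC i'
    rw [← h] at h2
    have h3 : heckeRepG M ℓ 1 i * (δ : IMat) =
        ((C i * (C i')⁻¹ : SL(2, ℤ)) : IMat) * (heckeRepG M ℓ 1 i' * (δ : IMat)) := by
      rw [h1, h2, ← mul_assoc, ← Matrix.SpecialLinearGroup.coe_mul, inv_mul_cancel_right]
    have h4 := congrArg (fun Z => Z * ((δ⁻¹ : SL(2, ℤ)) : IMat)) h3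
    simp only [mul_assoc, ← Matrix.SpecialLinearGroup.coe_mul, mul_inv_cancel,
      Matrix.SpecialLinearGroup.coe_one, mul_one] at h4
    rw [hσ i, hσ i', ← mul_assoc, ← Matrix.SpecialLinearGroup.coe_mul] at h4
    exact σ.injective (heckeRep_unique hℓ
      (by rw [Matrix.SpecialLinearGroup.det_coe]; exact_mod_cast hℓ.not_dvd_one) h4)
  · refine red_eq_one_iff.mp ?_
    have h1 := congrArg (fun X : IMat => X.map (Int.castRingHom (ZMod M))) (hC i)
    simp only [Matrix.map_mul] at h1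
    have e1 : ∀ j, (heckeRepG M ℓ 1 j).map (Int.castRingHom (ZMod M)) = 1 := fun j =>
      map_heckeRepG_eq_one dvd_rfl hℓM j
    rw [e1, e1, one_mul, mul_one] at h1
    rw [map_mul, map_inv, mul_inv_eq_one]
    exact Matrix.SpecialLinearGroup.ext _ _ fun a b => (congrFun (congrFun h1 a) b).symm

section Mid

variable {q m : ℕ} [NeZero q] [NeZero m] [Fact (Nat.Coprime q m)]

/-- The transfer at the middle level computes `T_ℓ` on pullbacks. -/
theorem isTransfer_pullQ {A : Type} [AddCommGroup A] {N M : ℕ} (hMN : M = q * N)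
    (l : GoodPrime (q * q * m)) (hlN : Nat.Coprime N l) (hlq : ((l : ℕ) : ZMod q) = 1)
    (x : ParHom (q * q * m) A) :
    IsTransfer (midGroup q m) (midGroup q m) (heckeRepG M l 1)
      (pullQ q m x : Additive (midGroup q m) →+ A)
      (pullQ q m (heckeHomAt l x) : Additive (midGroup q m) →+ A) := by
  subst hMN
  set hg := goodIndex l
  haveI : NeZero (l : ℕ) := ⟨hg.prime.ne_zero⟩
  obtain ⟨σ, t, hσ⟩ := exists_rep_eq (k := N) hlN
  intro γ
  set p := pullHom q m γ
  have hQ : (qMat q).det ≠ 0 := (det_qMat q).ne'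
  have hQb : ∀ i, qMat q * heckeRepG (q * N) l 1 i = heckeRepG N l 1 i * qMat q := fun i => by
    cases i <;> ext a b <;> fin_cases a <;> fin_cases b <;>
      simp [qMat, heckeRepG, Matrix.mul_apply, Fin.sum_univ_two] <;> ring
  let i' : Option (Fin (l : ℕ)) → Option (Fin (l : ℕ)) := fun i =>
    σ.symm (trIdx hg p (σ i))
  let U : Option (Fin (l : ℕ)) → Gamma0 (q * q * m) := fun i =>
    ⟨ModularGroup.T ^ t i, Gamma0_mem.mpr (by simp [ModularGroup.coe_T_zpow])⟩
  let B : Option (Fin (l : ℕ)) → Gamma0 (q * q * m) := fun i =>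
    U i * trCoef hg p (σ i) * (U (i' i))⁻¹
  have hB : ∀ i, qMat q * (heckeRepG (q * N) l 1 i * ((γ : SL(2, ℤ)) : IMat)) =
      gMat (B i) * (qMat q * heckeRepG (q * N) l 1 (i' i)) := by
    intro i
    have h1 : heckeRep l (σ i) * gMat p = gMat (trCoef hg p (σ i)) * heckeRep l (trIdx hg p (σ i)) :=
      trSpec hg p (σ i)
    have hU : ∀ j, heckeRepG N l 1 j = gMat (U j) * heckeRep l (σ j) := hσ
    have h2 : σ (i' i) = trIdx hg p (σ i) := σ.apply_symm_apply _
    calc qMat q * (heckeRepG (q * N) l 1 i * ((γ : SL(2, ℤ)) : IMat))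
        = heckeRepG N l 1 i * (qMat q * ((γ : SL(2, ℤ)) : IMat)) := by
          rw [← mul_assoc, hQb, mul_assoc]
      _ = gMat (U i) * (heckeRep l (σ i) * gMat p) * qMat q := by
          rw [pullHom_spec, hU, ← mul_assoc, mul_assoc (gMat (U i))]
      _ = gMat (U i * trCoef hg p (σ i)) * heckeRep l (σ (i' i)) * qMat q := by
          rw [h1, h2, gMat_mul]; simp only [mul_assoc]
      _ = gMat (B i) * (heckeRepG N l 1 (i' i) * qMat q) := by
          rw [hU, ← mul_assoc (gMat (B i)), ← mul_assoc (gMat (B i)), ← gMat_mul]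
          simp [B]
      _ = _ := by rw [← hQb]
  -- descend to the middle level
  have hC : ∀ i, ∃ C : midGroup q m, pullHom q m C = B i ∧
      heckeRepG (q * N) l 1 i * ((γ : SL(2, ℤ)) : IMat) =
        ((C : SL(2, ℤ)) : IMat) * heckeRepG (q * N) l 1 (i' i) := by
    intro i
    set b := (B i : SL(2, ℤ))
    obtain ⟨c, hc⟩ : ((q * q * m : ℕ) : ℤ) ∣ b 1 0 := dvd_gMat (B i)
    have hdet : b 0 0 * b 1 1 - b 0 1 * b 1 0 = 1 := by rw [← Matrix.det_fin_two]; exact b.2
    let C : SL(2, ℤ) := ⟨!![b 0 0, b 0 1 * q; (q : ℤ) * m * c, b 1 1], by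
      rw [Matrix.det_fin_two_of]
      rw [hc] at hdet
      push_cast at hdet
      linear_combination hdet⟩
    have hQC : qMat q * (C : IMat) = gMat (B i) * qMat q := by
      ext a a'
      fin_cases a <;> fin_cases a' <;>
        simp [qMat, C, gMat, b, Matrix.mul_apply, Fin.sum_univ_two] <;> (try ring)
      rw [hc]; push_cast; ring
    have heq : heckeRepG (q * N) l 1 i * ((γ : SL(2, ℤ)) : IMat) =
        (C : IMat) * heckeRepG (q * N) l 1 (i' i) := by
      refine mul_left_cancel_of_det hQ ?_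
      rw [hB, ← mul_assoc, ← hQC, mul_assoc]
    have hCq : red q C = 1 := by
      have h1 := congrArg (fun X : IMat => X.map (Int.castRingHom (ZMod q))) heq
      simp only [Matrix.map_mul] at h1
      have e1 : ∀ j, (heckeRepG (q * N) l 1 j).map (Int.castRingHom (ZMod q)) = 1 := fun j =>
        map_heckeRepG_eq_one (dvd_mul_right q N) hlq j
      rw [e1, e1, one_mul, mul_one] at h1
      rw [← ((mem_mid q m).mp γ.2).1]
      exact Matrix.SpecialLinearGroup.ext _ _ fun a b => (congrFun (congrFun h1 a) b).symm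
    have hCm : ((C 1 0 : ℤ) : ZMod m) = 0 := by
      show ((((q : ℤ) * m * c : ℤ)) : ZMod m) = 0
      push_cast
      simp
    refine ⟨⟨C, (mem_mid q m).mpr ⟨hCq, hCm⟩⟩, ?_, heq⟩
    exact Subtype.ext (mul_qMat_cancel q ((pullHom_spec q m _).symm.trans hQC))
  choose C hCp hCe using hC
  refine ⟨(σ.trans (trPerm hg p)).trans σ.symm, C, hCe, ?_⟩
  rw [pullQ_apply]
  show transferHom hg (x : Additive (Gamma0 (q * q * m)) →+ A) (Additive.ofMul p) = _
  rw [transferHom_apply]
  simp only [pullQ_apply, hCp]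
  have hx0 : ∀ j, (x : Additive (Gamma0 (q * q * m)) →+ A) (Additive.ofMul (U j)) = 0 := fun j =>
    x.2 _ (by simp [U, ModularGroup.coe_T_zpow, Matrix.trace_fin_two])
  simp only [B, ofMul_mul, ofMul_inv, map_add, map_neg, hx0, zero_add, neg_zero, add_zero]
  exact (Equiv.sum_comp σ fun j => (x : Additive (Gamma0 (q * q * m)) →+ A)
    (Additive.ofMul (trCoef hg p j))).symm

end Mid

/-! ## Expansions of the transfer -/

variable {O : Type} [CommRing O] [IsDomain O] {M : ℕ} [NeZero M] (E : Emb O M)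

/-- The expansion at a cusp of the transfer of a function of level `M`. -/
theorem serAlg_shift_transfer {ℓ : ℕ} [NeZero ℓ] (hℓ : ℓ.Prime) (hℓM : (ℓ : ZMod M) = 1)
    {φ ψ : MF M} (hd : ∀ i, 0 < (heckeRepG M ℓ 1 i).det)
    (hψ : (ψ : ℍ → ℂ) = transferProd (heckeRepG M ℓ 1) hd (φ : ℍ → ℂ))
    (z : ℂˣ) (hz : (z : ℂ) = Complex.exp (2 * Real.pi * Complex.I / ℓ)) (δ : SL(2, ℤ)) :
    GalRep.expand ℓ (NeZero.ne ℓ) (serAlg M (shift M δ ψ)) =
      GalRep.expand ℓ (NeZero.ne ℓ) (GalRep.expand ℓ (NeZero.ne ℓ) (serAlg M (shift M δ φ))) *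
        ∏ b : Fin ℓ, GalRep.twist (z ^ (b : ℕ)) (serAlg M (shift M δ φ)) := by
  have h1 : HasQSeries M ((shift M δ φ : MF M) : ℍ → ℂ) (serAlg M (shift M δ φ)) :=
    hasQSeries_serHom _
  have h2 := hasQSeries_heckeG (R := (1 : SL(2, ℤ))) h1
    (h := serAlg M (shift M δ φ)) (by simpa only [one_smul] using h1) z hz hd
  have h3 := (hasQSeries_serHom (shift M δ ψ)).refine_width (NeZero.pos M) ℓ (NeZero.ne ℓ)
  refine h3.unique (Nat.mul_pos (NeZero.pos M) (NeZero.pos ℓ)) ?_
  convert h2 using 1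
  funext τ
  obtain ⟨e, he, hsh⟩ := exists_perm_shift hℓ hℓM δ
  show (ψ : ℍ → ℂ) (δ • τ) = _
  rw [hψ, transferProd, transferProd, Finset.prod_apply, Finset.prod_apply]
  refine Fintype.prod_bijective e he _ _ fun i => ?_
  obtain ⟨γ, hγ, heq⟩ := hsh i
  rw [posMat_smul_eq (hd i) (hd (e i)) δ (γ * δ) heq τ, shift_apply, mul_smul,
    φ.2.invariant γ hγ]

end Fermat.Agent.NewVec
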