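/-
The maps to level `q m` commute with Galois and hence with the good Hecke operators.
-/
import Fermat.Agent.NewVec.Psi
import Fermat.Agent.GalRep.KummerCongr
import Fermat.Agent.GalRep.KummerHecke
import Fermat.Agent.Galois.Places

set_option autoImplicit false
set_option linter.style.haveILetI false

noncomputable section

namespace Fermat.Agent.NewVec

open CongruenceSubgroup
open Fermat.Agent.GalRep Fermat.Agent.GalRep.Level
open Fermat.Agent.Galois (GQ)
open scoped MatrixGroups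

variable {q m : ℕ} [NeZero q] [NeZero m] [hqm : Fact (Nat.Coprime q m)]
  {n : ℕ} [NeZero n]

local notation "L₀" => q * q * m

/-- The action at level `Γ₀(qm)`. -/
theorem galG_low (s : GQ) (χ : ParHom (q * m) (ZMod n)) :
    galG (isLevel_low q m) n s χ = (kummerGalois (q * m) n).galois s χ := by
  rw [galG_congr (isLevel_low q m) (isLevel_gamma0 (q * m)), galG_eq_kummer]

theorem act_galG (s : GQ) (x : SL(2, ZMod q)) (χ : ParG (midGroup q m) (ZMod n)) :
    galG (isLevel_mid q m) n s (act q m x χ) =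
      act q m (conjA (cycM q s) x) (galG (isLevel_mid q m) n s χ) := by
  set g := liftQ q m x
  obtain ⟨g', hgg⟩ := exists_conjEq (cycM (L₀) s) g
  have hd : q ∣ L₀ := ⟨q * m, mul_assoc _ _ _⟩
  have hg'm : g' ∈ Gamma0 m :=
    (((isLevel_gamma0 m).of_dvd (dvd_mul_left m (q * q))).conj_iff hgg).mp (liftQ_mem q m x)
  have hx : red q g' = conjA (cycM q s) x := by
    have h := hgg.of_dvd hd
    rw [cycM_castHom hd s, ConjEq] at h
    rw [h, red_liftQ]
  have htr : IsTransfer (midGroup q m) (midGroup q m)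
      (fun _ : Unit => (g : Matrix (Fin 2) (Fin 2) ℤ)) (χ : Additive (midGroup q m) →+ ZMod n)
      (act q m x χ : Additive (midGroup q m) →+ ZMod n) := fun γ => by
    refine ⟨Equiv.refl _, fun _ => conjMid q m ⟨g, liftQ_mem q m x⟩ γ, fun _ => ?_, ?_⟩
    · simp only [← Matrix.SpecialLinearGroup.coe_mul]
      congr 1
      simp [conjMid]
    · rw [Fintype.sum_unique]
      rfl
  have h2 := galG_pull (isLevel_mid q m) (isLevel_mid q m) s hgg htr
  refine Subtype.ext (AddMonoidHom.ext fun z => ?_)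
  obtain ⟨γ, rfl⟩ := Additive.ofMul.surjective z
  obtain ⟨e, c, heq, hsum⟩ := h2 γ
  rw [hsum, Fintype.sum_unique, act_apply q m _ hg'm hx]
  refine congrArg _ (congrArg _ (Subtype.ext ?_))
  have h := heq default
  simp only [← Matrix.SpecialLinearGroup.coe_mul] at h
  show (c default : SL(2, ℤ)) = g' * γ * g'⁻¹
  rw [Subtype.coe_injective h, mul_inv_cancel_right]

theorem pullQ_galG (s : GQ) (χ : ParHom (L₀) (ZMod n)) :
    galG (isLevel_mid q m) n s (pullQ q m χ) =
      pullQ q m ((kummerGalois (L₀) n).galois s χ) := by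
  rw [← galG_eq_kummer]
  have hK : NeZero (L₀ * q) := inferInstance
  have htr : IsTransfer (Gamma0 (L₀)) (midGroup q m) (fun _ : Unit => qMat q)
      (χ : Additive (Gamma0 (L₀)) →+ ZMod n)
      (pullQ q m χ : Additive (midGroup q m) →+ ZMod n) := fun γ =>
    ⟨Equiv.refl _, fun _ => pullHom q m γ, fun _ => pullHom_spec q m γ, by
      rw [Fintype.sum_unique]; rfl⟩
  have h2 := galG_transfer (G := Gamma0 (L₀)) (isLevel_gamma0 (L₀)) (isLevel_mid q m) (K := L₀ * q)
    (dvd_mul_right _ _) s (β' := fun _ : Unit => qMat q) (fun _ => det_qMat q)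
    (fun _ => ⟨1, 1, 1, q, 0, 0, one_pos, Nat.pos_of_neZero q, dvd_refl _,
      fun _ => ConjEq.one_one _, by simp, by simp [qMat], by simp [qMat]⟩)
    (fun γ => ⟨Equiv.refl _, fun _ => pullHom q m γ, fun _ => pullHom_spec q m γ⟩) htr
  refine Subtype.ext (AddMonoidHom.ext fun z => ?_)
  obtain ⟨γ, rfl⟩ := Additive.ofMul.surjective z
  obtain ⟨e, c, heq, hsum⟩ := h2 γ
  rw [hsum, Fintype.sum_unique, pullQ_apply]
  refine congrArg _ (congrArg _ (Subtype.ext (mul_qMat_cancel q ?_)))
  rw [← pullHom_spec]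
  exact (heq default).symm

theorem resH_galG (s : GQ) (χ : ParHom (q * m) (ZMod n)) :
    galG (isLevel_mid q m) n s (resH q m χ) = resH q m ((kummerGalois (q * m) n).galois s χ) := by
  rw [← galG_low]
  exact Subtype.ext (galG_restrict (isLevel_low q m) (isLevel_mid q m) (mid_le_low q m) s rfl)

theorem sumBorel_galG (s : GQ) (χ : ParG (midGroup q m) (ZMod n)) :
    galG (isLevel_mid q m) n s (sumBorel q m χ) = sumBorel q m (galG (isLevel_mid q m) n s χ) := by
  simp only [sumBorel, AddMonoidHom.finsetSum_apply, map_sum, act_galG]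
  refine Fintype.sum_equiv ((Equiv.refl _).prodCongr
    (Units.mulLeft (cycM q s))) _ _ fun x => ?_
  congr 2
  obtain ⟨v, w⟩ := x
  ext i j
  fin_cases i <;> fin_cases j <;>
    simp [torus, unip, conjA_apply, Matrix.mul_apply, Fin.sum_univ_two] <;> ring

theorem sumTwist_galG (s : GQ) (g : SL(2, ZMod q)) (χ : ParG (midGroup q m) (ZMod n)) :
    galG (isLevel_mid q m) n s (sumTwist q m g χ) = sumTwist q m g (galG (isLevel_mid q m) n s χ) := by
  simp only [sumTwist, AddMonoidHom.finsetSum_apply, map_sum, act_galG, conjA_conjA]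
  exact Equiv.sum_comp (Equiv.mulLeft (cycM q s))
    fun a => act q m (conjA a g) (galG (isLevel_mid q m) n s χ)

theorem index_nsmul_eq_zero {A : Type} [AddCommGroup A] (d : ParHom (q * m) A)
    (h : resH q m d = 0) : (midSub q m).index • d = 0 := by
  refine Subtype.ext (AddMonoidHom.ext fun z => ?_)
  obtain ⟨γ, rfl⟩ := Additive.ofMul.surjective z
  show (midSub q m).index • (d : Additive (Gamma0 (q * m)) →+ A) (Additive.ofMul γ) = 0
  rw [← map_nsmul, ← ofMul_pow]
  exact DFunLike.congr_fun (congrArg Subtype.val h)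
    (Additive.ofMul ⟨_, Subgroup.pow_index_mem (midSub q m) γ⟩)

theorem psiQ_galois (s : GQ) (g : SL(2, ZMod q)) (χ : ParHom (L₀) (ZMod n)) :
    (midSub q m).index • ((kummerGalois (q * m) n).galois s (psiQ q m g χ) -
      psiQ q m g ((kummerGalois (L₀) n).galois s χ)) = 0 := by
  refine index_nsmul_eq_zero _ ?_
  rw [map_sub, ← resH_galG, psiQ, AddMonoidHom.comp_apply, AddMonoidHom.comp_apply,
    AddMonoidHom.comp_apply, AddMonoidHom.comp_apply, resH_corH, resH_corH, sumBorel_galG,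
    sumTwist_galG, pullQ_galG, sub_self]

/-! ## Naturality in the coefficients -/

variable {A B : Type} [AddCommGroup A] [AddCommGroup B]

omit [NeZero n] in
theorem psiQ_natural (f : A →+ B) (g : SL(2, ZMod q)) (χ : ParHom (L₀) A) :
    psiQ q m g (parMap f χ) = parMap f (psiQ q m g χ) := by
  classical
  refine Subtype.ext (AddMonoidHom.ext fun z => ?_)
  obtain ⟨γ, rfl⟩ := Additive.ofMul.surjective z
  let T : (midSub q m).LeftTransversal := default
  show Multiplicative.toAdd (MonoidHom.transfer (midMul q m (sumTwist q m g (pullQ q m (parMap f χ)))) γ) =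
    f (Multiplicative.toAdd (MonoidHom.transfer (midMul q m (sumTwist q m g (pullQ q m χ))) γ))
  simp only [MonoidHom.transfer_def _ T, Subgroup.leftTransversals.diff, toAdd_prod, map_sum,
    midMul_apply, sumTwist, AddMonoidHom.finsetSum_apply, AddSubmonoidClass.coe_finsetSum]
  rfl

/-! ## The lattice -/

variable {p : ℕ} [Fact p.Prime]

/-- The datum of Eichler and Shimura on the lattice. -/
def latDatum (N : ℕ) [NeZero N] (p : ℕ) [Fact p.Prime] (hred : KummerReduction N) :
    EichlerShimuraDatum N p :=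
  haveI : ∀ k, NeZero (p ^ k) := fun k => ⟨pow_ne_zero k (Fact.out : p.Prime).ne_zero⟩
  eichlerShimuraDatum (K := fun k => kummerGalois N (p ^ k)) (kummerCompat N)
    (fun k => kummerHeckeComm N (p ^ k)) (kummerFrobenius N hred)

variable (q m p) in
/-- The map of lattices attached to `g`. -/
def latPsi (g : SL(2, ZMod q)) : Lat (L₀) p →+ Lat (q * m) p :=
  AddMonoidHom.mk' (fun v => ⟨(psiQ q m g (toPar v)).1, (psiQ q m g (toPar v)).2⟩) fun v w => by
    refine Subtype.ext ?_
    show (psiQ q m g (toPar v + toPar w)).1 = _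
    rw [map_add]
    rfl

theorem redPow_latPsi (g : SL(2, ZMod q)) (v : Lat (L₀) p) (k : ℕ) :
    redPow k (latPsi q m p g v) = psiQ q m g (redPow k v) :=
  (psiQ_natural (PadicInt.toZModPow k).toAddMonoidHom g (toPar v)).symm

theorem latPsi_galois (hM : KummerReduction (L₀)) (hN : KummerReduction (q * m)) (s : GQ)
    (g : SL(2, ZMod q)) (v : Lat (L₀) p) :
    latPsi q m p g ((latDatum (L₀) p hM).galois s v) =
      (latDatum (q * m) p hN).galois s (latPsi q m p g v) := by
  haveI : ∀ k, NeZero (p ^ k) := fun k => ⟨pow_ne_zero k (Fact.out : p.Prime).ne_zero⟩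
  refine (sub_eq_zero.mp (nsmul_eq_zero_lat
    (D := (midSub q m).index) (Nat.pos_of_ne_zero Subgroup.FiniteIndex.index_ne_zero) fun k => ?_)).symm
  rw [map_sub, redPow_latPsi]
  show _ • (redPow k (latGalois _ _ s (latPsi q m p g v)) -
    psiQ q m g (redPow k (latGalois _ _ s v))) = 0
  rw [redPow_latGalois, redPow_latGalois, redPow_latPsi]
  exact psiQ_galois s g (redPow k v)

theorem latPsi_hecke (hM : KummerReduction (L₀)) (hN : KummerReduction (q * m))
    (g : SL(2, ZMod q)) {ℓ : ℕ} (hℓ : ℓ.Prime) (hℓM : ¬ ℓ ∣ L₀) (hℓN : ¬ ℓ ∣ q * m)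
    (hℓp : ℓ ≠ p) (v : Lat (L₀) p) :
    latPsi q m p g (latHecke (L₀) p ⟨⟨ℓ, hℓ⟩, hℓM⟩ v) =
      latHecke (q * m) p ⟨⟨ℓ, hℓ⟩, hℓN⟩ (latPsi q m p g v) := by
  obtain ⟨A, hA⟩ := Fermat.Agent.Galois.exists_liesOverPrime hℓ
  obtain ⟨σ, hσ⟩ := Fermat.Agent.Galois.exists_isFrobeniusAt hℓ hA
  let Φ : Module.End ℤ_[p] (Lat (L₀) p) := (latDatum (L₀) p hM).galois σ
  let Φ' : Module.End ℤ_[p] (Lat (q * m) p) := (latDatum (q * m) p hN).galois σ
  let Φi : Module.End ℤ_[p] (Lat (L₀) p) := (latDatum (L₀) p hM).galois σ⁻¹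
  have hΨ : ∀ x, latPsi q m p g (Φ x) = Φ' (latPsi q m p g x) := latPsi_galois hM hN σ g
  have hi : ∀ x, Φ (Φi x) = x := fun x => by
    show (latDatum (L₀) p hM).galois σ ((latDatum (L₀) p hM).galois σ⁻¹ x) = x
    rw [← Module.End.mul_apply, ← map_mul, mul_inv_cancel, map_one]
    rfl
  have hP := (latDatum (L₀) p hM).frobenius ⟨⟨ℓ, hℓ⟩, hℓM⟩ hℓp A hA σ hσ
  have hP' := (latDatum (q * m) p hN).frobenius ⟨⟨ℓ, hℓ⟩, hℓN⟩ hℓp A hA σ hσ
  have e1 : Φ * Φ - latHeckePoly (L₀) p (MvPolynomial.X ⟨⟨ℓ, hℓ⟩, hℓM⟩) * Φ +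
      (ℓ : Module.End ℤ_[p] (Lat (L₀) p)) = 0 := hP
  have e2 : Φ' * Φ' - latHeckePoly (q * m) p (MvPolynomial.X ⟨⟨ℓ, hℓ⟩, hℓN⟩) * Φ' +
      (ℓ : Module.End ℤ_[p] (Lat (q * m) p)) = 0 := hP'
  have h1 := congrArg (latPsi q m p g) (LinearMap.congr_fun e1 (Φi v))
  have h2 := LinearMap.congr_fun e2 (latPsi q m p g (Φi v))
  rw [latHeckePoly, polyHom_X] at h1 h2
  simp only [LinearMap.add_apply, LinearMap.sub_apply, Module.End.mul_apply,
    Module.End.natCast_apply, LinearMap.zero_apply, map_add, map_sub, map_nsmul, map_zero, hi,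
    hΨ] at h1
  simp only [LinearMap.add_apply, LinearMap.sub_apply, Module.End.mul_apply,
    Module.End.natCast_apply, LinearMap.zero_apply, ← hΨ, hi] at h2
  simp only [← hΨ, hi] at h1
  exact sub_right_inj.mp (add_right_cancel (h1.trans h2.symm))

end Fermat.Agent.NewVec
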