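/-
Along the special fibre: Gauss orders of the power function of an inertia-fixed class are
congruent modulo `n` at all cusps, up to a constant factor.
-/
import Fermat.Agent.NewVec.HeckeMid
import Fermat.Agent.NewVec.Norm
import Fermat.Agent.NewVec.PsiGalois
import Fermat.Agent.NewVec.Hecke

set_option autoImplicit false
set_option linter.style.haveILetI false
set_option linter.unusedSectionVars false

noncomputable section

namespace Fermat.Agent.NewVec

open CongruenceSubgroup IsLocalRing UpperHalfPlane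
open Fermat.Agent.GalRep Fermat.Agent.GalRep.Level Fermat.Agent.ModField
open Fermat.Agent.Galois (GQ)
open scoped MatrixGroups

/-! ## Inverting an injective endomorphism up to a scalar -/

theorem exists_scalar_inverse {R L : Type} [CommRing R] [IsDomain R]
    [AddCommGroup L] [Module R L] [Module.Finite R L] (P : Module.End R L)
    (hP : Function.Injective P) :
    ∃ (c : R) (Q : Module.End R L), c ≠ 0 ∧ (∀ v, P (Q v) = c • v) ∧
      ∀ T : Module.End R L, Commute T P → Commute T Q := by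
  classical
  have hex : ∃ d : ℕ, ∃ f : Polynomial R, f.Monic ∧ Polynomial.aeval P f = 0 ∧ f.natDegree = d := by
    obtain ⟨f, hf, h⟩ := Algebra.IsIntegral.isIntegral (R := R) P
    exact ⟨_, f, hf, h, rfl⟩
  obtain ⟨f, hfm, hf0, hfd⟩ := Nat.find_spec hex
  have hmin := fun (g : Polynomial R) (hg : g.Monic) (h : Polynomial.aeval P g = 0) =>
    Nat.find_min' hex ⟨g, hg, h, rfl⟩
  have hsplit : Polynomial.aeval P f =
      P * Polynomial.aeval P f.divX + algebraMap R (Module.End R L) (f.coeff 0) := by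
    have := congrArg (Polynomial.aeval P) (Polynomial.X_mul_divX_add f).symm
    rw [map_add, map_mul, Polynomial.aeval_X, Polynomial.aeval_C] at this
    exact this
  have heq : ∀ v, P (Polynomial.aeval P f.divX v) = -(f.coeff 0 • v) := fun v => by
    have := LinearMap.congr_fun (hsplit.symm.trans hf0) v
    simp only [LinearMap.add_apply, Module.End.mul_apply, Module.algebraMap_end_apply,
      LinearMap.zero_apply] at this
    exact eq_neg_of_add_eq_zero_left this
  refine ⟨f.coeff 0, -Polynomial.aeval P f.divX, fun h0 => ?_, fun v => ?_, fun T hT => ?_⟩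
  · rcases Nat.eq_zero_or_pos f.natDegree with hd | hd
    · rw [Polynomial.Monic.natDegree_eq_zero hfm] at hd
      rw [hd, Polynomial.coeff_one_zero] at h0
      exact one_ne_zero h0
    have hdm : f.divX.Monic := by
      rw [Polynomial.Monic, Polynomial.leadingCoeff, Polynomial.natDegree_divX_eq_natDegree_tsub_one,
        Polynomial.coeff_divX, Nat.sub_add_cancel hd]
      exact hfm
    have hz : Polynomial.aeval P f.divX = 0 := LinearMap.ext fun v => hP (by
      rw [heq, h0, zero_smul, neg_zero, LinearMap.zero_apply, map_zero])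
    have := hmin _ hdm hz
    rw [Polynomial.natDegree_divX_eq_natDegree_tsub_one] at this
    omega
  · rw [LinearMap.neg_apply, map_neg, heq, neg_neg]
  · refine Commute.neg_right ?_
    induction f.divX using Polynomial.induction_on' with
    | add a b ha hb => rw [map_add]; exact ha.add_right hb
    | monomial i a =>
      rw [Polynomial.aeval_monomial]
      exact (show Commute T (algebraMap R _ a) from (Algebra.commutes a T).symm).mul_right
        (hT.pow_right i)

/-! ## The congruence of orders -/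

section Orders

variable {O : Type} [CommRing O] [IsDomain O] [IsDiscreteValuationRing O] {M : ℕ} [NeZero M]
  (E : Emb O M) {π : O} {n : ℕ} [NeZero n] {G : Subgroup SL(2, ℤ)}

theorem toLS_fShift_toFld (δ : SL(2, ℤ)) (φ : MF M) (h : φ ∈ bddMF E) :
    toLS E (fShift E δ (toFld E ⟨φ, h⟩)) = serAlg M (shift M δ φ) := by
  rw [fShift_toFld, toLS_toFld]

set_option maxHeartbeats 1000000 in
/-- If `dχ` is in the image of `T_ℓ - (ℓ+1)`, its orders are congruent modulo `n`. -/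
theorem order_congr (hπ : Irreducible π) (hG : IsLevel M G) {ℓ : ℕ} [NeZero ℓ] (hℓ : ℓ.Prime)
    (hℓM : (ℓ : ZMod M) = 1) {z : O} (hzu : IsUnit z)
    (hz : E.φ z = Complex.exp (2 * Real.pi * Complex.I / ℓ)) (d : ℕ)
    {χ χ' χ'' : ParG G (ZMod n)}
    (hT : IsTransfer G G (heckeRepG M ℓ 1) (χ' : Additive G →+ ZMod n)
      (χ'' : Additive G →+ ZMod n))
    (hrel : χ'' = d • χ + (ℓ + 1) • χ')
    {F F' : ℍ → ℂ} (hF : IsRepG G n χ F) (hF' : IsRepG G n χ' F')
    (hbd : powMF hG hF ∈ bddMF E) (hbd' : powMF hG hF' ∈ bddMF E) :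
    ∃ e : ℤ, ∀ (δ : SL(2, ℤ)) (o : ℤ),
      HasOrd E π (serAlg M (shift M δ (powMF hG hF))) o → (n : ℤ) ∣ (d : ℤ) * o - e := by
  have hd : ∀ i, 0 < (heckeRepG M ℓ 1 i).det := fun i => by
    rw [det_heckeRepG]; exact_mod_cast hℓ.pos
  have hR := transferProd_rep hd hF' hT
  set φ := powMF hG hF
  set φ' := powMF hG hF'
  set g := powMF hG hR with hgdef
  have hg : (g : ℍ → ℂ) = transferProd (heckeRepG M ℓ 1) hd (φ' : ℍ → ℂ) := funext fun τ => by
    show (transferProd (heckeRepG M ℓ 1) hd F' τ) ^ n = _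
    simp only [transferProd, Finset.prod_apply, ← Finset.prod_pow]
    rfl
  let zu : ℂˣ := Units.mk0 _ (Complex.exp_ne_zero (2 * Real.pi * Complex.I / ℓ))
  have hexp := serAlg_shift_transfer (M := M) hℓ hℓM hd hg zu rfl
  have hzp : ∀ b : ℕ, E.φ (z ^ b) = ((zu ^ b : ℂˣ) : ℂ) := fun b => by
    rw [map_pow, hz, Units.val_pow_eq_pow_val]
    rfl
  -- the coefficients of the transfer
  have hgK : serAlg M g ∈ kSer E.K := by
    have h1 := hexp 1
    rw [shift_one, shift_one] at h1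
    have hφ' := kSer_of_bdd E hbd'
    have hexpK : ∀ {f : LaurentSeries ℂ}, f ∈ kSer E.K →
        GalRep.expand ℓ (NeZero.ne ℓ) f ∈ kSer E.K := fun {f} hf => mem_kSer.mpr fun i => by
      by_cases hi : (ℓ : ℤ) ∣ i
      · obtain ⟨j, rfl⟩ := hi
        rw [expand_coeff_mul]
        exact mem_kSer.mp hf j
      · rw [expand_coeff_of_not_dvd _ _ _ _ hi]
        exact zero_mem _
    have hrhs : GalRep.expand ℓ (NeZero.ne ℓ) (GalRep.expand ℓ (NeZero.ne ℓ) (serAlg M φ')) *
        ∏ b : Fin ℓ, GalRep.twist (zu ^ (b : ℕ)) (serAlg M φ') ∈ kSer E.K := by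
      refine mul_mem (hexpK (hexpK hφ')) (prod_mem fun b _ => mem_kSer.mpr fun i => ?_)
      rw [twist_coeff, Units.val_zpow_eq_zpow_val, ← hzp]
      exact mul_mem (mem_kSer.mp hφ' i) (zpow_mem (E.φ_mem _) i)
    rw [← h1] at hrhs
    refine mem_kSer.mpr fun i => ?_
    have := mem_kSer.mp hrhs ((ℓ : ℤ) * i)
    rwa [expand_coeff_mul] at this
  have hgbd : g ∈ bddMF E := bdd_of_kSer E hgK
  -- the modular function of the relation
  have hP := (hF.pow d).mul (hF'.pow (ℓ + 1))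
  have hH := hR.mul (hP.pow (n - 1))
  have h0 : χ'' + (n - 1) • (d • χ + (ℓ + 1) • χ') = 0 := by
    rw [eq_sub_of_pred_nsmul, hrel, sub_self]
  rw [h0] at hH
  let ψ : MF M := ⟨_, modFuns_anti hG.gamma_le hH.isModFun⟩
  have hψ : ψ ^ n = g * (φ ^ d * φ' ^ (ℓ + 1)) ^ (n - 1) := by
    refine Subtype.ext (funext fun τ => ?_)
    simp only [SubmonoidClass.coe_pow, MulMemClass.coe_mul, Pi.pow_apply, Pi.mul_apply]
    show (transferProd (heckeRepG M ℓ 1) hd F' τ * ((F τ) ^ d * (F' τ) ^ (ℓ + 1)) ^ (n - 1)) ^ n =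
      (transferProd (heckeRepG M ℓ 1) hd F' τ) ^ n *
        (((F τ) ^ n) ^ d * ((F' τ) ^ n) ^ (ℓ + 1)) ^ (n - 1)
    ring
  have hψ0 : serAlg M ψ ≠ 0 := fun h =>
    hH.ne_zero (congrArg Subtype.val (serAlg_injective M (h.trans (map_zero _).symm)))
  have hrbd : g * (φ ^ d * φ' ^ (ℓ + 1)) ^ (n - 1) ∈ bddMF E :=
    mul_mem hgbd (pow_mem (mul_mem (pow_mem hbd d) (pow_mem hbd' _)) _)
  obtain ⟨a, b, k, ha, hb, hab⟩ := exists_scaled_root E (NeZero.pos n) hψ0
    (by rw [← map_pow, hψ]; exact kSer_of_bdd E hrbd)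
  rw [← map_pow, hψ] at hab
  have hk0 : k ≠ 0 := by
    rintro rfl
    rw [map_zero, zero_pow (NeZero.ne n), mul_zero, mul_eq_zero] at hab
    rcases hab with h | h
    · exact hb (E.inj (by simpa using h))
    · rw [← hψ, map_pow] at h
      exact hψ0 (pow_eq_zero_iff (NeZero.ne n) |>.mp h)
  have hfld : algebraMap O (Fld E) b * toFld E ⟨_, hrbd⟩ = algebraMap O (Fld E) a * k ^ n := by
    refine toLS_injective E ?_
    rw [map_mul, map_mul, map_pow, toLS_algebraMap, toLS_algebraMap, toLS_toFld]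
    exact hab
  obtain ⟨oa, hoa⟩ := hasOrd_C E hπ ha
  obtain ⟨ob, hob⟩ := hasOrd_C E hπ hb
  refine ⟨ob - oa, fun δ o ho => ?_⟩
  have hord' : ∀ (φ₀ : MF M) (h : φ₀ ∈ bddMF E), serAlg M (shift M δ φ₀) ≠ 0 →
      ∃ e, HasOrd E π (serAlg M (shift M δ φ₀)) e := fun φ₀ h hne =>
    exists_hasOrd E hπ (toLS_fShift_toFld E δ φ₀ h ▸ toLS_mem E _) hne
  have hne : ∀ {χ₀ : ParG G (ZMod n)} {F₀ : ℍ → ℂ} (h : IsRepG G n χ₀ F₀),
      serAlg M (shift M δ (powMF hG h)) ≠ 0 := fun {χ₀ F₀} h he => by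
    have h1 : shift M δ (powMF hG h) = 0 := serAlg_injective M (he.trans (map_zero _).symm)
    have h2 : powMF hG h = 0 := shift_injective δ (h1.trans (map_zero _).symm)
    exact h.isModFun_pow |> fun _ => h.ne_zero (funext fun τ =>
      pow_eq_zero_iff (NeZero.ne n) |>.mp (congrFun (congrArg Subtype.val h2) τ))
  obtain ⟨o', ho'⟩ := hord' φ' hbd' (hne hF')
  obtain ⟨og, hog⟩ := hord' g hgbd (hne hR)
  have hgord : og = ((ℓ : ℤ) + 1) * o' := by
    refine HasOrd.unique hπ (hog.expand E (NeZero.ne ℓ)) ?_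
    rw [hexp δ]
    have hz' : ∀ b : Fin ℓ, HasOrd E π
        (GalRep.twist (zu ^ (b : ℕ)) (serAlg M (shift M δ φ'))) o' := fun b =>
      ho'.twist E (hzp b) (hzu.pow _)
    convert ((ho'.expand E (NeZero.ne ℓ)).expand E (NeZero.ne ℓ)).mul hπ (HasOrd.prod hπ _ o' hz') using 1
    rw [Fintype.card_fin]; ring
  have hks : toLS E (fShift E δ k) ≠ 0 := by simpa using hk0
  obtain ⟨ok, hok⟩ := exists_hasOrd E hπ (toLS_mem E _) hks
  have h := congrArg (fun x => toLS E (fShift E δ x)) hfld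
  simp only [map_mul, map_pow, fShift_algebraMap, toLS_algebraMap, toLS_fShift_toFld] at h
  have hl := hob.mul hπ (hog.mul hπ (((ho.pow hπ d).mul hπ (ho'.pow hπ (ℓ + 1))).pow hπ (n - 1)))
  rw [h] at hl
  have e := HasOrd.unique hπ hl (hoa.mul hπ (hok.pow hπ n))
  have hn1 : ((n - 1 : ℕ) : ℤ) = (n : ℤ) - 1 := by
    rw [Nat.cast_sub (NeZero.pos n), Nat.cast_one]
  rw [hgord, hn1] at e
  push_cast at e
  refine ⟨(d : ℤ) * o + ((ℓ : ℤ) + 1) * o' - ok, ?_⟩
  linear_combination -e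

end Orders

/-! ## Classes of the lattice -/

variable {A : ValuationSubring (AlgebraicClosure ℚ)} {q m N M p : ℕ} [NeZero M] [NeZero q]
  [NeZero m] [Fact (Nat.Coprime q m)] [Fact p.Prime]
  (hq : q.Prime) (hA : A.LiesOverPrime q) (hMN : M = q * N) (hqN : ¬ q ∣ N)
  [IsDiscreteValuationRing (oBase A M)] {π : oBase A M}

local notation "EE" => embO A M

theorem fixed_pullQ (hK : KummerReduction (q * q * m)) (hG : IsLevel M (midGroup q m))
    {v : Lat (q * q * m) p}
    (hv : ∀ σ ∈ A.inertiaSubgroupIn ℚ, (latDatum (q * q * m) p hK).galois σ v = v)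
    (k : ℕ) [NeZero (p ^ k)] :
    ∀ s ∈ A.inertiaSubgroupIn ℚ,
      galG hG (p ^ k) s (pullQ q m (redPow k v)) = pullQ q m (redPow k v) := by
  haveI : ∀ k, NeZero (p ^ k) := fun k => ⟨pow_ne_zero k (Fact.out : p.Prime).ne_zero⟩
  intro s hs
  rw [galG_congr hG (isLevel_mid q m), pullQ_galG]
  congr 1
  have h := congrArg (redPow k) (hv s hs)
  rw [show (latDatum (q * q * m) p hK).galois s v = latGalois _ (kummerCompat (q * q * m)) s v
    from rfl, redPow_latGalois] at h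
  exact h

set_option maxHeartbeats 1000000 in
include hq hA hMN hqN in
/-- The orders of a fixed class of the lattice. -/
theorem exists_vertical (hπ : Irreducible π)
    (hK : KummerReduction (q * q * m)) (hG : IsLevel M (midGroup q m)) (v : Lat (q * q * m) p)
    (hv : ∀ σ ∈ A.inertiaSubgroupIn ℚ, (latDatum (q * q * m) p hK).galois σ v = v) :
    ∃ r : ℕ, ∀ (k : ℕ) [NeZero (p ^ k)] (F : ℍ → ℂ)
      (hF : IsRepG (midGroup q m) (p ^ k) (pullQ q m (redPow k v)) F),
      powMF hG hF ∈ bddMF EE → ∃ e : ℤ, ∀ (δ : SL(2, ℤ)) (o : ℤ),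
        HasOrd EE π (serAlg M (shift M δ (powMF hG hF))) o →
          (p ^ k : ℤ) ∣ (p ^ r : ℤ) * o - e := by
  haveI : ∀ k, NeZero (p ^ k) := fun k => ⟨pow_ne_zero k (Fact.out : p.Prime).ne_zero⟩
  have hp : p.Prime := Fact.out
  obtain ⟨ℓ, hℓ, hℓgt, hℓ1⟩ := Nat.exists_prime_gt_modEq_one (k := q * q * m * M) (p + q + N)
    (mul_ne_zero (mul_ne_zero (mul_ne_zero (NeZero.ne q) (NeZero.ne q)) (NeZero.ne m)) (NeZero.ne M))
  haveI : NeZero ℓ := ⟨hℓ.ne_zero⟩
  haveI : Fact (1 < ℓ) := ⟨hℓ.one_lt⟩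
  have hℓM : (ℓ : ZMod M) = 1 := by
    rw [← Nat.cast_one, ZMod.natCast_eq_natCast_iff]
    exact hℓ1.of_dvd (dvd_mul_left M _)
  have hℓq : (ℓ : ZMod q) = 1 := by
    rw [← Nat.cast_one, ZMod.natCast_eq_natCast_iff]
    exact hℓ1.of_dvd (dvd_trans ⟨q * m * M, by ring⟩ dvd_rfl)
  have hℓL : ¬ ℓ ∣ q * q * m := fun hd => by
    have h1 := (hℓ1.of_dvd ((dvd_mul_right (q * q * m) M))).of_dvd hd
    have := Nat.ModEq.symm h1
    rw [Nat.ModEq, Nat.mod_self, Nat.one_mod_eq_one.mpr hℓ.one_lt.ne'] at this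
    exact one_ne_zero this
  let l : GoodPrime (q * q * m) := ⟨⟨ℓ, hℓ⟩, hℓL⟩
  -- inverting `T - (ℓ + 1)`
  let P : Module.End ℤ_[p] (Lat (q * q * m) p) :=
    latHecke (q * q * m) p l - ((ℓ + 1 : ℕ) : Module.End ℤ_[p] (Lat (q * q * m) p))
  haveI : IsAddTorsionFree ℤ_[p] :=
    ⟨fun n hn a b hab => mul_left_cancel₀ (Nat.cast_ne_zero.mpr hn : (n : ℤ_[p]) ≠ 0)
      (by simpa [nsmul_eq_mul] using hab)⟩
  have hPinj : Function.Injective P := by
    rw [injective_iff_map_eq_zero]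
    intro w hw
    rw [LinearMap.sub_apply, Module.End.natCast_apply, sub_eq_zero] at hw
    have h0 : toPar w = 0 := eq_zero_of_hecke_fixed l (Subtype.ext (congrArg Subtype.val hw))
    exact Subtype.ext (congrArg Subtype.val h0 : _)
  obtain ⟨c, Q, hc, hQ, hcomm⟩ := exists_scalar_inverse P hPinj
  obtain ⟨u, r, rfl⟩ : ∃ (u : ℤ_[p]ˣ) (r : ℕ), c = (u : ℤ_[p]) * (p : ℤ_[p]) ^ r :=
    ⟨_, _, PadicInt.unitCoeff_spec hc⟩
  let w : Lat (q * q * m) p := ((u⁻¹ : ℤ_[p]ˣ) : ℤ_[p]) • Q v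
  have hw : latHecke (q * q * m) p l w = (p ^ r) • v + (ℓ + 1) • w := by
    have h1 : P w = (p ^ r) • v := by
      rw [map_smul, hQ, smul_smul, ← mul_assoc, Units.inv_mul, one_mul, ← Nat.cast_pow,
        Nat.cast_smul_eq_nsmul]
    rw [LinearMap.sub_apply, Module.End.natCast_apply, sub_eq_iff_eq_add] at h1
    exact h1
  have hwfix : ∀ σ ∈ A.inertiaSubgroupIn ℚ, (latDatum (q * q * m) p hK).galois σ w = w := by
    intro σ hσ
    let D := latDatum (q * q * m) p hK
    have hT : Commute (D.galois σ) P := by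
      have h1 := D.galois_hecke σ (MvPolynomial.X l)
      have e : D.hecke (MvPolynomial.X l) = latHecke (q * q * m) p l := by
        show latHeckePoly (q * q * m) p (MvPolynomial.X l) = _
        exact polyHom_X _ _ _
      rw [e] at h1
      exact h1.sub_right (Nat.commute_cast _ _)
    refine ((D.galois σ).map_smul ((u⁻¹ : ℤ_[p]ˣ) : ℤ_[p]) (Q v)).trans
      (congrArg (fun x => ((u⁻¹ : ℤ_[p]ˣ) : ℤ_[p]) • x) ?_)
    exact (LinearMap.congr_fun (hcomm _ hT).eq v).trans (congrArg Q (hv σ hσ))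
  refine ⟨r, fun k _ F hF hbd => ?_⟩
  obtain ⟨F', hF', f', -, -, -, hf', hser⟩ := exists_fixed_rep (A := A) hG
    (pullQ q m (redPow k w)) (fixed_pullQ hK hG hwfix k)
  have hbd' : powMF hG hF' ∈ bddMF EE := bdd_of_kSer EE (by
    rw [hser]
    exact pow_mem (mem_kSer.mpr fun i => inertiaC_le_K A M (mem_kSer.mp hf' i)) _)
  -- the root of unity of order `ℓ`
  obtain ⟨y, hy⟩ := exists_qbar_zetaC ℓ
  have hqℓ : ¬ q ∣ ℓ := fun hd => by
    have := (Nat.prime_dvd_prime_iff_eq hq hℓ).mp hd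
    omega
  have hyℓ : y ^ ℓ = 1 := qbarToC.injective (by
    rw [map_pow, hy, map_one]; exact Level.zetaC_pow ℓ)
  have hy0 : y ≠ 0 := fun h => by simp [h, zero_pow (NeZero.ne ℓ)] at hyℓ
  have hyA : ∀ j : ℕ, y ^ j ∈ A := fun j => Galois.integralClosure_le A
    ⟨y ^ j, (IsIntegral.of_pow hℓ.pos (hyℓ ▸ isIntegral_one)).pow j⟩
  let zo : oBase A M := (⟨(⟨y, IntermediateField.algebraMap_mem _
      (⟨y, root_mem_inertiaFld A hq hA hqℓ hyℓ⟩ : inertiaFld A)⟩ : oFld A M),
    show y ∈ A from pow_one y ▸ hyA 1⟩ : oBase A M)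
  have hzo : oVal A M zo = y := rfl
  have hzu : IsUnit zo := by
    refine IsUnit.of_pow_eq_one (n := ℓ) (oVal_injective A M ?_) hℓ.ne_zero
    rw [map_pow, hzo, hyℓ, map_one]
  have hzC : (EE).φ zo = Complex.exp (2 * Real.pi * Complex.I / ℓ) := by
    rw [embO_φ, hzo, hy]; rfl
  have hNℓ : Nat.Coprime N ℓ := ((hℓ.coprime_iff_not_dvd).mpr fun hd => by
    have hN0 : N ≠ 0 := fun h => hqN (h ▸ dvd_zero q)
    have := Nat.le_of_dvd (Nat.pos_of_ne_zero hN0) hd
    omega).symm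
  have hT := isTransfer_pullQ (q := q) (m := m) hMN l hNℓ hℓq (redPow k w)
  have hrel : pullQ q m (heckeHomAt l (redPow k w)) =
      (p ^ r) • pullQ q m (redPow k v) + (ℓ + 1) • pullQ q m (redPow k w) := by
    rw [← redPow_latHecke, hw, map_add, map_nsmul, map_nsmul, map_add, map_nsmul, map_nsmul]
  obtain ⟨e, he⟩ := order_congr (ℓ := ℓ) EE hπ hG hℓ hℓM hzu hzC (p ^ r) hT hrel hF hF' hbd hbd'
  exact ⟨e, fun δ o ho => by simpa using he δ o ho⟩

end Fermat.Agent.NewVec
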