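/-
A class of level `q²m` fixed by inertia at `q` whose sums of translates vanish is zero.
-/
import Fermat.Agent.NewVec.Roots
import Fermat.Agent.NewVec.Vertical
import Fermat.Agent.NewVec.Components
import Fermat.Agent.Models.Detect
import Fermat.Agent.Moduli.Interior
import Fermat.Agent.Moduli.InteriorTwo
import Fermat.Agent.Moduli.CuspPoint

set_option autoImplicit false
set_option linter.style.haveILetI false
set_option linter.unusedSectionVars false

noncomputable section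

namespace Fermat.Agent.NewVec

open CongruenceSubgroup IsLocalRing UpperHalfPlane
open Fermat.Agent.GalRep Fermat.Agent.GalRep.Level Fermat.Agent.ModField
open Fermat.Agent.Galois (GQ)
open Fermat.Agent.GalRep.Model (chartRing self_mem_chartRing)
open scoped MatrixGroups Manifold

/-! ## Powers of representatives -/

/-- Elements with the same power differ by a constant. -/
theorem exists_C_of_pow {n : ℕ} (hn : 0 < n) {t : LaurentSeries ℂ} {c : ℂ}
    (ht : t ^ n = HahnSeries.C c) : ∃ κ : ℂ, t = HahnSeries.C κ := by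
  classical
  let P : Polynomial ℂ := Polynomial.X ^ n - Polynomial.C c
  have hP : P.Monic := Polynomial.monic_X_pow_sub_C c hn.ne'
  have h : P.eval₂ (HahnSeries.C : ℂ →+* LaurentSeries ℂ) t = 0 := by
    simp [P, ht]
  rw [(IsAlgClosed.splits P).eq_prod_roots_of_monic hP, Polynomial.eval₂_multiset_prod,
    Multiset.prod_eq_zero_iff, Multiset.mem_map] at h
  obtain ⟨y, hy, hy0⟩ := h
  rw [Multiset.mem_map] at hy
  obtain ⟨κ, -, rfl⟩ := hy
  rw [Polynomial.eval₂_sub, Polynomial.eval₂_X, Polynomial.eval₂_C, sub_eq_zero] at hy0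
  exact ⟨κ, hy0⟩

section Powers

variable {O : Type} [CommRing O] [IsDomain O] {M : ℕ} [NeZero M] {E : Emb O M}

/-- A root of a power of a representative makes the class killed on the level subgroup. -/
theorem nsmul_apply_eq_zero {G : Subgroup SL(2, ℤ)} (hG : IsLevel M G) {n : ℕ} [NeZero n]
    {χ : ParG G (ZMod n)} {F : ℍ → ℂ} (hF : IsRepG G n χ F) {f : LaurentSeries ℂ}
    (hfs : HasQSeries M F f) (hf0 : f ≠ 0) (hser : serAlg M (powMF hG hF) = f ^ n)
    (hbd : powMF hG hF ∈ bddMF E) {C : ℕ} {c : O} {h : Fld E} (hh0 : h ≠ 0)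
    (he : h ^ n = algebraMap O (Fld E) c * toFld E ⟨powMF hG hF, hbd⟩ ^ C)
    (γ : G) (hγ : (γ : SL(2, ℤ)) ∈ Gamma M) :
    C • (χ : Additive G →+ ZMod n) (Additive.ofMul γ) = 0 := by
  obtain ⟨a, b, hb, rfl⟩ := exists_eq_div E h
  have h1 := congrArg (toLS E) he
  rw [map_pow, map_div₀, map_mul, map_pow, toLS_algebraMap, toLS_toFld, toLS_toFld, toLS_toFld,
    hser] at h1
  have hbne : serAlg M (b : MF M) ≠ 0 := fun h => hb (Subtype.ext
    (serAlg_injective M (h.trans (map_zero _).symm)))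
  have hfC : f ^ C ≠ 0 := pow_ne_zero _ hf0
  obtain ⟨κ, hκ⟩ := exists_C_of_pow (NeZero.pos n)
    (t := serAlg M (a : MF M) / serAlg M (b : MF M) / f ^ C) (c := E.φ c) (by
      rw [div_pow _ (f ^ C), h1, ← pow_mul, ← pow_mul, mul_comm n C, mul_div_cancel_right₀]
      exact pow_ne_zero _ hf0)
  have hκ0 : κ ≠ 0 := by
    rintro rfl
    rw [map_zero, div_eq_zero_iff, div_eq_zero_iff] at hκ
    have ha : (a : MF M) ≠ 0 := fun h0 => hh0 (by
      rw [show a = 0 from Subtype.ext h0, map_zero, zero_div])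
    rcases hκ with (h0 | h0) | h0
    · exact ha (serAlg_injective M (h0.trans (map_zero _).symm))
    · exact hbne h0
    · exact hfC h0
  have hsa : serAlg M (a : MF M) = HahnSeries.C κ * (serAlg M (b : MF M) * f ^ C) := by
    rw [div_div, div_eq_iff (mul_ne_zero hbne hfC)] at hκ
    exact hκ
  -- the functions
  have hfun : ((a : MF M) : ℍ → ℂ) = fun τ => κ * (((b : MF M) : ℍ → ℂ) * F ^ C) τ := by
    refine eq_of_hasQSeries (a : MF M).2.holo
      (mdifferentiable_const.mul ((b : MF M).2.holo.mul (hF.holo.pow C))) ?_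
      (((hasQSeries_serHom (b : MF M)).mul (hfs.pow C)).smul κ)
    rw [show HahnSeries.C κ * (serHom M (b : MF M) * f ^ C) = serHom M (a : MF M) from hsa.symm]
    exact hasQSeries_serHom (a : MF M)
  obtain ⟨τ, hτ⟩ : ∃ τ, ((b : MF M) : ℍ → ℂ) τ * F τ ^ C ≠ 0 := by
    by_contra hall
    push Not at hall
    rcases Hecke.eq_zero_or_eq_zero_of_holo_mul (b : MF M).2.holo (hF.holo.pow C)
      (funext hall) with h0 | h0
    · exact hbne (by rw [show (b : MF M) = 0 from Subtype.ext h0, map_zero])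
    · exact hF.ne_zero (funext fun τ => by
        rcases Nat.eq_zero_or_pos C with rfl | hC
        · simpa using congrFun h0 τ
        · exact (pow_eq_zero_iff hC.ne').mp (congrFun h0 τ))
  have ha' := (a : MF M).2.invariant _ hγ τ
  have hb' := (b : MF M).2.invariant _ hγ τ
  rw [hfun] at ha'
  simp only [Pi.mul_apply, Pi.pow_apply, hb'] at ha'
  rw [hF.equivariant, mul_pow] at ha'
  have h2 : (ZMod.stdAddChar ((χ : Additive G →+ ZMod n) (Additive.ofMul γ)) : ℂ) ^ C = 1 := by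
    refine mul_right_cancel₀ (mul_ne_zero hκ0 hτ) ?_
    linear_combination ha'
  rw [← AddChar.map_nsmul_eq_pow, ← AddChar.map_zero_eq_one (ZMod.stdAddChar (N := n))] at h2
  exact ZMod.injective_stdAddChar h2

end Powers

/-! ## The pullback is injective -/

/-- A homomorphism vanishing on the pullbacks from a congruence subgroup vanishes. -/
theorem eq_zero_of_pullHom {q m p : ℕ} [NeZero q] [NeZero m] [Fact (Nat.Coprime q m)]
    [Fact p.Prime] (M : ℕ) [NeZero M]
    (v : Lat (q * q * m) p)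
    (h : ∀ γ : midGroup q m, (γ : SL(2, ℤ)) ∈ Gamma M →
      (v : Additive (Gamma0 (q * q * m)) →+ ℤ_[p]) (Additive.ofMul (pullHom q m γ)) = 0) :
    v = 0 := by
  classical
  refine Subtype.ext (AddMonoidHom.ext fun z => ?_)
  obtain ⟨x, rfl⟩ := Additive.ofMul.surjective z
  set K := M * q * (q * q * m) with hK
  haveI : NeZero K := ⟨mul_ne_zero (mul_ne_zero (NeZero.ne M) (NeZero.ne q))
    (mul_ne_zero (mul_ne_zero (NeZero.ne q) (NeZero.ne q)) (NeZero.ne m))⟩
  set i := orderOf (red K (x : SL(2, ℤ))) with hi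
  have hi0 : 0 < i := orderOf_pos _
  have hy : red K ((x ^ i : Gamma0 (q * q * m)) : SL(2, ℤ)) = 1 := by
    rw [SubgroupClass.coe_pow, map_pow, pow_orderOf_eq_one]
  set y : SL(2, ℤ) := ((x ^ i : Gamma0 (q * q * m)) : SL(2, ℤ)) with hydef
  have hd : ∀ (a b : Fin 2), (K : ℤ) ∣ y a b - (1 : Matrix (Fin 2) (Fin 2) ℤ) a b := fun a b => by
    have h1 := congrArg (fun s : SL(2, ZMod K) => s a b) hy
    simp only [red_apply, Matrix.SpecialLinearGroup.coe_one] at h1
    rw [← ZMod.intCast_zmod_eq_zero_iff_dvd]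
    push_cast
    rw [h1]
    fin_cases a <;> fin_cases b <;> simp
  have h00 : (K : ℤ) ∣ y 0 0 - 1 := by simpa using hd 0 0
  have h01 : (K : ℤ) ∣ y 0 1 := by simpa using hd 0 1
  have h10 : (K : ℤ) ∣ y 1 0 := by simpa using hd 1 0
  have h11 : (K : ℤ) ∣ y 1 1 - 1 := by simpa using hd 1 1
  obtain ⟨c, hc⟩ := h10
  set c' : ℤ := (M : ℤ) * ((q * q * m : ℕ) : ℤ) * c with hc'
  have hyc : y 1 0 = q * c' := by rw [hc, hc', hK]; push_cast; ring
  have hdet : y 0 0 * y 1 1 - y 0 1 * y 1 0 = 1 := by rw [← Matrix.det_fin_two]; exact y.2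
  let γ₀ : SL(2, ℤ) := ⟨!![y 0 0, q * y 0 1; c', y 1 1], by
    rw [Matrix.det_fin_two_of]; linear_combination hdet + (y 0 1) * hyc⟩
  have hval : ∀ (d : ℕ) (a : ℤ), d ∣ K → (K : ℤ) ∣ a → (a : ZMod d) = 0 := fun d a hdK ha =>
    (ZMod.intCast_zmod_eq_zero_iff_dvd _ _).mpr ((Int.natCast_dvd_natCast.mpr hdK).trans ha)
  have hval1 : ∀ (d : ℕ) (a : ℤ), d ∣ K → (K : ℤ) ∣ a - 1 → (a : ZMod d) = 1 := fun d a hdK ha => by
    have := hval d _ hdK ha
    rwa [Int.cast_sub, Int.cast_one, sub_eq_zero] at this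
  have hGamma : ∀ d : ℕ, d ∣ K → d ∣ M * (q * q * m) → γ₀ ∈ Gamma d := fun d hdK hdc => by
    rw [Gamma_mem]
    refine ⟨hval1 d _ hdK h00, ?_, ?_, hval1 d _ hdK h11⟩
    · show ((q * y 0 1 : ℤ) : ZMod d) = 0
      exact hval d _ hdK (h01.mul_left _)
    · show ((c' : ℤ) : ZMod d) = 0
      refine (ZMod.intCast_zmod_eq_zero_iff_dvd _ _).mpr ((Int.natCast_dvd_natCast.mpr hdc).trans ?_)
      rw [hc']; push_cast; exact dvd_mul_right _ _
  have hmid : γ₀ ∈ midGroup q m := by
    refine ⟨hGamma q ⟨M * (q * q * m), by rw [hK]; ring⟩ ⟨M * q * m, by ring⟩, ?_⟩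
    have h := hGamma m (hK ▸ dvd_mul_of_dvd_right (dvd_mul_left _ _) _)
      (dvd_mul_of_dvd_right (dvd_mul_left _ _) _)
    rw [Gamma_mem] at h
    exact Gamma0_mem.mpr h.2.2.1
  have hM : γ₀ ∈ Gamma M := hGamma M (hK ▸ dvd_mul_of_dvd_left (dvd_mul_right _ _) _)
    (dvd_mul_right _ _)
  have hpull : pullHom q m ⟨γ₀, hmid⟩ = x ^ i := by
    refine Subtype.ext (mul_qMat_cancel q ((pullHom_spec q m ⟨γ₀, hmid⟩).symm.trans ?_))
    show qMat q * (γ₀ : Matrix (Fin 2) (Fin 2) ℤ) = (y : Matrix (Fin 2) (Fin 2) ℤ) * qMat q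
    ext a b
    fin_cases a <;> fin_cases b <;>
      simp [γ₀, qMat, Matrix.mul_apply, Fin.sum_univ_two, hyc] <;> ring
  have h0 := h ⟨γ₀, hmid⟩ hM
  rw [hpull, ofMul_pow, map_nsmul, nsmul_eq_mul] at h0
  exact (mul_eq_zero.mp h0).resolve_left (Nat.cast_ne_zero.mpr hi0.ne')

/-! ## The vanishing -/

variable {A : ValuationSubring (AlgebraicClosure ℚ)} {q m N M p : ℕ} [NeZero M] [NeZero q]
  [NeZero m] [Fact (Nat.Coprime q m)] [Fact p.Prime]
  (hq : q.Prime) (hA : A.LiesOverPrime q) (hMN : M = q * N) (hqN : ¬ q ∣ N)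

local notation "EE" => embO A M

/-- Reduction commutes with the pullback and the translates. -/
theorem sum_act_redPow {v : Lat (q * q * m) p}
    (hvan : ∀ g : SL(2, ZMod q), ∑ w : ZMod q, ∑ a : (ZMod q)ˣ,
      act q m (Level.conjA a g * unip q w) (pullQ q m (toPar v)) = 0)
    (k : ℕ) (g : SL(2, ZMod q)) : ∑ w : ZMod q, ∑ a : (ZMod q)ˣ,
      act q m (Level.conjA a g * unip q w) (pullQ q m (redPow k v)) = 0 := by
  refine Subtype.ext (AddMonoidHom.ext fun z => ?_)
  have h := congrArg (fun χ : ParG (midGroup q m) ℤ_[p] =>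
    PadicInt.toZModPow k ((χ : Additive (midGroup q m) →+ ℤ_[p]) z)) (hvan g)
  simp only [AddSubmonoidClass.coe_finsetSum, AddMonoidHom.finsetSum_apply, map_sum,
    ZeroMemClass.coe_zero, AddMonoidHom.zero_apply, map_zero] at h ⊢
  exact h

variable [IsDiscreteValuationRing (oBase A M)] {π : oBase A M}

theorem chartFibre (hπ : Irreducible π) [IsAlgClosed (ResidueField (oBase A M))] :
    Models.ChartFibre (ModField.model EE).B₀ π (fun P : comps hπ => P.1) ∧
      Models.ChartFibre (ModField.model EE).B₁ π (fun P : comps hπ => P.1) := by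
  have key : ∀ (w : Fld EE), IsNoetherianRing (chartRing (oBase A M) w) →
      (∀ g, fShift EE g w = w) →
      (∀ δ, ∀ x ∈ chartRing (oBase A M) w, x ∈ gaussP EE hπ δ) →
      (∀ P : Polynomial (oBase A M), serF EE (Polynomial.aeval w P) ∈ (gaussRing hπ).nonunits →
        Polynomial.C π ∣ P) →
      (∀ x ∈ chartRing (oBase A M) w, (∀ g, x ∈ (gaussP EE hπ g).nonunits) →
        ∃ e ∈ chartRing (oBase A M) w, x = π • e) →
      Models.ChartFibre (chartRing (oBase A M) w) π (fun P : comps hπ => P.1) :=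
    fun w hnoe hw hle hcentre hred =>
    { le := fun i b hb => by rw [cuspOf_spec hπ i]; exact hle _ b hb
      noetherian := hnoe
      reduced := fun b hb hall => hred b hb fun g => hall ⟨_, g, rfl⟩
      maximal_above := fun i n hn hall hex => by
        obtain ⟨b, hb, hbP⟩ := hex
        haveI := hn
        haveI : (gaussIdeal EE hπ (cuspOf hπ i) w (hle _)).IsPrime := Ideal.IsPrime.comap _
        refine isMaximal_above hπ w (gaussIdeal EE hπ (cuspOf hπ i) w (hle _)) n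
          (comap_gaussIdeal EE hπ _ w (hle _) hw hcentre) (fun x hx => hall x ?_) hb fun hx => hbP ?_
        · rw [cuspOf_spec hπ i]; exact (mem_gaussIdeal EE hπ _ w (hle _)).mp hx
        · rw [cuspOf_spec hπ i]; exact (mem_gaussIdeal EE hπ _ w (hle _)).mp hx
      residue := fun n hn hπn b => by
        haveI := hn
        exact residue_chartRing hπ w n hπn b }
  exact ⟨key _ (isNoetherianRing_B₀ EE) (fShift_jF EE) (fun δ => (chart_le_gaussP EE hπ δ).1)
      (centre_jF EE hπ) (fun x hx h => (reduced_model EE hπ h).1 hx),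
    key _ (isNoetherianRing_B₁ EE) (fun g => by rw [map_inv₀, fShift_jF])
      (fun δ => (chart_le_gaussP EE hπ δ).2) (centre_inv_jF EE hπ)
      (fun x hx h => (reduced_model EE hπ h).2 hx)⟩

set_option maxHeartbeats 2000000 in
open scoped Classical in
include hq hA hMN hqN in
/-- Inertia-fixed with vanishing sums of translates is zero, given the regularity at level `M`. -/
theorem eq_zero_of_regular (hπ : Irreducible π) (hqp : q ≠ p) (hmN : m ∣ N)
    [IsAlgClosed (ResidueField (oBase A M))]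
    (hK : KummerReduction (q * q * m)) (v : Lat (q * q * m) p)
    (hv : ∀ σ ∈ A.inertiaSubgroupIn ℚ, (latDatum (q * q * m) p hK).galois σ v = v)
    (hvan : ∀ g : SL(2, ZMod q), ∑ w : ZMod q, ∑ a : (ZMod q)ˣ,
      act q m (Level.conjA a g * unip q w) (pullQ q m (toPar v)) = 0)
    (hreg₀ : ∀ n : Ideal (chartRing (oBase A M) (jF EE)), n.IsMaximal →
      algebraMap (oBase A M) (chartRing (oBase A M) (jF EE)) π ∈ n →
      ∃ x y, x ∈ n ∧ y ∈ n ∧ ∀ z ∈ n, ∃ s ∉ n, s * z ∈ Ideal.span {x, y})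
    (hreg₁ : ∀ n : Ideal (chartRing (oBase A M) (jF EE)⁻¹), n.IsMaximal →
      algebraMap (oBase A M) (chartRing (oBase A M) (jF EE)⁻¹) π ∈ n →
      (⟨(jF EE)⁻¹, self_mem_chartRing _⟩ : chartRing (oBase A M) (jF EE)⁻¹) ∈ n →
      ∃ x y, x ∈ n ∧ y ∈ n ∧ ∀ z ∈ n, ∃ s ∉ n, s * z ∈ Ideal.span {x, y}) :
    v = 0 := by
  have hp : p.Prime := Fact.out
  haveI hpk : ∀ k, NeZero (p ^ k) := fun k => ⟨pow_ne_zero k hp.ne_zero⟩
  have hG : IsLevel M (midGroup q m) :=
    ((isLevel_gamma q).of_dvd (hMN ▸ dvd_mul_right q N)).inf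
      ((isLevel_gamma0 m).of_dvd (hMN ▸ hmN.mul_left q))
  haveI := finite_symG hq hA hMN hqN
  haveI : Finite (comps hπ) := finite_comps hπ
  letI : Fintype (comps hπ) := Fintype.ofFinite _
  haveI : Nonempty (comps hπ) := ⟨⟨gaussP EE hπ 1, 1, rfl⟩⟩
  have hinj := algebraMap_injective EE
  have hS := symmetry hq hA hMN hqN hπ
  have hd : 0 < q * (q - 1) := Nat.mul_pos hq.pos (by have := hq.two_le; omega)
  obtain ⟨D, hD, hexp⟩ := Models.exists_exponent_root (ModField.model EE) π hπ hinj q hq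
    (natCast_mem_maximal hq hA hMN hqN) (fun P : comps hπ => P.1) (chartFibre hπ).1 (chartFibre hπ).2
    (symG hq hA hMN hqN) (fixH hq hA hMN hqN hπ) hd hS
  obtain ⟨r, hr⟩ := exists_vertical hq hA hMN hqN hπ hK hG v hv
  refine eq_zero_of_pullHom M v fun γ hγ => ?_
  set C := p ^ r * (6 * M) * D with hCdef
  have hC : C ≠ 0 := mul_ne_zero (mul_ne_zero (pow_ne_zero _ hp.ne_zero)
    (mul_ne_zero (by norm_num) (NeZero.ne M))) hD.ne'
  have key : ∀ k : ℕ, C • PadicInt.toZModPow k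
      ((v : Additive (Gamma0 (q * q * m)) →+ ℤ_[p]) (Additive.ofMul (pullHom q m γ))) = 0 := by
    intro k
    obtain ⟨F, hF, f, -, hfs, hf0, hfK, hser⟩ :=
      exists_fixed_rep (A := A) hG (pullQ q m (redPow k v)) (fixed_pullQ hK hG hv k)
    have hbd : powMF hG hF ∈ bddMF EE := bdd_of_kSer EE (by
      rw [hser]
      exact pow_mem (mem_kSer.mpr fun i => inertiaC_le_K A M (mem_kSer.mp hfK i)) _)
    obtain ⟨e, he⟩ := hr k F hF hbd
    obtain ⟨f₁, hf₁⟩ : ∃ x, x = toFld EE ⟨powMF hG hF, hbd⟩ := ⟨_, rfl⟩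
    have hod₁ : OrdDvd EE (p ^ k) f₁ := by rw [hf₁]; exact OrdDvd.of_rep hG hF hbd
    obtain ⟨j, hje⟩ : ∃ j : ℕ, ((p ^ k : ℕ) : ℤ) ∣ (j : ℤ) + e := by
      refine ⟨((-e) % ((p ^ k : ℕ) : ℤ)).toNat, ?_⟩
      rw [Int.toNat_of_nonneg (Int.emod_nonneg _ (by exact_mod_cast (hpk k).out)), Int.emod_def]
      exact ⟨-((-e) / ((p ^ k : ℕ) : ℤ)), by ring⟩
    obtain ⟨f₂, hf₂⟩ : ∃ x, x = algebraMap (oBase A M) (Fld EE) (π ^ j) * f₁ ^ (p ^ r) := ⟨_, rfl⟩
    have hπj : π ^ j ≠ 0 := pow_ne_zero _ hπ.ne_zero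
    have hod : OrdDvd EE (p ^ k) f₂ := by rw [hf₂]; exact (hod₁.pow _).const_mul hπj
    have hgauss : ∀ (g : SL(2, ℤ)) (o : ℤ), HasOrd EE π (toLS EE (fShift EE g f₂)) o →
        ((p ^ k : ℕ) : ℤ) ∣ o := fun g o ho => by
      obtain ⟨o₁, ho₁⟩ := exists_hasOrd EE hπ (toLS_mem EE (fShift EE g f₁))
        ((map_ne_zero (toLS EE)).mpr ((map_ne_zero (fShift EE g)).mpr hod₁.ne_zero))
      have h1 := ho₁
      rw [hf₁, toLS_fShift_toFld] at h1
      have h2 := he g o₁ h1
      have h3 : HasOrd EE π (toLS EE (fShift EE g f₂)) ((j : ℤ) + (p ^ r : ℕ) * o₁) := by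
        rw [hf₂, map_mul, map_mul, map_pow (fShift EE g), map_pow (toLS EE), fShift_algebraMap,
          toLS_algebraMap, map_pow]
        exact (hasOrd_pi EE hπ j).mul hπ (ho₁.pow hπ _)
      rw [HasOrd.unique hπ ho h3]
      push_cast at hje ⊢
      rw [show (j : ℤ) + (p : ℤ) ^ r * o₁ = ((p : ℤ) ^ r * o₁ - e) + ((j : ℤ) + e) by ring]
      exact dvd_add h2 hje
    obtain ⟨hr₀, hr₁⟩ := hasRootAt_all EE hπ (NeZero.pos (p ^ k)) hod hgauss hreg₀ hreg₁
    have hnu : IsUnit ((p ^ k : ℕ) : oBase A M) := by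
      rw [Nat.cast_pow]
      refine IsUnit.pow _ (notMem_maximalIdeal.mp fun hpm => ?_)
      obtain ⟨a, b, hab⟩ : ∃ a b : ℤ, a * p + b * q = 1 :=
        (Nat.coprime_primes hp hq).mpr (Ne.symm hqp) |>.isCoprime
      have h1 : (1 : oBase A M) ∈ maximalIdeal (oBase A M) := by
        have e1 := congrArg (Int.cast : ℤ → oBase A M) hab
        push_cast at e1
        rw [← e1]
        exact add_mem (Ideal.mul_mem_left _ _ hpm)
          (Ideal.mul_mem_left _ _ (natCast_mem_maximal hq hA hMN hqN))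
      exact (maximalIdeal.isMaximal _).ne_top ((Ideal.eq_top_iff_one _).mpr h1)
    have hm0 : ∀ (m' : Ideal (ModField.model EE).B₀), m'.IsMaximal → m' ≠ ⊥ := fun m' hm' =>
      @ne_bot_of_isMaximal _ _ _ _ _ _ EE (jF EE) m' hm' (aeval_jF_injective EE)
    have hfix : ∀ a, conjTor hq hA hMN hqN a (toFld EE ⟨powMF hG hF, hbd⟩) =
        toFld EE ⟨powMF hG hF, hbd⟩ := fun a =>
      conjTor_eq_self hq hA hMN hqN (by rw [toLS_toFld, hser]; exact pow_mem hfK _) a
    obtain ⟨c, h, hc0, hh0, hh⟩ := hexp (p ^ k) (NeZero.pos (p ^ k)) hnu (f₂ ^ (6 * M))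
      (pow_ne_zero _ hod.ne_zero) (fun m' hm' => hr₀ m' hm'.isPrime (hm0 m' hm')) hr₁
      fun σ hσ P => by
      obtain ⟨a, b, k', ha, hb, hab⟩ := exists_norm_root hq hA hMN hqN hπ hmN hG hF hbd hfix
        (fun g => sum_act_redPow hvan k g) σ hσ P
      rw [← hf₁] at hab
      -- translates of constants
      have hcst : ∀ h : RingAut (Fld EE), ∃ c' : oBase A M,
          h ∈ fixH hq hA hMN hqN hπ P →
            h (σ (algebraMap (oBase A M) (Fld EE) (π ^ j) ^ (6 * M))) =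
              algebraMap (oBase A M) (Fld EE) c' := fun h => by
        by_cases hh : h ∈ fixH hq hA hMN hqN hπ P
        · obtain ⟨c', hc', -⟩ := symG_const hq hA hMN hqN
            (mul_mem (hS.mem P h hh) hσ : h * σ ∈ symG hq hA hMN hqN) ((π ^ j) ^ (6 * M))
          exact ⟨c', fun _ => by rw [← map_pow]; exact hc'⟩
        · exact ⟨1, fun h' => absurd h' hh⟩
      choose cc hcc using hcst
      refine ⟨(∏ h ∈ fixH hq hA hMN hqN hπ P, cc h) * a ^ (p ^ r * (6 * M)),
        b ^ (p ^ r * (6 * M)), k' ^ (p ^ r * (6 * M)),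
        mul_ne_zero (Finset.prod_ne_zero_iff.mpr fun h hh h0 => ?_) (pow_ne_zero _ ha),
        pow_ne_zero _ hb, ?_⟩
      · have h1 := hcc h hh
        rw [h0, map_zero, map_eq_zero, map_eq_zero, pow_eq_zero_iff', map_eq_zero_iff _ hinj] at h1
        exact hπj h1.1
      · have hsplit : ∀ h ∈ fixH hq hA hMN hqN hπ P, h (σ (f₂ ^ (6 * M))) =
            algebraMap (oBase A M) (Fld EE) (cc h) * (h (σ f₁)) ^ (p ^ r * (6 * M)) := fun h hh => by
          rw [← hcc h hh, hf₂, mul_pow, ← pow_mul, map_mul, map_mul, map_pow σ f₁, map_pow h (σ f₁)]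
        rw [Finset.prod_congr rfl hsplit, Finset.prod_mul_distrib, Finset.prod_pow, ← map_prod,
          map_mul, map_pow, map_pow]
        rw [mul_left_comm, ← mul_pow, hab]
        ring
    have h4 : h ^ (p ^ k) =
        algebraMap (oBase A M) (Fld EE) (c * (π ^ j) ^ (6 * M * D)) * f₁ ^ C := by
      rw [hh, hf₂, map_mul, map_pow _ (π ^ j) (6 * M * D), hCdef]
      ring
    rw [hf₁] at h4
    have h5 := nsmul_apply_eq_zero hG hF hfs hf0 hser hbd hh0 h4 γ hγ
    rwa [pullQ_apply, redPow_apply] at h5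
  have h6 : (C : ℤ_[p]) * (v : Additive (Gamma0 (q * q * m)) →+ ℤ_[p])
      (Additive.ofMul (pullHom q m γ)) = 0 := by
    refine PadicInt.ext_of_toZModPow.mp fun k => ?_
    rw [map_mul, map_natCast, map_zero, ← nsmul_eq_mul]
    exact key k
  exact (mul_eq_zero.mp h6).resolve_left (Nat.cast_ne_zero.mpr hC)

omit [NeZero M] [IsDiscreteValuationRing (oBase A M)] in
include hq hA in
/-- Inertia-fixed classes with vanishing sums of translates are zero. -/
theorem eq_zero_of_fixed_of_sum_zero (hqp : q ≠ p) (hqm : ¬ q ∣ m)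
    (hK : KummerReduction (q * q * m)) (v : Lat (q * q * m) p)
    (hv : ∀ σ ∈ A.inertiaSubgroupIn ℚ, (latDatum (q * q * m) p hK).galois σ v = v)
    (hvan : ∀ g : SL(2, ZMod q), ∑ w : ZMod q, ∑ a : (ZMod q)ˣ,
      act q m (Level.conjA a g * unip q w) (pullQ q m (toPar v)) = 0) :
    v = 0 := by
  obtain ⟨hW, hWmax, hWac⟩ := wBase_props A hq hA
  haveI := hW
  haveI := hWac
  have hm0 := NeZero.pos m
  -- an auxiliary level
  rcases hq.eq_two_or_odd' with h2 | ⟨k, hk⟩
  · subst h2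
    have hmodd : Odd m := Nat.odd_iff.mpr (by omega)
    have hN : ¬ 2 ∣ 3 * m := fun h => by omega
    haveI : NeZero (2 * (3 * m)) := ⟨by positivity⟩
    obtain ⟨hO, hOmax, hπ⟩ := oBase_dvr (M := 2 * (3 * m)) hq hA rfl hN
    haveI := hO
    haveI := isAlgClosed_oBase (M := 2 * (3 * m)) hq hA hN
    have h2π : piO hq hA (M := 2 * (3 * m)) rfl hN ∣ (2 : oBase A (2 * (3 * m))) := by
      rw [← Ideal.mem_span_singleton, ← hOmax]
      simpa using natCast_mem_maximal (M := 2 * (3 * m)) hq hA rfl hN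
    refine eq_zero_of_regular hq hA rfl hN hπ hqp (dvd_mul_left m 3) hK v hv hvan
      (fun n hn hπn => ?_)
      fun n hn hπn hwn => ?_
    · haveI := hn
      refine Moduli.exists_regular_finite_two (embO A _) (n := 3 * m) (by simpa using hWmax)
        (adjoin_eq_top hq hA rfl hN) (exists_wBase_pow hq hA rfl hN)
        ((show Odd 3 by decide).mul hmodd) (dvd_mul_right 3 m) rfl n ?_
      obtain ⟨s, hs⟩ := h2π
      have e : (2 : chartRing (oBase A (2 * (3 * m))) (jF (embO A (2 * (3 * m))))) =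
          algebraMap _ _ (2 : oBase A (2 * (3 * m))) := (map_ofNat _ 2).symm
      rw [e, hs, map_mul]
      exact Ideal.mul_mem_right _ _ hπn
    · haveI := hn
      refine CuspPt.regularPoint_cusp (q := 2) (m := 3 * m) (embO A _) ⟨hq, rfl, hN, by omega, ?_⟩
        hπ n hπn hwn
      exact natCast_mem_maximal hq hA rfl hN
  · obtain ⟨r, hr3, hrodd, hqr⟩ : ∃ r : ℕ, 3 ≤ r ∧ Odd r ∧ ¬ q ∣ r := by
      by_cases h3 : q = 3
      · exact ⟨5, by norm_num, by decide, by subst h3; decide⟩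
      · exact ⟨3, le_rfl, by decide, fun h => h3 ((Nat.prime_dvd_prime_iff_eq hq Nat.prime_three).mp h)⟩
    obtain ⟨t, m', ⟨i, hi⟩, hm⟩ := Nat.exists_eq_two_pow_mul_odd (NeZero.ne m)
    obtain ⟨j, hj⟩ : Odd (m' * r) := (Odd.mul ⟨i, hi⟩ hrodd)
    have hj0 : 0 < j := by
      have : 3 ≤ m' * r := le_trans hr3 (Nat.le_mul_of_pos_left r (by omega))
      omega
    have hqj : ¬ q ∣ 2 * j + 1 := by
      rw [← hj]
      exact fun h => ((Nat.Prime.dvd_mul hq).mp h).elim
        (fun h => hqm (hm ▸ h.mul_left _)) hqr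
    set N := 2 ^ (t + 2) * (m' * r) with hNdef
    have hN : ¬ q ∣ N := fun h => by
      rcases (Nat.Prime.dvd_mul hq).mp h with h | h
      · have := (Nat.prime_dvd_prime_iff_eq hq Nat.prime_two).mp (hq.dvd_of_dvd_pow h)
        omega
      · exact hqj (hj ▸ h)
    have hmN : m ∣ N := ⟨4 * r, by rw [hNdef, hm, pow_add]; ring⟩
    have hN3 : 3 ≤ N := le_trans (by omega : 3 ≤ m' * r) (Nat.le_mul_of_pos_left _ (by positivity))
    haveI : NeZero (q * N) := ⟨mul_ne_zero hq.ne_zero (by omega)⟩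
    obtain ⟨hO, hOmax, hπ⟩ := oBase_dvr (M := q * N) hq hA rfl hN
    haveI := hO
    haveI := isAlgClosed_oBase (M := q * N) hq hA hN
    have hqπ : piO hq hA (M := q * N) rfl hN ∣ (q : oBase A (q * N)) := by
      rw [← Ideal.mem_span_singleton, ← hOmax]
      exact natCast_mem_maximal hq hA rfl hN
    refine eq_zero_of_regular hq hA rfl hN hπ hqp hmN hK v hv hvan (fun n hn hπn => ?_)
      fun n hn hπn hwn => ?_
    · haveI := hn
      refine Moduli.exists_regular_finite (embO A _) (a := t + 2) (j := j) hq (k := k) hk hWmax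
        (adjoin_eq_top hq hA rfl hN) (exists_wBase_pow hq hA rfl hN) (by omega) hj0 hqj
        (by rw [hNdef, hj]; ring) n ?_
      obtain ⟨s, hs⟩ := hqπ
      rw [← map_natCast (algebraMap (oBase A (q * N)) _), hs, map_mul]
      exact Ideal.mul_mem_right _ _ hπn
    · haveI := hn
      exact CuspPt.regularPoint_cusp (q := q) (m := N) (embO A _)
        ⟨hq, rfl, hN, hN3, natCast_mem_maximal hq hA rfl hN⟩ hπ n hπn hwn

end Fermat.Agent.NewVec
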