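/-
A newform's eigen-system does not occur at a proper divisor of the level, over `ℂ`.
-/
import Fermat.Agent.Newform.Independence
import Fermat.Agent.Newform.Character
import Fermat.Agent.Hecke.IntegralBasis
import Fermat.Agent.GalRep.KummerGalois

set_option autoImplicit false
set_option linter.style.haveILetI false

noncomputable section

namespace Fermat.Agent.NewVec

open CongruenceSubgroup ModularFormClass
open Fermat.Agent.GalRep
open Fermat.Agent.Galois (GQ)

/-- Two maps to `ℚ̄` with the same kernel differ by an automorphism. -/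
theorem exists_galois_conj {T : Type} [CommRing T] (h h' : T →+* AlgebraicClosure ℚ)
    (hker : RingHom.ker h' = RingHom.ker h) : ∃ s : GQ, ∀ t, s (h t) = h' t := by
  let P := RingHom.ker h
  haveI : P.IsPrime := RingHom.ker_isPrime h
  let D := T ⧸ P
  let j : D →+* AlgebraicClosure ℚ := Ideal.Quotient.lift P h fun a ha => ha
  let j' : D →+* AlgebraicClosure ℚ := Ideal.Quotient.lift P h' fun a ha => by
    rw [← RingHom.mem_ker, hker]; exact ha
  have hj : Function.Injective j := by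
    rw [injective_iff_map_eq_zero]
    intro x hx
    obtain ⟨a, rfl⟩ := Ideal.Quotient.mk_surjective x
    exact Ideal.Quotient.eq_zero_iff_mem.mpr hx
  have hj' : Function.Injective j' := by
    rw [injective_iff_map_eq_zero]
    intro x hx
    obtain ⟨a, rfl⟩ := Ideal.Quotient.mk_surjective x
    refine Ideal.Quotient.eq_zero_iff_mem.mpr ?_
    show a ∈ RingHom.ker h
    rw [← hker]
    exact hx
  haveI : CharZero D := by
    refine charZero_of_inj_zero fun n hn => ?_
    have := congrArg j hn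
    rwa [map_natCast, map_zero, Nat.cast_eq_zero] at this
  haveI : IsDomain D := Ideal.Quotient.isDomain P
  let F := FractionRing D
  haveI : CharZero F := charZero_of_injective_algebraMap (IsFractionRing.injective D F)
  let J : F →ₐ[ℚ] AlgebraicClosure ℚ := (IsFractionRing.lift hj).toRatAlgHom
  let J' : F →ₐ[ℚ] AlgebraicClosure ℚ := (IsFractionRing.lift hj').toRatAlgHom
  let φ : J.fieldRange →ₐ[ℚ] AlgebraicClosure ℚ :=
    J'.comp (AlgEquiv.ofInjectiveField J).symm.toAlgHom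
  let s : AlgebraicClosure ℚ →ₐ[ℚ] AlgebraicClosure ℚ := φ.liftNormal (AlgebraicClosure ℚ)
  refine ⟨AlgEquiv.ofBijective s (Algebra.IsAlgebraic.algHom_bijective s), fun t => ?_⟩
  set x : J.fieldRange := AlgEquiv.ofInjectiveField J (algebraMap D F (Ideal.Quotient.mk P t))
  have hx : (x : AlgebraicClosure ℚ) = h t := IsFractionRing.lift_algebraMap hj _
  show s (h t) = h' t
  rw [← hx]
  refine (φ.liftNormal_commutes (AlgebraicClosure ℚ) x).trans ?_
  show J' ((AlgEquiv.ofInjectiveField J).symm x) = h' t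
  rw [show (AlgEquiv.ofInjectiveField J).symm x = algebraMap D F (Ideal.Quotient.mk P t) from
    (AlgEquiv.ofInjectiveField J).symm_apply_apply _]
  exact IsFractionRing.lift_algebraMap hj' _

/-- No homomorphism of the Hecke algebra of a proper divisor has the eigen-system of a newform. -/
theorem not_eigensystem_divisor {M N : ℕ} [NeZero M] [NeZero N] {g : CuspForm (Gamma0 M) 2}
    (hg : g.IsNewform) (hNM : N ∣ M) (hne : N ≠ M) (S : Finset ℕ)
    (θ : CuspForm.heckeAlgebra N 2 (↑S : Set ℕ) →+* ℂ) :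
    ¬ ∀ (ℓ : ℕ) (hℓ : ℓ.Prime) (hℓN : ¬ ℓ ∣ N) (hℓS : ℓ ∉ (↑S : Set ℕ)), ¬ ℓ ∣ M →
      θ (CuspForm.heckeAlgebra.T hℓ hℓN hℓS) = qCoeff ⇑g ℓ := by
  classical
  intro hθ
  obtain ⟨f, χ, hf, hker, -, hfℓ⟩ := Newform.exists_eigenform_of_ringHom (↑S : Set ℕ) θ
  haveI := Hecke.moduleFinite_heckeAlgebra N 2 (↑S : Set ℕ)
  haveI : Algebra.IsIntegral ℤ (CuspForm.heckeAlgebra N 2 (↑S : Set ℕ)) :=
    Algebra.IsIntegral.of_finite _ _
  have hbot : ∀ φ : CuspForm.heckeAlgebra N 2 (↑S : Set ℕ) →+* ℂ,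
      (RingHom.ker φ).comap (algebraMap ℤ (CuspForm.heckeAlgebra N 2 (↑S : Set ℕ))) = ⊥ :=
    fun φ => eq_bot_iff.mpr fun z hz => by
      rw [Ideal.mem_comap, RingHom.mem_ker, eq_intCast, map_intCast, Int.cast_eq_zero] at hz
      exact hz
  haveI : (RingHom.ker χ).IsPrime := RingHom.ker_isPrime χ
  have heq : RingHom.ker θ = RingHom.ker χ := by
    refine le_antisymm (fun z hz => ?_) hker
    by_contra hz'
    have := Ideal.comap_lt_comap_of_integral_mem_sdiff (R := ℤ) hker ⟨hz, hz'⟩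
      (Algebra.IsIntegral.isIntegral z)
    rw [hbot θ, hbot χ] at this
    exact lt_irrefl _ this
  have hlift : ∀ φ : CuspForm.heckeAlgebra N 2 (↑S : Set ℕ) →+* ℂ,
      ∃ φ' : CuspForm.heckeAlgebra N 2 (↑S : Set ℕ) →+* AlgebraicClosure ℚ,
        ∀ t, qbarToC (φ' t) = φ t := fun φ => by
    have h : ∀ t, φ t ∈ qbarToC.range := fun t => exists_qbarToC_eq
      ((((Algebra.IsIntegral.isIntegral (R := ℤ) t).map φ.toIntAlgHom).tower_top (A := ℚ)).isAlgebraic)
    let e := RingEquiv.ofBijective qbarToC.rangeRestrict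
      ⟨fun x y hxy => qbarToC_injective (congrArg Subtype.val hxy), qbarToC.rangeRestrict_surjective⟩
    refine ⟨e.symm.toRingHom.comp (φ.codRestrict _ h), fun t => ?_⟩
    show ((e (e.symm (φ.codRestrict _ h t)) : qbarToC.range) : ℂ) = φ t
    rw [e.apply_symm_apply]
    rfl
  obtain ⟨θ', hθ'⟩ := hlift θ
  obtain ⟨χ', hχ'⟩ := hlift χ
  obtain ⟨s, hs⟩ := exists_galois_conj χ' θ' (by
    refine Ideal.ext fun z => ?_
    rw [RingHom.mem_ker, RingHom.mem_ker, ← map_eq_zero_iff qbarToC qbarToC_injective, hθ',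
      ← map_eq_zero_iff qbarToC qbarToC_injective (x := χ' z), hχ', ← RingHom.mem_ker,
      ← RingHom.mem_ker, heq])
  obtain ⟨σ, hσ⟩ := exists_liftAut s
  have hσχ : ∀ t, σ (χ t) = θ t := fun t => by rw [← hχ', hσ, hs, hθ']
  obtain ⟨f', hf'⟩ := Hecke.exists_cuspForm_conjugate (k := 2) even_two σ.toRingHom f
  have hf'0 : f' ≠ 0 := fun h0 => by
    have h1 := hf' 1
    rw [show f' = (0 : ℂ) • f' by rw [zero_smul]; exact h0, Hecke.qCoeff_smul, zero_mul, hf.1,
      map_one] at h1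
    exact zero_ne_one h1
  refine hf'0 ?_
  have hmem : f' ∈ Newform.goodSpace N {ℓ | ℓ ∈ S ∨ ℓ ∣ M} (fun ℓ => qCoeff ⇑g ℓ) := by
    intro ℓ hℓ hℓN hX
    simp only [Set.mem_setOf_eq, not_or] at hX
    have hℓS : ℓ ∉ (↑S : Set ℕ) := by simpa using hX.1
    have hgℓ : qCoeff ⇑g ℓ = σ (qCoeff ⇑f ℓ) := by
      rw [← hfℓ ℓ hℓ hℓN hℓS, hσχ, hθ ℓ hℓ hℓN hℓS hX.2]
    have hper : ∀ F : CuspForm (Gamma0 N) 2, Function.Periodic (⇑F ∘ UpperHalfPlane.ofComplex) 1 ∧
        UpperHalfPlane.IsBoundedAtImInfty ⇑F := fun F =>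
      ⟨SlashInvariantFormClass.periodic_comp_ofComplex F
          (CongruenceSubgroup.one_mem_strictPeriods_Gamma0 N),
        UpperHalfPlane.IsZeroAtImInfty.isBoundedAtImInfty
          (CuspFormClass.zero_at_infty_slash F 1 |> fun h => by simpa using h)⟩
    have hT : ∀ (F : CuspForm (Gamma0 N) 2) (n : ℕ),
        qCoeff ⇑(CuspForm.heckeTLin 2 hℓ hℓN F) n =
          ModularForm.coeffHeckeT 2 ℓ (qCoeff ⇑F) n := fun F n =>
      UpperHalfPlane.qCoeff_heckeT (hper F).1 F.holo' (hper F).2 2 hℓ.ne_zero n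
    refine DFunLike.coe_injective (UpperHalfPlane.eq_of_forall_qCoeff_eq
      (hper _).1 (CuspForm.holo' _) (hper _).2 (hper _).1 (CuspForm.holo' _) (hper _).2 fun n => ?_)
    rw [hT, Hecke.qCoeff_smul]
    simp only [hgℓ]
    have h1 := hT f n
    rw [Newform.eigen_heckeTLin hf hℓ hℓN, Hecke.qCoeff_smul] at h1
    have h2 : ModularForm.coeffHeckeT 2 ℓ (qCoeff ⇑f') n =
        σ (ModularForm.coeffHeckeT 2 ℓ (qCoeff ⇑f) n) := by
      simp only [ModularForm.coeffHeckeT, hf', map_add, map_mul]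
      split_ifs <;> simp
    rw [h2, ← h1, map_mul, hf']
    rfl
  rwa [Newform.IsNewform.goodSpace_finset_eq_bot hg hNM hne S, Submodule.mem_bot] at hmem

end Fermat.Agent.NewVec
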