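/-
A vector of the lattice killed by an eigensystem and fixed by inertia, from unipotence.
-/
import Fermat.Agent.GalRep.Unramified
import Fermat.Prelude.Def_GaloisRep_LocalConditions

set_option autoImplicit false
set_option linter.style.haveILetI false

noncomputable section

namespace Fermat.Agent.NewVec

open Fermat.Agent.GalRep
open Fermat.Agent.Galois (GQ)
open IsLocalRing Polynomial

variable {N p : ℕ} [NeZero N] [Fact p.Prime] (D : EichlerShimuraDatum N p)

/-- A module with a faithful action and a minimal prime has a vector killed by that prime. -/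
theorem exists_killed {C L : Type} [CommRing C] [IsNoetherianRing C] [AddCommGroup L] [Module C L]
    (hfaith : ∀ c : C, (∀ v : L, c • v = 0) → c = 0) (𝔭 : Ideal C) [h𝔭 : 𝔭.IsPrime]
    (hmin : ∀ 𝔮 : Ideal C, 𝔮.IsPrime → 𝔮 ≤ 𝔭 → 𝔮 = 𝔭) :
    ∃ x : L, x ≠ 0 ∧ ∀ c ∈ 𝔭, c • x = 0 := by
  classical
  have hnil : ∀ y ∈ 𝔭, ∃ (a : C) (n : ℕ), a ∉ 𝔭 ∧ a * y ^ n = 0 := by
    intro y hy
    by_contra hall
    push Not at hall
    let T : Submonoid C :=
      { carrier := {z | ∃ (a : C) (n : ℕ), a ∉ 𝔭 ∧ z = a * y ^ n}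
        one_mem' := ⟨1, 0, fun h => h𝔭.ne_top ((Ideal.eq_top_iff_one _).mpr h), by simp⟩
        mul_mem' := by
          rintro _ _ ⟨a, n, ha, rfl⟩ ⟨b, m, hb, rfl⟩
          exact ⟨a * b, n + m, fun h => (h𝔭.mem_or_mem h).elim ha hb, by rw [pow_add]; ring⟩ }
    have hdis : Disjoint ((⊥ : Ideal C) : Set C) (T : Set C) := by
      rw [Set.disjoint_left]
      rintro z hz ⟨a, n, ha, rfl⟩
      exact hall a n ha hz
    obtain ⟨𝔮, h𝔮, -, hd⟩ := Ideal.exists_le_prime_disjoint ⊥ T hdis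
    have hle : 𝔮 ≤ 𝔭 := fun z hz => by
      by_contra hz'
      exact Set.disjoint_left.mp hd hz ⟨z, 0, hz', by simp⟩
    rw [hmin 𝔮 h𝔮 hle] at hd
    exact Set.disjoint_left.mp hd hy
      ⟨1, 1, fun h => h𝔭.ne_top ((Ideal.eq_top_iff_one _).mpr h), by simp⟩
  obtain ⟨s, hs⟩ : 𝔭.FG := IsNoetherian.noetherian 𝔭
  choose a n ha hn using fun y : {y // y ∈ s} => hnil y.1 (hs ▸ Ideal.subset_span y.2)
  set A : C := ∏ y, a y
  have hA : A ∉ 𝔭 := fun h => by
    obtain ⟨y, -, hy⟩ := (Ideal.IsPrime.prod_mem_iff (hp := h𝔭)).mp h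
    exact ha y hy
  obtain ⟨v, hv⟩ : ∃ v : L, A • v ≠ 0 := by
    by_contra h
    push Not at h
    exact hA (hfaith A h ▸ 𝔭.zero_mem)
  -- multiply by generators as long as possible
  have key : ∀ t : Finset {y // y ∈ s}, ∃ x : L, x ≠ 0 ∧ (∃ c : C, x = (c * A) • v) ∧
      ∀ y ∈ t, (y : C) • x = 0 := by
    intro t
    induction t using Finset.induction_on with
    | empty => exact ⟨A • v, hv, ⟨1, by rw [one_mul]⟩, by simp⟩
    | insert y t _ ih =>
      obtain ⟨x, hx, ⟨c, rfl⟩, hxt⟩ := ih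
      have hex : ∃ m, (y : C) ^ m • (c * A) • v = 0 := ⟨n y, by
        rw [smul_smul, show (y : C) ^ n y * (c * A) =
          c * ((∏ z ∈ Finset.univ.erase y, a z) * (a y * (y : C) ^ n y)) by
            simp only [A]
            rw [← Finset.mul_prod_erase Finset.univ a (Finset.mem_univ y)]; ring, hn, mul_zero,
          mul_zero, zero_smul]⟩
      obtain ⟨m, hm⟩ : ∃ m, Nat.find hex = m + 1 := Nat.exists_eq_succ_of_ne_zero fun h0 => by
        have := Nat.find_spec hex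
        rw [h0, pow_zero, one_smul] at this
        exact hx this
      refine ⟨(y : C) ^ m • (c * A) • v, Nat.find_min hex (by omega),
        ⟨(y : C) ^ m * c, by rw [smul_smul, mul_assoc]⟩, fun z hz => ?_⟩
      rcases Finset.mem_insert.mp hz with rfl | hz
      · rw [smul_smul, ← pow_succ', ← hm]; exact Nat.find_spec hex
      · rw [smul_comm, hxt z hz, smul_zero]
  obtain ⟨x, hx, -, hxs⟩ := key Finset.univ
  refine ⟨x, hx, fun c hc => ?_⟩
  rw [← hs] at hc
  refine Submodule.span_induction (p := fun c _ => c • x = 0) (fun y hy => hxs ⟨y, hy⟩ (Finset.mem_univ _))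
    (zero_smul C x) (fun _ _ _ _ h1 h2 => by rw [add_smul, h1, h2, add_zero])
    (fun r _ _ h => by rw [smul_eq_mul, mul_smul, h, smul_zero]) hc

/-- Commuting with the generators is commuting with the closed algebra. -/
theorem commute_closure (S : Set ℕ) (σ : GQ) (c : heckeClosure D S) :
    Commute (D.galois σ) (c : Module.End ℤ_[p] D.L) := by
  obtain ⟨c, hc⟩ := c
  show Commute (D.galois σ) c
  induction hc using Algebra.adjoin_induction with
  | mem x hx => obtain ⟨i, rfl⟩ := hx; exact D.galois_hecke σ _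
  | algebraMap r => exact (Algebra.commutes r _).symm
  | add x y _ _ h h' => exact h.add_right h'
  | mul x y _ _ h h' => exact h.mul_right h'

variable {R : Type} [CommRing R] [Algebra ℤ_[p] R]

/-- From unipotence of the traces at one inertia group, a nonzero vector killed by the kernel of
the eigensystem and fixed by that inertia group. -/
theorem exists_fixed_killed [IsDomain R] [CharZero R] (S : Finset ℕ)
    (ψ : heckeClosure D (↑S : Set ℕ) →ₐ[ℤ_[p]] R)
    (I : Subgroup GQ) (hcyc : ∀ σ ∈ I, cyc p σ = 1)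
    (htr : ∀ σ ∈ I, ψ ⟨uTrace D σ, uTrace_mem D frobeniusPowDensity S σ⟩ = 2) :
    ∃ x : D.L, x ≠ 0 ∧ (∀ σ ∈ I, D.galois σ x = x) ∧
      ∀ c, ψ c = 0 → (c : Module.End ℤ_[p] D.L) x = 0 := by
  classical
  haveI : IsNoetherian ℤ_[p] (Module.End ℤ_[p] D.L) := inferInstance
  haveI hfin : Module.Finite ℤ_[p] (heckeClosure D (↑S : Set ℕ)) :=
    Module.Finite.of_injective (heckeClosure D (↑S : Set ℕ)).val.toLinearMap Subtype.val_injective
  haveI : IsNoetherianRing (heckeClosure D (↑S : Set ℕ)) :=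
    IsNoetherianRing.of_finite ℤ_[p] _
  haveI : Algebra.IsIntegral ℤ_[p] (heckeClosure D (↑S : Set ℕ)) := Algebra.IsIntegral.of_finite _ _
  set 𝔭 := RingHom.ker ψ.toRingHom
  haveI h𝔭 : 𝔭.IsPrime := RingHom.ker_isPrime _
  have hinjp : Function.Injective (algebraMap ℤ_[p] R) := by
    rw [injective_iff_map_eq_zero]
    intro a ha
    by_contra h0
    rw [PadicInt.unitCoeff_spec h0, map_mul, map_pow, map_natCast] at ha
    rcases mul_eq_zero.mp ha with h1 | h1
    · exact ((PadicInt.unitCoeff h0).isUnit.map (algebraMap ℤ_[p] R)).ne_zero h1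
    · exact Nat.cast_ne_zero.mpr (Fact.out : p.Prime).ne_zero (pow_eq_zero_iff'.mp h1).1
  have hcom : ∀ 𝔮 : Ideal (heckeClosure D (↑S : Set ℕ)), 𝔮 ≤ 𝔭 →
      𝔮.comap (algebraMap ℤ_[p] _) = ⊥ := fun 𝔮 hle => by
    rw [eq_bot_iff]
    intro a ha
    have h1 : ψ (algebraMap ℤ_[p] _ a) = 0 := hle ha
    rw [AlgHom.commutes] at h1
    exact Ideal.mem_bot.mpr (hinjp (h1.trans (map_zero _).symm))
  obtain ⟨x₀, hx₀, hk₀⟩ := exists_killed (C := heckeClosure D (↑S : Set ℕ)) (L := D.L)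
    (fun c hc => Subtype.ext (LinearMap.ext hc)) 𝔭 fun 𝔮 h𝔮 hle => by
      refine le_antisymm hle fun z hz => ?_
      by_contra hz'
      have := Ideal.comap_lt_comap_of_integral_mem_sdiff (R := ℤ_[p]) hle ⟨hz, hz'⟩
        (Algebra.IsIntegral.isIntegral z)
      rw [hcom 𝔮 hle, hcom 𝔭 le_rfl] at this
      exact lt_irrefl _ this
  let K : Set D.L := {v | ∀ c, ψ c = 0 → (c : Module.End ℤ_[p] D.L) v = 0}
  have hstab : ∀ (σ : GQ) v, v ∈ K → D.galois σ v ∈ K := fun σ v hv c hc => by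
    rw [← Module.End.mul_apply, ← (commute_closure D _ σ c).eq, Module.End.mul_apply, hv c hc,
      map_zero]
  let Nσ : GQ → Module.End ℤ_[p] D.L := fun σ => D.galois σ - 1
  have hNK : ∀ σ v, v ∈ K → Nσ σ v ∈ K := fun σ v hv c hc => by
    show (c : Module.End ℤ_[p] D.L) (D.galois σ v - v) = 0
    rw [map_sub, hstab σ v hv c hc, hv c hc, sub_zero]
  -- square zero
  have hsq : ∀ σ ∈ I, ∀ v ∈ K, Nσ σ (Nσ σ v) = 0 := by
    intro σ hσ v hv
    set u : heckeClosure D (↑S : Set ℕ) := ⟨uTrace D σ, uTrace_mem D frobeniusPowDensity S σ⟩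
    have h1 : ψ (u - 2) = 0 := by rw [map_sub, htr σ hσ, map_ofNat, sub_self]
    have h2 := hv _ h1
    have e2 : ((2 : heckeClosure D (↑S : Set ℕ)) : Module.End ℤ_[p] D.L) = (2 : ℕ) :=
      map_natCast (heckeClosure D (↑S : Set ℕ)).val 2
    rw [AddSubgroupClass.coe_sub, LinearMap.sub_apply, e2, Module.End.natCast_apply, sub_eq_zero] at h2
    simp only [u, uTrace, hcyc σ hσ, Units.val_one, one_smul, LinearMap.add_apply] at h2
    have h3 := congrArg (D.galois σ) h2
    rw [map_add, ← Module.End.mul_apply, ← Module.End.mul_apply, galois_mul_inv,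
      Module.End.one_apply, map_nsmul] at h3
    show D.galois σ (D.galois σ v - v) - (D.galois σ v - v) = 0
    rw [map_sub, ← Module.End.mul_apply]
    rw [two_nsmul] at h3
    linear_combination (norm := abel) h3
  have hanti : ∀ σ ∈ I, ∀ τ ∈ I, ∀ v ∈ K, Nσ σ (Nσ τ v) + Nσ τ (Nσ σ v) = 0 := by
    intro σ hσ τ hτ v hv
    have hpow : ∀ (ρ : GQ), ρ ∈ I → ∀ (m : ℕ) (w : D.L), w ∈ K →
        D.galois (ρ ^ m) w = w + m • Nσ ρ w := by
      intro ρ hρ m w hw
      induction m with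
      | zero => simp
      | succ m ih =>
        have h0 := hsq ρ hρ w hw
        simp only [Nσ, LinearMap.sub_apply, Module.End.one_apply, map_sub] at h0 ih ⊢
        rw [pow_succ', map_mul, Module.End.mul_apply, ih, map_add, map_nsmul, map_sub, succ_nsmul]
        rw [sub_eq_zero] at h0
        rw [h0]
        abel
    set X := Nσ σ (Nσ τ (Nσ σ v))
    set Y := Nσ τ (Nσ σ (Nσ τ v))
    set Z := Nσ σ (Nσ τ (Nσ σ (Nσ τ v)))
    set W := Nσ σ (Nσ τ v) + Nσ τ (Nσ σ v)
    have key : ∀ a b : ℕ, (a * b) • W + (a * (a * b)) • X + (a * b * b) • Y +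
        (a * b * (a * b)) • Z = 0 := by
      intro a b
      have hprod : ∀ w ∈ K, Nσ (σ ^ a * τ ^ b) w =
          a • Nσ σ w + b • Nσ τ w + (a * b) • Nσ σ (Nσ τ w) := fun w hw => by
        show D.galois (σ ^ a * τ ^ b) w - w = _
        rw [map_mul, Module.End.mul_apply, hpow τ hτ b w hw, map_add, map_nsmul,
          hpow σ hσ a w hw, hpow σ hσ a _ (hNK τ w hw), smul_add, mul_nsmul]
        abel
      have h := hsq (σ ^ a * τ ^ b) (mul_mem (pow_mem hσ a) (pow_mem hτ b)) v hv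
      rw [hprod v hv] at h
      simp only [map_add, map_nsmul] at h
      rw [hprod _ (hNK σ v hv), hprod _ (hNK τ v hv), hprod _ (hNK σ _ (hNK τ v hv)),
        hsq σ hσ v hv, hsq τ hτ v hv] at h
      rw [hsq σ hσ (Nσ τ v) (hNK τ v hv)] at h
      simp only [smul_zero, smul_add, map_zero, add_zero, zero_add, ← mul_nsmul'] at h
      rw [mul_comm b a] at h
      rw [← h]
      simp only [W, smul_add, X, Y, Z]
      abel
    have k11 := key 1 1
    have k21 := key 2 1
    have k12 := key 1 2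
    have k22 := key 2 2
    simp only [← Nat.cast_smul_eq_nsmul ℤ_[p]] at k11 k21 k12 k22
    push_cast at k11 k21 k12 k22
    have : (4 : ℤ_[p]) • W = 0 := by
      linear_combination (norm := module) (16 : ℤ_[p]) • k11 - (4 : ℤ_[p]) • k21 - (4 : ℤ_[p]) • k12 + k22
    exact (smul_eq_zero.mp this).resolve_left (by norm_num)
  -- a maximal space of annihilators
  let ann : D.L → Submodule ℤ_[p] (Module.End ℤ_[p] D.L) := fun v =>
    Submodule.span ℤ_[p] (Nσ '' {σ | σ ∈ I ∧ Nσ σ v = 0})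
  obtain ⟨_, ⟨x, hx0, hxK, rfl⟩, hmax⟩ := set_has_maximal_iff_noetherian.mpr
    (inferInstance : IsNoetherian ℤ_[p] (Module.End ℤ_[p] D.L))
    {A | ∃ v, v ≠ 0 ∧ v ∈ K ∧ ann v = A} ⟨_, x₀, hx₀, fun c hc => hk₀ c hc, rfl⟩
  refine ⟨x, hx0, fun σ hσ => ?_, hxK⟩
  by_contra hne
  have hy0 : Nσ σ x ≠ 0 := fun h => hne (sub_eq_zero.mp h)
  have hle : ann x ≤ ann (Nσ σ x) := by
    rw [Submodule.span_le]
    rintro _ ⟨τ, ⟨hτ, hτx⟩, rfl⟩
    refine Submodule.subset_span ⟨τ, ⟨hτ, ?_⟩, rfl⟩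
    have h := hanti τ hτ σ hσ x hxK
    rwa [hτx, map_zero, add_zero] at h
  have hmem : Nσ σ ∈ ann x := by
    have heq : ann (Nσ σ x) = ann x := by
      by_contra hne'
      exact hmax _ ⟨Nσ σ x, hy0, hNK σ x hxK, rfl⟩ (lt_of_le_of_ne hle (Ne.symm hne'))
    rw [← heq]
    exact Submodule.subset_span ⟨σ, ⟨hσ, hsq σ hσ x hxK⟩, rfl⟩
  refine hy0 ?_
  refine Submodule.span_induction (p := fun f _ => f x = 0) ?_ rfl ?_ ?_ hmem
  · rintro _ ⟨τ, ⟨-, hτx⟩, rfl⟩; exact hτx
  · intro f g _ _ hf hg; rw [LinearMap.add_apply, hf, hg, add_zero]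
  · intro r f _ hf; rw [LinearMap.smul_apply, hf, smul_zero]

end Fermat.Agent.NewVec
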