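/-
Unipotence at `q` gives an inertia-fixed class whose sums of translates vanish.
-/
import Fermat.Agent.NewVec.Fixed
import Fermat.Agent.NewVec.Hecke
import Fermat.Agent.NewVec.PsiGalois
import Fermat.Agent.NewVec.Agree
import Fermat.Agent.GalRep.Assembly
import Fermat.Agent.GalRep.PadicLift

set_option autoImplicit false
set_option linter.style.haveILetI false

noncomputable section

namespace Fermat.Agent.NewVec

open CongruenceSubgroup
open Fermat.Agent.GalRep
open Fermat.Agent.Galois (GQ)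
open Fermat.Agent.Deform
open IsLocalRing
open MvPolynomial (rename)
open scoped IsMulCommutative MatrixGroups

variable {q m : ℕ} [NeZero q] [NeZero m] [hqm : Fact (Nat.Coprime q m)]
  {p : ℕ} [Fact p.Prime]

local notation "L₀" => q * q * m

/-- A good prime of level `q^2 m` as a good prime of level `qm`. -/
def lowPrime {S : Set ℕ} (i : GoodPrimeOff (L₀) S) : GoodPrime (q * m) :=
  ⟨i.1.1, fun h => i.1.2 (h.trans ⟨q, by ring⟩)⟩

theorem latPsi_heckePoly (hM : KummerReduction (L₀)) (hN : KummerReduction (q * m))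
    (g : SL(2, ZMod q)) {S : Set ℕ} (hpS : p ∈ S) (Q : MvPolynomial (GoodPrimeOff (L₀) S) ℤ)
    (v : Lat (L₀) p) :
    latPsi q m p g (latHeckePoly (L₀) p (rename Subtype.val Q) v) =
      latHeckePoly (q * m) p (rename lowPrime Q) (latPsi q m p g v) := by
  induction Q using MvPolynomial.induction_on generalizing v with
  | C a =>
    rw [MvPolynomial.rename_C, MvPolynomial.rename_C, ← MvPolynomial.algebraMap_eq,
      ← MvPolynomial.algebraMap_eq, AlgHom.commutes, AlgHom.commutes, Module.algebraMap_end_apply,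
      Module.algebraMap_end_apply, map_zsmul]
  | add P R hP hR => simp only [map_add, LinearMap.add_apply, hP, hR]
  | mul_X P i hP =>
    rw [map_mul, map_mul, map_mul, map_mul, Module.End.mul_apply, Module.End.mul_apply, hP,
      MvPolynomial.rename_X, MvPolynomial.rename_X, latHeckePoly, latHeckePoly, polyHom_X,
      polyHom_X]
    congr 1
    exact latPsi_hecke hM hN g i.1.1.2 i.1.2 (lowPrime i).2 (fun h => i.2 (by rw [h]; exact hpS)) v

theorem exists_poly_coeff_zero {b : ℂ} (hint : IsIntegral ℤ b) (hb : b ≠ 0) :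
    ∃ R : Polynomial ℤ, R.coeff 0 ≠ 0 ∧ Polynomial.aeval b R = 0 :=
  ⟨minpoly ℤ b, fun h0 => hb (by
  have hX : Polynomial.X = minpoly ℤ b := Polynomial.eq_of_monic_of_associated Polynomial.monic_X
    (minpoly.monic hint) (Polynomial.prime_X.irreducible.associated_of_dvd
      (minpoly.irreducible hint) (Polynomial.X_dvd_iff.mpr h0))
  have h2 := minpoly.aeval ℤ b
  rw [← hX, Polynomial.aeval_X] at h2
  exact h2), minpoly.aeval ℤ b⟩

/-- A vector killed by the relations of a newform's eigen-system maps to zero at level `qm`. -/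
theorem latPsi_eq_zero (hM : KummerReduction (L₀)) (hN : KummerReduction (q * m))
    (hq1 : 1 < q) {f : CuspForm (Gamma0 (L₀)) 2} (hf : f.IsNewform) (S : Finset ℕ) (hpS : p ∈ S)
    (hMS : ∀ l : ℕ, l.Prime → l ∣ L₀ → l ∈ S)
    (chig : CuspForm.heckeAlgebra (L₀) 2 (↑S : Set ℕ) →+* ℂ)
    (hchig : ∀ (ℓ : ℕ) (hℓ : ℓ.Prime) (hℓM : ¬ ℓ ∣ L₀) (hℓS : ℓ ∉ (↑S : Set ℕ)),
      chig (CuspForm.heckeAlgebra.T hℓ hℓM hℓS) = ModularFormClass.qCoeff f ℓ)
    (v : Lat (L₀) p)
    (hv : ∀ Q, chig (evFormsOff (↑S : Set ℕ) Q) = 0 → latHeckePoly (L₀) p (rename Subtype.val Q) v = 0)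
    (g : SL(2, ZMod q)) : latPsi q m p g v = 0 := by
  classical
  by_contra hy
  set y := latPsi q m p g v
  have hdvd : ∀ l, l ∣ q * m → l ∣ L₀ := fun l hl => hl.trans ⟨q, by ring⟩
  let ev : MvPolynomial (GoodPrimeOff (L₀) (↑S : Set ℕ)) ℤ →ₐ[ℤ]
      CuspForm.heckeAlgebra (q * m) 2 (↑S : Set ℕ) :=
    MvPolynomial.aeval fun i => CuspForm.heckeAlgebra.T i.1.1.2 (lowPrime i).2 i.2
  have hcoe : ∀ Q, (ev Q : Module.End ℂ (CuspForm (Gamma0 (q * m)) 2)) =
      (evForms (q * m) (rename lowPrime Q) :) := fun Q => by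
    induction Q using MvPolynomial.induction_on with
    | C a => simp [ev, evForms]
    | add x z hx hz => simp only [map_add, Subalgebra.coe_add, hx, hz]
    | mul_X x i hx =>
      simp only [map_mul, Subalgebra.coe_mul, hx, MvPolynomial.rename_X]
      congr 1
      simp [ev, evForms, lowPrime]
  have hsurj : Function.Surjective ev := by
    have : CuspForm.heckeAlgebra (q * m) 2 (↑S : Set ℕ) ≤
        ((CuspForm.heckeAlgebra (q * m) 2 (↑S : Set ℕ)).val.comp ev).range := by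
      refine Algebra.adjoin_le ?_
      rintro _ (⟨ℓ, hℓ, hℓN, hℓS, rfl⟩ | ⟨l, hlN, hl, hlS, rfl⟩)
      · exact ⟨MvPolynomial.X ⟨⟨⟨ℓ, hℓ⟩, fun h => hℓS (hMS ℓ hℓ h)⟩, hℓS⟩, by simp [ev]⟩
      · exact absurd (hMS l hl (hdvd l hlN)) hlS
    intro c
    obtain ⟨Q, hQ⟩ := this c.2
    exact ⟨Q, Subtype.ext hQ⟩
  haveI := Hecke.moduleFinite_heckeAlgebra (L₀) 2 (↑S : Set ℕ)
  haveI : Algebra.IsIntegral ℤ (CuspForm.heckeAlgebra (L₀) 2 (↑S : Set ℕ)) :=
    Algebra.IsIntegral.of_finite _ _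
  have hker : RingHom.ker ev.toRingHom ≤
      RingHom.ker (chig.comp (evFormsOff (N := L₀) (↑S : Set ℕ)).toRingHom) := by
    intro Q hQ
    rw [RingHom.mem_ker] at hQ ⊢
    by_contra hb
    have hint : IsIntegral ℤ (chig (evFormsOff (↑S : Set ℕ) Q)) :=
      (Algebra.IsIntegral.isIntegral (R := ℤ) (evFormsOff (N := L₀) (↑S : Set ℕ) Q)).map
        chig.toIntAlgHom
    obtain ⟨R, hR0, hRa⟩ := exists_poly_coeff_zero (b := chig (evFormsOff (↑S : Set ℕ) Q)) hint hb
    set φ : MvPolynomial (GoodPrimeOff (L₀) (↑S : Set ℕ)) ℤ →ₐ[ℤ] ℂ :=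
      chig.toIntAlgHom.comp (evFormsOff (↑S : Set ℕ))
    have hR : chig (evFormsOff (↑S : Set ℕ) (Polynomial.aeval Q R)) = 0 := by
      show φ (Polynomial.aeval Q R) = 0
      rw [← Polynomial.aeval_algHom_apply]
      exact hRa
    have h1 := congrArg (latPsi q m p g) (hv _ hR)
    rw [map_zero, latPsi_heckePoly hM hN g (by simpa using hpS), ← Polynomial.aeval_algHom_apply,
      ← Polynomial.aeval_algHom_apply] at h1
    have hQe : ev Q = 0 := hQ
    have hQ0 : evForms (q * m) (rename lowPrime Q) = 0 := Subtype.ext (by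
      rw [← hcoe, hQe, ZeroMemClass.coe_zero, ZeroMemClass.coe_zero])
    have hQ1 : latHeckePoly (q * m) p (rename lowPrime Q) = 0 := LinearMap.ext fun w => by
      have h := toPar_latHeckePoly (rename lowPrime Q) w
      rw [heckePoly_eq_zero_of_forms hQ0, LinearMap.zero_apply] at h
      exact Subtype.ext (congrArg (fun z : ParHom (q * m) ℤ_[p] => z.1) h)
    rw [hQ1, show Polynomial.aeval (0 : Module.End ℤ_[p] (Lat (q * m) p)) R =
        (R.coeff 0 : Module.End ℤ_[p] (Lat (q * m) p)) by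
      rw [← Polynomial.coeff_zero_eq_aeval_zero']
      simp, Module.End.intCast_apply, ← Int.cast_smul_eq_zsmul ℤ_[p]] at h1
    exact hy ((smul_eq_zero.mp h1).resolve_left (Int.cast_ne_zero.mpr hR0))
  let θ : CuspForm.heckeAlgebra (q * m) 2 (↑S : Set ℕ) →+* ℂ :=
    RingHom.liftOfSurjective ev.toRingHom hsurj ⟨_, hker⟩
  have hne : q * m ≠ L₀ := fun h => by
    have h1 : 1 * (q * m) = q * (q * m) := by rw [one_mul, ← mul_assoc]; exact h
    exact hq1.ne (Nat.eq_of_mul_eq_mul_right (Nat.pos_of_neZero (q * m)) h1)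
  refine not_eigensystem_divisor hf ⟨q, by ring⟩ hne S θ fun ℓ hℓ hℓN hℓS hℓM => ?_
  have e : CuspForm.heckeAlgebra.T hℓ hℓN hℓS = ev.toRingHom
      (MvPolynomial.X (⟨⟨⟨ℓ, hℓ⟩, hℓM⟩, hℓS⟩ : GoodPrimeOff (L₀) (↑S : Set ℕ))) := by
    simp [ev]
  rw [e]
  refine (RingHom.liftOfRightInverse_comp_apply _ _ _ _ _).trans ?_
  show chig (evFormsOff _ (MvPolynomial.X _)) = _
  rw [evFormsOff, MvPolynomial.aeval_X]
  exact hchig ℓ hℓ hℓM hℓS

/-- Unipotence at `q` gives a fixed vector whose sums of translates vanish. -/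
theorem exists_fixed_sum_zero (hM : KummerReduction (L₀)) (hN : KummerReduction (q * m))
    (hq : q.Prime) (hqp : q ≠ p) {f : CuspForm (Gamma0 (L₀)) 2} (hf : f.IsNewform)
    (S : Finset ℕ) (hpS : p ∈ S) (hMS : ∀ l : ℕ, l.Prime → l ∣ L₀ → l ∈ S)
    (chig : CuspForm.heckeAlgebra (L₀) 2 (↑S : Set ℕ) →+* ℂ)
    (hchig : ∀ (ℓ : ℕ) (hℓ : ℓ.Prime) (hℓM : ¬ ℓ ∣ L₀) (hℓS : ℓ ∉ (↑S : Set ℕ)),
      chig (CuspForm.heckeAlgebra.T hℓ hℓM hℓS) = ModularFormClass.qCoeff f ℓ)
    {O : Type} [CommRing O] [IsDomain O] [IsDiscreteValuationRing O]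
    [IsAdicComplete (maximalIdeal O) O] [CharZero O] (hp : (p : O) ∈ maximalIdeal O)
    (j : chig.range →+* O) (ρ : GaloisRepAdic O)
    (hchar : ∀ (ℓ : ℕ) (hℓ : ℓ.Prime) (hℓN : ¬ ℓ ∣ L₀) (hℓS : ℓ ∉ (↑S : Set ℕ)),
      ∀ A : ValuationSubring (AlgebraicClosure ℚ), A.LiesOverPrime ℓ →
        ∀ σ : GQ, A.IsFrobeniusAt σ ℓ → LinearMap.charpoly (ρ.ρ σ) =
          Polynomial.X ^ 2 - Polynomial.C ((j.comp chig.rangeRestrict)
            (CuspForm.heckeAlgebra.T hℓ hℓN hℓS)) * Polynomial.X + Polynomial.C ((ℓ : O)))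
    (hu : ρ.IsUnipotentOnInertiaAt q)
    {A : ValuationSubring (AlgebraicClosure ℚ)} (hA : A.LiesOverPrime q) :
    ∃ v : Lat (L₀) p, v ≠ 0 ∧
      (∀ σ ∈ A.inertiaSubgroupIn ℚ, (latDatum (L₀) p hM).galois σ v = v) ∧
      ∀ g : SL(2, ZMod q), ∑ w : ZMod q, ∑ a : (ZMod q)ˣ,
        act q m (Level.conjA a g * unip q w) (pullQ q m (toPar v)) = 0 := by
  classical
  letI : Algebra ℤ_[p] O := padicAlgebra hp
  let D := latDatum (L₀) p hM
  set χ : CuspForm.heckeAlgebra (L₀) 2 (↑S : Set ℕ) →+* O := j.comp chig.rangeRestrict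
  obtain ⟨ψ, hψ, hψc⟩ := exists_extension (D := D) hp
    (fun x hx => IsHausdorff.haus (inferInstance : IsHausdorff (maximalIdeal O) O) x fun k => by
      rw [SModEq.zero, smul_eq_mul, Ideal.mul_top]; exact hx k) χ
  obtain ⟨r, hr⟩ := exists_hasMatrix ρ
  have htr := trace_eq_uTrace D S frobeniusPowDensity χ ψ hψ hψc ρ hchar hr
  have h2 : ∀ σ ∈ A.inertiaSubgroupIn ℚ,
      ψ ⟨uTrace D σ, uTrace_mem D frobeniusPowDensity S σ⟩ = 2 := fun σ hσ => by
    rw [← htr]
    obtain ⟨b, hb⟩ := hr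
    have hc := hu A hA σ hσ
    rw [← LinearMap.charpoly_toMatrix _ b, hb, Matrix.charpoly_fin_two] at hc
    have h := congrArg (fun P => Polynomial.coeff P 1) hc
    rw [show ((Polynomial.X : Polynomial O) - 1) ^ 2 = Polynomial.X ^ 2 - Polynomial.C 2 * Polynomial.X
      + Polynomial.C 1 by rw [Polynomial.C_ofNat, map_one]; ring] at h
    simp [Polynomial.coeff_X_pow, Polynomial.coeff_C, Polynomial.coeff_one] at h
    exact h
  obtain ⟨v, hv0, hvI, hvk⟩ := exists_fixed_killed D S ψ (A.inertiaSubgroupIn ℚ)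
    (fun σ hσ => cyc_inertia p hq hqp hA hσ) h2
  refine ⟨v, hv0, hvI, fun g => sum_translates_eq_zero q m g _ ?_⟩
  have hψP : ∀ F, ψ (heckeClosureHom D (↑S : Set ℕ) (MvPolynomial.map (Int.castRingHom ℤ_[p]) F)) =
      χ (evFormsOff (↑S : Set ℕ) F) := fun F => by
    induction F using MvPolynomial.induction_on with
    | C a => simp
    | add x y hx hy => simp only [map_add, hx, hy]
    | mul_X x i hx =>
      simp only [map_mul, hx, MvPolynomial.map_X]
      congr 1
      rw [show heckeClosureHom D (↑S : Set ℕ) (MvPolynomial.X i) = heckeGen D _ i from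
        MvPolynomial.aeval_X _ _, hψ, evFormsOff, MvPolynomial.aeval_X]
  have h := latPsi_eq_zero hM hN hq.one_lt hf S hpS hMS chig hchig v (fun Q hQ => by
    have h1 := hvk _ ((hψP Q).trans (by
      show j (chig.rangeRestrict _) = 0
      rw [show chig.rangeRestrict (evFormsOff _ Q) = 0 from Subtype.ext hQ, map_zero]))
    rw [coe_heckeClosureHom_map] at h1
    exact h1) g
  exact Subtype.ext (congrArg (fun z : Lat (q * m) p => z.1) h)

end Fermat.Agent.NewVec
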